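import Fermat.Agent.PTLocal.NormIndex

/-!
# Unramified cyclic extensions of local fields of prime degree
-/

set_option autoImplicit false

namespace Fermat.Agent.PTLocal

open AddSubgroup Polynomial

section generic

variable {K L : Type} [Field K] [Field L] [Algebra K L] [FiniteDimensional K L] [IsGalois K L]
  {p : ℕ} [hp : Fact p.Prime]

omit [FiniteDimensional K L] [IsGalois K L] in
/-- norm as a product over powers of a generator. -/
lemma norm_eq_prod_pow [FiniteDimensional K L] [IsGalois K L] {σ : L ≃ₐ[K] L}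
    (hσ : ∀ τ, τ ∈ Subgroup.zpowers σ) (hord : orderOf σ = p) (x : L) :
    algebraMap K L (Algebra.norm K x) = ∏ i ∈ Finset.range p, (σ ^ i) x := by
  classical
  rw [Algebra.norm_eq_prod_automorphisms]
  symm
  refine Finset.prod_bij (fun i _ => σ ^ i) (fun _ _ => Finset.mem_univ _) ?_ ?_ ?_
  · intro a ha b hb hab
    rw [Finset.mem_range, ← hord] at ha hb
    exact pow_injOn_Iio_orderOf ha hb hab
  · intro τ _
    have h2 := hσ τ
    rw [← mem_powers_iff_mem_zpowers, Submonoid.mem_powers_iff] at h2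
    obtain ⟨n, rfl⟩ := h2
    refine ⟨n % p, Finset.mem_range.mpr (Nat.mod_lt _ hp.out.pos), ?_⟩
    rw [← hord, pow_mod_orderOf]
  · intro a _; rfl

end generic

section localfield

variable (q : ℕ) [hq : Fact q.Prime]
variable (K : Type) [NontriviallyNormedField K] [IsUltrametricDist K]
  [NormedAlgebra ℚ_[q] K] [FiniteDimensional ℚ_[q] K]
variable (L : Type) [NontriviallyNormedField L] [IsUltrametricDist L]
  [NormedAlgebra ℚ_[q] L] [FiniteDimensional ℚ_[q] L] [Algebra K L] [IsScalarTower ℚ_[q] K L]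

include q in
omit [IsUltrametricDist K] [IsUltrametricDist L] in
/-- uniqueness of the extension of the norm -/
lemma norm_algebraMap_eq (y : K) : ‖algebraMap K L y‖ = ‖y‖ := by
  rw [NormedAlgebra.norm_eq_spectralNorm ℚ_[q] y, NormedAlgebra.norm_eq_spectralNorm ℚ_[q]
    (algebraMap K L y), spectralNorm.eq_of_tower (K := ℚ_[q]) (L := L) y]

include q in
omit [IsUltrametricDist K] [IsUltrametricDist L] [FiniteDimensional ℚ_[q] K] in
/-- automorphisms are isometries -/
lemma norm_aut (σ : L ≃ₐ[K] L) (x : L) : ‖σ x‖ = ‖x‖ := by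
  rw [NormedAlgebra.norm_eq_spectralNorm ℚ_[q] x, NormedAlgebra.norm_eq_spectralNorm ℚ_[q] (σ x)]
  exact (spectralNorm_eq_of_equiv (σ.restrictScalars ℚ_[q]) x).symm

variable [FiniteDimensional K L] [IsGalois K L]
variable {p : ℕ} [hp : Fact p.Prime]

include q in
omit [IsUltrametricDist K] [IsUltrametricDist L] hp in
lemma norm_norm (hdeg : Module.finrank K L = p) (x : L) : ‖Algebra.norm K x‖ = ‖x‖ ^ p := by
  classical
  rw [← norm_algebraMap_eq q K L, Algebra.norm_eq_prod_automorphisms, norm_prod]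
  rw [Finset.prod_congr rfl (fun σ _ => norm_aut q K L σ x), Finset.prod_const, Finset.card_univ,
    ← Nat.card_eq_fintype_card, IsGalois.card_aut_eq_finrank, hdeg]

omit [FiniteDimensional K L] [IsGalois K L] in
include q in
/-- In an unramified extension the norm group consists of the elements whose valuation is
divisible by `p`. In particular units are norms (of units). -/
theorem unit_norm_of_unramified [FiniteDimensional K L] [IsGalois K L]
    (hdeg : Module.finrank K L = p)
    (hunr : ∀ x : L, x ≠ 0 → ∃ y : K, ‖y‖ = ‖x‖) (u z : K) (hu0 : u ≠ 0) (hu : ‖u‖ = ‖z‖ ^ p) :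
    ∃ x : L, Algebra.norm K x = u := by
  have := properSpace_of_finite q K
  -- subgroup of elements with valuation divisible by `p`
  set M : AddSubgroup (Additive Kˣ) :=
    (((⊤ : AddSubgroup (Additive Kˣ)).map (logn K)).map (pmul ℝ p)).comap (logn K) with hM
  obtain ⟨r, hr, hr2⟩ := range_logn K
  have hMi : M.index = p := by
    have h1 : (logn K).range = (⊤ : AddSubgroup (Additive Kˣ)).map (logn K) :=
      AddMonoidHom.range_eq_map _
    rw [hM, AddSubgroup.index_comap, h1, hr2]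
    exact cc_zmultiples hr p
  set N : AddSubgroup (Additive Kˣ) := Subgroup.toAddSubgroup (normU K L).range with hN
  have hNi : N.index = p := by
    rw [hN, Subgroup.index_toAddSubgroup, local_norm_index q K L p hdeg]
  have hNM : N ≤ M := by
    rintro v ⟨w, hw⟩
    have hv : ((Additive.toMul v : Kˣ) : K) = Algebra.norm K (w : L) := by
      rw [← normU_coe, hw]
    obtain ⟨y, hy⟩ := hunr (w : L) (Units.ne_zero w)
    have hy0 : y ≠ 0 := by
      rw [← norm_pos_iff, hy, norm_pos_iff]; exact Units.ne_zero w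
    rw [hM, AddSubgroup.mem_comap]
    refine ⟨logn K (Additive.ofMul (Units.mk0 y hy0)), ⟨_, trivial, rfl⟩, ?_⟩
    change p • Real.log ‖y‖ = Real.log ‖((Additive.toMul v : Kˣ) : K)‖
    rw [hv, norm_norm q K L hdeg, hy, Real.log_pow, nsmul_eq_mul]
  have hMN : M ≤ N := by
    rw [← AddSubgroup.relIndex_eq_one]
    have h1 := AddSubgroup.relIndex_mul_index hNM
    rw [hMi, hNi] at h1
    have h2 := hp.out.pos
    exact Nat.eq_of_mul_eq_mul_right h2 (by rw [h1, one_mul])
  have hz0 : z ≠ 0 := by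
    rintro rfl
    rw [norm_zero, zero_pow hp.out.ne_zero, norm_eq_zero] at hu
    exact hu0 hu
  have huM : Additive.ofMul (Units.mk0 u hu0) ∈ M := by
    rw [hM, AddSubgroup.mem_comap]
    refine ⟨logn K (Additive.ofMul (Units.mk0 z hz0)), ⟨_, trivial, rfl⟩, ?_⟩
    change p • Real.log ‖z‖ = Real.log ‖u‖
    rw [hu, Real.log_pow, nsmul_eq_mul]
  obtain ⟨w, hw⟩ := hMN huM
  refine ⟨(w : L), ?_⟩
  rw [← normU_coe, hw]; rfl

omit [FiniteDimensional K L] [IsGalois K L] in
include q in
/-- units are norms of units in the unramified case -/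
theorem unit_norm_unit_of_unramified [FiniteDimensional K L] [IsGalois K L]
    (hdeg : Module.finrank K L = p)
    (hunr : ∀ x : L, x ≠ 0 → ∃ y : K, ‖y‖ = ‖x‖) (u : K) (hu : ‖u‖ = 1) :
    ∃ x : L, ‖x‖ = 1 ∧ Algebra.norm K x = u := by
  have hu0 : u ≠ 0 := by rw [← norm_pos_iff, hu]; exact one_pos
  obtain ⟨x, hx⟩ := unit_norm_of_unramified q K L hdeg hunr u 1 hu0 (by rw [hu, norm_one, one_pow])
  refine ⟨x, ?_, hx⟩
  have h1 := norm_norm q K L hdeg x
  rw [hx, hu] at h1
  exact (pow_eq_one_iff_of_nonneg (norm_nonneg _) hp.out.ne_zero).mp h1.symm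

omit [FiniteDimensional K L] [IsGalois K L] [IsUltrametricDist K] [IsUltrametricDist L] in
include q in
/-- Hilbert 90 for units in the unramified case. -/
theorem h90_unit_of_unramified [FiniteDimensional K L] [IsGalois K L] {σ : L ≃ₐ[K] L}
    (hσ : ∀ τ, τ ∈ Subgroup.zpowers σ)
    (hunr : ∀ x : L, x ≠ 0 → ∃ y : K, ‖y‖ = ‖x‖) (x : L) (hx : Algebra.norm K x = 1) :
    ∃ w : L, ‖w‖ = 1 ∧ x = w / σ w := by
  have : IsCyclic (L ≃ₐ[K] L) := ⟨σ, hσ⟩
  obtain ⟨y, hy⟩ := groupCohomology.exists_div_of_norm_eq_one hσ hx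
  obtain ⟨z, hz⟩ := hunr (y : L) (Units.ne_zero y)
  have hz0 : z ≠ 0 := by
    rw [← norm_pos_iff, hz, norm_pos_iff]; exact Units.ne_zero y
  have hz0' : algebraMap K L z ≠ 0 := by simpa using hz0
  refine ⟨(y : L) / algebraMap K L z, ?_, ?_⟩
  · rw [norm_div, norm_algebraMap_eq q K L, hz, div_self]
    rw [norm_ne_zero_iff]; exact Units.ne_zero y
  · rw [map_div₀, AlgEquiv.commutes, ← hy]
    have h1 : σ (y : L) ≠ 0 := by simp
    field_simp

omit [FiniteDimensional K L] [IsGalois K L] in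
include q in
/-- If `q ≠ p`, adjoining a `p`-th root of a unit gives an unramified extension. -/
theorem unramified_of_root_unit [FiniteDimensional K L] [IsGalois K L] (hp2 : p ≠ 2) (hpq : p ≠ q)
    (hdeg : Module.finrank K L = p) {ζ : K} (hζ : IsPrimitiveRoot ζ p)
    (u : K) (hu : ‖u‖ = 1) (β : L) (hβ : β ^ p = algebraMap K L u)
    (hβK : β ∉ Set.range (algebraMap K L)) (x : L) (hx : x ≠ 0) : ∃ y : K, ‖y‖ = ‖x‖ := by
  classical
  have := properSpace_of_finite q K
  have := charZero_of_padic q K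
  by_contra hcon
  push Not at hcon
  have hp0 := hp.out.pos
  have hu0 : u ≠ 0 := by rw [← norm_pos_iff, hu]; exact one_pos
  have hβ0 : β ≠ 0 := by
    rintro rfl
    rw [zero_pow hp.out.ne_zero] at hβ
    exact hu0 ((map_eq_zero _).mp hβ.symm)
  set N : AddSubgroup (Additive Kˣ) := Subgroup.toAddSubgroup (normU K L).range with hN
  have hNi : N.index = p := by
    rw [hN, Subgroup.index_toAddSubgroup, local_norm_index q K L p hdeg]
  -- powers are norms
  have hpow : ∀ v : Additive Kˣ, p • v ∈ N := by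
    intro v
    refine ⟨Units.map (algebraMap K L : K →* L) (Additive.toMul v), ?_⟩
    apply Units.ext
    rw [normU_coe]
    change Algebra.norm K (algebraMap K L _) = _
    rw [Algebra.norm_algebraMap, hdeg]
    rfl
  -- `u` is a norm
  have hcard : Nat.card (L ≃ₐ[K] L) = p := by rw [IsGalois.card_aut_eq_finrank, hdeg]
  have hcyc : IsCyclic (L ≃ₐ[K] L) := isCyclic_of_prime_card hcard
  obtain ⟨σ, hσ⟩ := hcyc.exists_generator
  have hord : orderOf σ = p := by
    rw [orderOf_eq_card_of_forall_mem_zpowers hσ, hcard]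
  have hζL : IsPrimitiveRoot (algebraMap K L ζ) p := hζ.map_of_injective (algebraMap K L).injective
  obtain ⟨k, -, hk⟩ : ∃ k, k < p ∧ (algebraMap K L ζ) ^ k = σ β / β := by
    apply hζL.eq_pow_of_pow_eq_one
    rw [div_pow, ← map_pow, hβ, AlgEquiv.commutes, div_self]
    simpa using hu0
  have hσβ : ∀ i : ℕ, (σ ^ i) β = (algebraMap K L ζ) ^ (k * i) * β := by
    intro i
    induction i with
    | zero => simp
    | succ n ih =>
      rw [pow_succ']
      change σ ((σ ^ n) β) = _
      rw [ih, map_mul, map_pow, AlgEquiv.commutes, mul_add, mul_one, pow_add, hk]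
      field_simp
  have hNβ : Algebra.norm K β = u := by
    apply (algebraMap K L).injective
    rw [norm_eq_prod_pow hσ hord, Finset.prod_congr rfl (fun i _ => hσβ i), Finset.prod_mul_distrib,
      Finset.prod_const, Finset.card_range, hβ]
    have h1 : ∏ i ∈ Finset.range p, (algebraMap K L ζ) ^ (k * i) = 1 := by
      rw [Finset.prod_pow_eq_pow_sum, ← Finset.mul_sum, Finset.sum_range_id]
      obtain ⟨m, hm⟩ : ∃ m, p - 1 = 2 * m := by
        have hodd := hp.out.odd_of_ne_two hp2
        obtain ⟨m, hm⟩ := hodd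
        exact ⟨m, by omega⟩
      rw [hm, show p * (2 * m) / 2 = p * m by
        rw [show p * (2 * m) = 2 * (p * m) by ring, Nat.mul_div_cancel_left _ (by norm_num)]]
      rw [show k * (p * m) = p * (k * m) by ring, pow_mul, hζL.pow_eq_one, one_pow]
    rw [h1, one_mul]
  have huN : Additive.ofMul (Units.mk0 u hu0) ∈ N := by
    refine ⟨Units.mk0 β hβ0, ?_⟩
    apply Units.ext
    rw [normU_coe]
    exact hNβ
  -- `N + O1 = ⊤`
  have hsup : N ⊔ O1 K = ⊤ := by
    obtain ⟨ϖ, h0, h1, hmax⟩ := exists_uniformizer K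
    have hϖ0 : ϖ ≠ 0 := norm_pos_iff.mp h0
    set x' : Lˣ := Units.mk0 x hx
    set n : Additive Kˣ := Additive.ofMul (normU K L x') with hn
    have hnN : n ∈ N := ⟨x', rfl⟩
    have hnn : ‖((Additive.toMul n : Kˣ) : K)‖ = ‖x‖ ^ p := by
      rw [← norm_norm q K L hdeg]; rfl
    obtain ⟨m, hm⟩ := exists_zpow_norm h0 h1 hmax (Units.ne_zero (Additive.toMul n))
    have hpm : ¬ (p : ℤ) ∣ m := by
      rintro ⟨t, rfl⟩
      apply hcon (ϖ ^ t)
      rw [norm_zpow]
      have h2 : ‖x‖ ^ p = (‖ϖ‖ ^ t) ^ p := by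
        rw [← hnn, hm, mul_comm, zpow_mul, zpow_natCast]
      exact ((pow_left_inj₀ (norm_nonneg _) (zpow_nonneg (norm_nonneg _) _)
        hp.out.ne_zero).mp h2).symm
    obtain ⟨a, b, hab⟩ : ∃ a b : ℤ, a * m + b * p = 1 := by
      have hcop : IsCoprime m (p : ℤ) := by
        rw [isCoprime_comm]
        exact (Prime.coprime_iff_not_dvd (Nat.prime_iff_prime_int.mp hp.out)).mpr hpm
      exact hcop
    rw [eq_top_iff]
    intro v _
    obtain ⟨t, ht⟩ := exists_zpow_norm h0 h1 hmax (Units.ne_zero (Additive.toMul v))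
    set w : Additive Kˣ := (t * a) • n + (t * b) • (p • Additive.ofMul (Units.mk0 ϖ hϖ0)) with hw
    have hwN : w ∈ N := N.add_mem (N.zsmul_mem hnN _) (N.zsmul_mem (hpow _) _)
    have hwn : ‖((Additive.toMul w : Kˣ) : K)‖ = ‖ϖ‖ ^ t := by
      rw [hw]
      simp only [toMul_add, toMul_zsmul, toMul_nsmul, toMul_ofMul, Units.val_mul,
        Units.val_zpow_eq_zpow_val, Units.val_pow_eq_pow_val, Units.val_mk0, norm_mul, norm_zpow,
        norm_pow]
      rw [hm, ← zpow_mul, ← zpow_natCast, ← zpow_mul, ← zpow_add₀ h0.ne']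
      congr 1
      calc m * (t * a) + (p : ℤ) * (t * b) = t * (a * m + b * p) := by ring
        _ = t := by rw [hab, mul_one]
    have hsub : v - w ∈ O1 K := by
      rw [mem_O1, toMul_sub, Units.val_div_eq_div_val, norm_div, ht, hwn, div_self]
      exact zpow_ne_zero _ h0.ne'
    have : v = w + (v - w) := by abel
    rw [this]
    exact AddSubgroup.mem_sup.mpr ⟨w, hwN, v - w, hsub, rfl⟩
  have hNU : N.relIndex (O1 K) = p := by
    rw [← AddSubgroup.relIndex_sup_left, hsup, AddSubgroup.relIndex_top_right, hNi]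
  -- index of `p`-th powers in the units
  have hcc : cc (pmul (Additive Kˣ) p) (O1 K) = p := by
    rw [cc_O1 K (by exact_mod_cast hp.out.ne_zero), dlt_eq q K p, kc_top_eq]
    unfold dexp
    rw [if_neg hpq, pow_zero, one_mul]
    have : NeZero p := ⟨hp.out.ne_zero⟩
    exact hζ.card_rootsOfUnity
  have hle1 : (O1 K).map (pmul (Additive Kˣ) p) ≤ N ⊓ O1 K := by
    rintro _ ⟨v, hv, rfl⟩
    exact ⟨hpow v, (O1 K).nsmul_mem hv p⟩
  have h1 : ((O1 K).map (pmul (Additive Kˣ) p)).relIndex (N ⊓ O1 K) = 1 := by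
    have h2 := AddSubgroup.relIndex_mul_relIndex _ _ _ hle1 (inf_le_right : N ⊓ O1 K ≤ O1 K)
    rw [AddSubgroup.inf_relIndex_right, hNU] at h2
    have h3 : ((O1 K).map (pmul (Additive Kˣ) p)).relIndex (O1 K) = p := hcc
    rw [h3] at h2
    exact Nat.eq_of_mul_eq_mul_right hp0 (by rw [h2, one_mul])
  rw [AddSubgroup.relIndex_eq_one] at h1
  have h2 : Additive.ofMul (Units.mk0 u hu0) ∈ N ⊓ O1 K := ⟨huN, hu⟩
  obtain ⟨v, _, hv⟩ := h1 h2
  have hv2 : ((Additive.toMul v : Kˣ) : K) ^ p = u := by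
    have := congrArg (fun z : Additive Kˣ => ((Additive.toMul z : Kˣ) : K)) hv
    simpa using this
  -- `β` is in `K`
  obtain ⟨i, -, hi⟩ : ∃ i, i < p ∧ (algebraMap K L ζ) ^ i =
      β / algebraMap K L ((Additive.toMul v : Kˣ) : K) := by
    apply hζL.eq_pow_of_pow_eq_one
    rw [div_pow, ← map_pow, hv2, hβ, div_self]
    simpa using hu0
  apply hβK
  refine ⟨ζ ^ i * ((Additive.toMul v : Kˣ) : K), ?_⟩
  rw [map_mul, map_pow, hi]
  have : algebraMap K L ((Additive.toMul v : Kˣ) : K) ≠ 0 := by simp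
  field_simp

end localfield

end Fermat.Agent.PTLocal
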