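import Fermat.Agent.PTLocal.Alg

/-!
# Kummer extensions of prime degree inside an algebraic closure
-/

set_option autoImplicit false

namespace Fermat.Agent.PTLocal

open IntermediateField Polynomial

section

variable {K : Type} [Field K] {Ω : Type} [Field Ω] [Algebra K Ω]

lemma adjoin_gen_eq_top (α : Ω) : K⟮AdjoinSimple.gen K α⟯ = ⊤ := by
  apply IntermediateField.lift_injective K⟮α⟯
  rw [IntermediateField.lift_adjoin_simple, IntermediateField.lift_top, AdjoinSimple.coe_gen]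

variable {p : ℕ} [hp : Fact p.Prime]

/-- Kummer data: `α^p = a ∈ K`, `α ∉ K`, `ζ ∈ K` a primitive `p`-th root of unity. -/
structure KD (ζ : K) (a : K) (α : Ω) (p : ℕ) : Prop where
  prim : IsPrimitiveRoot ζ p
  pow : α ^ p = algebraMap K Ω a
  nmem : α ∉ Set.range (algebraMap K Ω)

variable {ζ a : K} {α : Ω} (h : KD ζ a α p)

include h

omit hp in
lemma KD.prim' : IsPrimitiveRoot (algebraMap K Ω ζ) p :=
  h.prim.map_of_injective (algebraMap K Ω).injective

omit hp in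
lemma KD.ne_zero : α ≠ 0 := by
  rintro rfl
  exact h.nmem ⟨0, by simp⟩

omit hp in
lemma KD.ne_zero' : algebraMap K Ω ζ ≠ 0 ∨ p = 0 := by
  by_cases hp : p = 0
  · exact Or.inr hp
  · left
    intro h0
    have h1 := (h.prim.map_of_injective (algebraMap K Ω).injective).pow_eq_one
    rw [h0, zero_pow hp] at h1
    exact zero_ne_one h1

/-- roots of `X^p - a` -/
lemma KD.eq_pow_mul {x : Ω} (hx : x ^ p = algebraMap K Ω a) :
    ∃ i, i < p ∧ x = algebraMap K Ω ζ ^ i * α := by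
  obtain ⟨i, hi, hi2⟩ := h.prim'.eq_pow_of_pow_eq_one (ξ := x / α) (by
    rw [div_pow, hx, h.pow, div_self]
    rw [← h.pow]; exact pow_ne_zero _ h.ne_zero)
  refine ⟨i, hi, ?_⟩
  rw [hi2]
  field_simp [h.ne_zero]

lemma KD.irreducible : Irreducible (X ^ p - C a : K[X]) := by
  refine X_pow_sub_C_irreducible_of_prime hp.out ?_
  intro b hb
  obtain ⟨i, -, hi⟩ := h.eq_pow_mul (x := algebraMap K Ω b) (by rw [← map_pow, hb])
  apply h.nmem
  have hz : algebraMap K Ω ζ ≠ 0 := h.ne_zero'.resolve_right hp.out.ne_zero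
  refine ⟨(ζ ^ i)⁻¹ * b, ?_⟩
  rw [map_mul, map_inv₀, map_pow, hi]
  field_simp

lemma KD.isIntegral : IsIntegral K α :=
  ⟨X ^ p - C a, monic_X_pow_sub_C _ hp.out.ne_zero, by simp [h.pow]⟩

lemma KD.minpoly : minpoly K α = X ^ p - C a := by
  symm
  refine minpoly.eq_of_irreducible_of_monic h.irreducible ?_ (monic_X_pow_sub_C _ hp.out.ne_zero)
  simp [h.pow]

lemma KD.finrank : Module.finrank K K⟮α⟯ = p := by
  rw [IntermediateField.adjoin.finrank h.isIntegral, h.minpoly, natDegree_X_pow_sub_C]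

lemma KD.finiteDimensional : FiniteDimensional K K⟮α⟯ :=
  IntermediateField.adjoin.finiteDimensional h.isIntegral

lemma KD.splitting : IsSplittingField K K⟮α⟯ (X ^ p - C a) := by
  have hfin := h.finiteDimensional
  have hdeg := h.finrank
  have h2 : (AdjoinSimple.gen K α) ^ (Module.finrank K K⟮α⟯) = algebraMap K K⟮α⟯ a := by
    rw [hdeg]
    apply Subtype.ext
    simpa using h.pow
  have h3 := isSplittingField_X_pow_sub_C_of_root_adjoin_eq_top
    (by rw [hdeg]; exact ⟨ζ, (mem_primitiveRoots hp.out.pos).mpr h.prim⟩) h2 (adjoin_gen_eq_top α)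
  rw [hdeg] at h3
  exact h3

lemma KD.isGalois : IsGalois K K⟮α⟯ := by
  have := h.splitting
  exact isGalois_of_isSplittingField_X_pow_sub_C ⟨ζ, (mem_primitiveRoots hp.out.pos).mpr h.prim⟩
    h.irreducible _

/-- existence of the automorphism `α ↦ ζ α`. -/
lemma KD.exists_aut [Normal K Ω] : ∃ σ : Ω ≃ₐ[K] Ω, σ α = algebraMap K Ω ζ * α := by
  refine minpoly.exists_algEquiv_of_root' h.isIntegral.isAlgebraic ?_
  rw [h.minpoly]
  simp only [map_sub, map_pow, aeval_X, aeval_C]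
  rw [mul_pow, h.prim'.pow_eq_one, one_mul, h.pow, sub_self]

variable [Normal K Ω] {σ : Ω ≃ₐ[K] Ω} (hσ : σ α = algebraMap K Ω ζ * α)

include hσ

omit [Normal K Ω] in
lemma KD.exists_restrict : ∃ g : K⟮α⟯ ≃ₐ[K] K⟮α⟯, (∀ τ, τ ∈ Subgroup.zpowers g) ∧
    orderOf g = p ∧ ∀ (i : ℕ) (x : K⟮α⟯), (((g ^ i) x : K⟮α⟯) : Ω) = (σ ^ i) (x : Ω) := by
  have hG := h.isGalois
  have hfin := h.finiteDimensional
  set g := σ.restrictNormal K⟮α⟯ with hg
  have hgx : ∀ x : K⟮α⟯, ((g x : K⟮α⟯) : Ω) = σ (x : Ω) :=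
    fun x => AlgEquiv.restrictNormal_apply K⟮α⟯ σ x
  have hcard : Nat.card (K⟮α⟯ ≃ₐ[K] K⟮α⟯) = p := by
    rw [IsGalois.card_aut_eq_finrank, h.finrank]
  have hg1 : g ≠ 1 := by
    intro h1
    have h2 := hgx (AdjoinSimple.gen K α)
    rw [h1] at h2
    change α = σ α at h2
    rw [hσ] at h2
    have h3 : algebraMap K Ω ζ = 1 := by
      have := h.ne_zero
      field_simp at h2
      exact h2.symm
    have h4 := h.prim'
    rw [h3] at h4
    have h5 := h4.unique (IsPrimitiveRoot.one)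
    exact hp.out.one_lt.ne' h5
  have hgen : ∀ τ, τ ∈ Subgroup.zpowers g := fun τ => mem_zpowers_of_prime_card hcard hg1
  refine ⟨g, hgen, ?_, ?_⟩
  · rw [orderOf_eq_card_of_forall_mem_zpowers hgen, hcard]
  · intro i
    induction i with
    | zero => intro x; rfl
    | succ n ih =>
      intro x
      rw [pow_succ, pow_succ]
      change (((g ^ n) (g x) : K⟮α⟯) : Ω) = (σ ^ n) (σ (x : Ω))
      rw [ih, hgx]

omit [Normal K Ω] in
/-- the norm as a product over powers of `σ`. -/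
lemma KD.norm_eq (x : K⟮α⟯) :
    algebraMap K Ω (Algebra.norm K x) = ∏ i ∈ Finset.range p, (σ ^ i) (x : Ω) := by
  obtain ⟨g, hg1, hg2, hg3⟩ := h.exists_restrict hσ
  have hG := h.isGalois
  have hfin := h.finiteDimensional
  have h1 := norm_eq_prod_pow hg1 hg2 x
  have h2 := congrArg (algebraMap K⟮α⟯ Ω) h1
  rw [← IsScalarTower.algebraMap_apply, map_prod] at h2
  rw [h2]
  exact Finset.prod_congr rfl (fun i _ => hg3 i x)

omit [Normal K Ω] in
/-- Hilbert 90. -/
lemma KD.h90 (x : Ω) (hx : x ∈ K⟮α⟯) (hN : ∏ i ∈ Finset.range p, (σ ^ i) x = 1) :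
    ∃ z ∈ K⟮α⟯, z ≠ 0 ∧ x = z / σ z := by
  obtain ⟨g, hg1, hg2, hg3⟩ := h.exists_restrict hσ
  have hG := h.isGalois
  have hfin := h.finiteDimensional
  have hcyc : IsCyclic (K⟮α⟯ ≃ₐ[K] K⟮α⟯) := ⟨g, hg1⟩
  have h1 : Algebra.norm K (⟨x, hx⟩ : K⟮α⟯) = 1 := by
    apply (algebraMap K Ω).injective
    rw [h.norm_eq hσ, map_one]
    exact hN
  obtain ⟨y, hy⟩ := groupCohomology.exists_div_of_norm_eq_one hg1 h1
  refine ⟨((y : K⟮α⟯) : Ω), (y : K⟮α⟯).2, ?_, ?_⟩
  · intro h0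
    exact Units.ne_zero y (Subtype.ext h0)
  · have h2 := congrArg (fun t : K⟮α⟯ => (t : Ω)) hy
    have h3 := hg3 1 (y : K⟮α⟯)
    rw [pow_one, pow_one] at h3
    simp only at h2
    rw [← h3, ← h2]
    rfl

omit [Normal K Ω] in
/-- elements fixed by `σ` are in `K`. -/
lemma KD.mem_of_fixed (x : Ω) (hx : x ∈ K⟮α⟯) (hN : σ x = x) : x ∈ Set.range (algebraMap K Ω) := by
  obtain ⟨g, hg1, hg2, hg3⟩ := h.exists_restrict hσ
  have hG := h.isGalois
  have hfin := h.finiteDimensional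
  have h6 : (⟨x, hx⟩ : K⟮α⟯) ∈ (⊥ : IntermediateField K K⟮α⟯) := by
    rw [← IsGalois.fixedField_top]
    rintro ⟨τ, _⟩
    change τ _ = _
    obtain ⟨n, rfl⟩ := Subgroup.mem_zpowers_iff.mp (hg1 τ)
    have h7 : g ∈ MulAction.stabilizer (K⟮α⟯ ≃ₐ[K] K⟮α⟯) (⟨x, hx⟩ : K⟮α⟯) := by
      have h8 := hg3 1 ⟨x, hx⟩
      rw [pow_one, pow_one] at h8
      exact Subtype.ext (h8.trans hN)
    exact Subgroup.zpow_mem _ h7 n
  obtain ⟨t, ht⟩ := IntermediateField.mem_bot.mp h6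
  exact ⟨t, congrArg (fun t : K⟮α⟯ => (t : Ω)) ht⟩

end

section symm

variable {K : Type} [Field K] {Ω : Type} [Field Ω] [Algebra K Ω] [Normal K Ω]
  {p : ℕ} [hp : Fact p.Prime] {ζ a b : K} {α β : Ω}

/-- `x` is a norm from `K(α)` -/
def IsNorm (α : Ω) (x : K) : Prop := ∃ y : K⟮α⟯, Algebra.norm K y = x

omit [Normal K Ω] hp in
lemma KD.base {F : IntermediateField K Ω} (h : KD ζ a α p) (hF : α ∉ F) :
    KD (algebraMap K F ζ) (algebraMap K F a) α p where
  prim := h.prim.map_of_injective (algebraMap K F).injective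
  pow := by rw [h.pow]; rfl
  nmem := by
    rintro ⟨x, rfl⟩
    exact hF x.2

/-- `α^p = N(α)` if `p` is odd. -/
lemma KD.norm_gen (hp2 : p ≠ 2) (h : KD ζ a α p) : IsNorm α a := by
  obtain ⟨σ, hσ⟩ := h.exists_aut
  refine ⟨AdjoinSimple.gen K α, ?_⟩
  apply (algebraMap K Ω).injective
  rw [h.norm_eq hσ, AdjoinSimple.coe_gen]
  have h1 : ∀ i : ℕ, (σ ^ i) α = (algebraMap K Ω ζ) ^ i * α := by
    intro i
    induction i with
    | zero => simp
    | succ n ih =>
      rw [pow_succ']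
      change σ ((σ ^ n) α) = _
      rw [ih, map_mul, map_pow, AlgEquiv.commutes, hσ, pow_succ]
      ring
  rw [Finset.prod_congr rfl (fun i _ => h1 i), Finset.prod_mul_distrib, Finset.prod_const,
    Finset.card_range, h.pow, Finset.prod_pow_eq_pow_sum, Finset.sum_range_id]
  obtain ⟨m, hm⟩ : ∃ m, p - 1 = 2 * m := by
    have hodd := hp.out.odd_of_ne_two hp2
    obtain ⟨m, hm⟩ := hodd
    exact ⟨m, by omega⟩
  rw [hm, show p * (2 * m) / 2 = p * m by
    rw [show p * (2 * m) = 2 * (p * m) by ring, Nat.mul_div_cancel_left _ (by norm_num)],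
    pow_mul, h.prim'.pow_eq_one, one_pow, one_mul]

/-- the main case of the symmetry of the norm residue relation -/
lemma norm_symm_aux (ha : KD ζ a α p) (hb : KD ζ b β p) (hαβ : α ∉ K⟮β⟯) (hβα : β ∉ K⟮α⟯)
    (h : IsNorm α b) : IsNorm β a := by
  have haF := ha.base hαβ
  have hbF := hb.base hβα
  obtain ⟨σ, hσ⟩ := haF.exists_aut
  obtain ⟨τ, hτ⟩ := hbF.exists_aut
  have hσα : σ α = algebraMap K Ω ζ * α := hσ
  have hτβ : τ β = algebraMap K Ω ζ * β := hτ
  have hσβ : σ β = β := σ.commutes (⟨β, IntermediateField.mem_adjoin_simple_self K β⟩ : K⟮β⟯)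
  have hτα : τ α = α := τ.commutes (⟨α, IntermediateField.mem_adjoin_simple_self K α⟩ : K⟮α⟯)
  let σK : Ω ≃ₐ[K] Ω := σ.restrictScalars K
  let τK : Ω ≃ₐ[K] Ω := τ.restrictScalars K
  have hσK : ∀ x, σK x = σ x := fun _ => rfl
  have hτK : ∀ x, τK x = τ x := fun _ => rfl
  have hσKi : ∀ (i : ℕ) x, (σK ^ i) x = (σ ^ i) x := by
    intro i
    induction i with
    | zero => intro x; rfl
    | succ n ih => intro x; rw [pow_succ, pow_succ]; exact ih (σ x)
  have hτKi : ∀ (i : ℕ) x, (τK ^ i) x = (τ ^ i) x := by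
    intro i
    induction i with
    | zero => intro x; rfl
    | succ n ih => intro x; rw [pow_succ, pow_succ]; exact ih (τ x)
  have hζσ : σ (algebraMap K Ω ζ) = algebraMap K Ω ζ := σK.commutes ζ
  have hζτ : τ (algebraMap K Ω ζ) = algebraMap K Ω ζ := τK.commutes ζ
  obtain ⟨y, hy⟩ := h
  have hy' : ∏ i ∈ Finset.range p, (σ ^ i) (y : Ω) = β ^ p := by
    have h1 := ha.norm_eq (σ := σK) hσα y
    rw [hy, ← hb.pow] at h1
    rw [h1]
    exact Finset.prod_congr rfl (fun i _ => (hσKi i _).symm)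
  have hβ0 := hb.ne_zero
  have hα0 := ha.ne_zero
  have hy0 : (y : Ω) ≠ 0 := by
    intro h0
    have h1 : (σ ^ 0) (y : Ω) = 0 := by rw [h0, map_zero]
    have h2 := Finset.prod_eq_zero (f := fun i => (σ ^ i) (y : Ω))
      (Finset.mem_range.mpr hp.out.pos) h1
    rw [hy'] at h2
    exact hβ0 ((pow_eq_zero_iff hp.out.ne_zero).mp h2)
  -- `σ^i β = β`
  have hσiβ : ∀ i : ℕ, (σ ^ i) β = β := by
    intro i
    induction i with
    | zero => rfl
    | succ n ih => rw [pow_succ]; change (σ ^ n) (σ β) = β; rw [hσβ, ih]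
  have hτiα : ∀ i : ℕ, (τ ^ i) α = α := by
    intro i
    induction i with
    | zero => rfl
    | succ n ih => rw [pow_succ]; change (τ ^ n) (τ α) = α; rw [hτα, ih]
  -- `K(α) ⊆ F(α)`
  have hle : ∀ x ∈ K⟮α⟯, x ∈ (K⟮β⟯)⟮α⟯ := by
    intro x hx
    have h1 : K⟮α⟯ ≤ ((K⟮β⟯)⟮α⟯).restrictScalars K := by
      rw [IntermediateField.adjoin_le_iff, Set.singleton_subset_iff]
      exact IntermediateField.mem_adjoin_simple_self _ α
    exact h1 hx
  have hβmem : β ∈ (K⟮β⟯)⟮α⟯ :=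
    ((K⟮β⟯)⟮α⟯).algebraMap_mem (⟨β, IntermediateField.mem_adjoin_simple_self K β⟩ : K⟮β⟯)
  have hx1 : β / (y : Ω) ∈ (K⟮β⟯)⟮α⟯ := div_mem hβmem (hle _ y.2)
  have hx2 : ∏ i ∈ Finset.range p, (σ ^ i) (β / (y : Ω)) = 1 := by
    have h1 : ∀ i ∈ Finset.range p, (σ ^ i) (β / (y : Ω)) = β / (σ ^ i) (y : Ω) := by
      intro i _
      rw [map_div₀, hσiβ]
    rw [Finset.prod_congr rfl h1, Finset.prod_div_distrib, hy', Finset.prod_const,
      Finset.card_range, div_self (pow_ne_zero _ hβ0)]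
  obtain ⟨z, hz, hz0, hxz⟩ := haF.h90 hσ _ hx1 hx2
  -- `σ` and `τ` commute on `F(α)`, `τ^p = 1` there, and `τ` stabilises it
  let M : IntermediateField K Ω := ((K⟮β⟯)⟮α⟯).restrictScalars K
  have hMle : ∀ S : IntermediateField K Ω, α ∈ S → β ∈ S → ∀ x ∈ (K⟮β⟯)⟮α⟯, x ∈ S := by
    intro S hS1 hS2 x hx
    have h1 : K⟮β⟯ ≤ S := by
      rw [IntermediateField.adjoin_le_iff, Set.singleton_subset_iff]; exact hS2
    have h2 : (K⟮β⟯)⟮α⟯ ≤ IntermediateField.extendScalars h1 := by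
      rw [IntermediateField.adjoin_le_iff, Set.singleton_subset_iff]; exact hS1
    exact h2 hx
  have hcomm : ∀ x ∈ (K⟮β⟯)⟮α⟯, σ (τ x) = τ (σ x) := by
    let S : IntermediateField K Ω :=
      IntermediateField.fixedField (Subgroup.zpowers (τK⁻¹ * σK⁻¹ * τK * σK))
    have hS : ∀ x, x ∈ S ↔ σ (τ x) = τ (σ x) := by
      intro x
      rw [IntermediateField.mem_fixedField_iff]
      constructor
      · intro hx
        have h1 := hx _ (Subgroup.mem_zpowers _)
        change τ.symm (σ.symm (τ (σ x))) = x at h1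
        rw [AlgEquiv.symm_apply_eq, AlgEquiv.symm_apply_eq] at h1
        exact h1.symm
      · intro hx f hf
        have h1 : (τK⁻¹ * σK⁻¹ * τK * σK) ∈ MulAction.stabilizer (Ω ≃ₐ[K] Ω) x := by
          change τ.symm (σ.symm (τ (σ x))) = x
          rw [← hx, AlgEquiv.symm_apply_apply, AlgEquiv.symm_apply_apply]
        have h2 : Subgroup.zpowers (τK⁻¹ * σK⁻¹ * τK * σK) ≤ MulAction.stabilizer _ x := by
          rw [Subgroup.zpowers_le]; exact h1
        exact h2 hf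
    intro x hx
    rw [← hS]
    refine hMle S ?_ ?_ x hx
    · rw [hS, hτα, hσα, map_mul, hζτ, hτα]
    · rw [hS, hσβ, hτβ, map_mul, hζσ, hσβ]
  have hτp : ∀ x ∈ (K⟮β⟯)⟮α⟯, (τ ^ p) x = x := by
    let S : IntermediateField K Ω := IntermediateField.fixedField (Subgroup.zpowers (τK ^ p))
    have hS : ∀ x, x ∈ S ↔ (τ ^ p) x = x := by
      intro x
      rw [IntermediateField.mem_fixedField_iff]
      constructor
      · intro hx
        rw [← hτKi]
        exact hx _ (Subgroup.mem_zpowers _)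
      · intro hx f hf
        have h1 : (τK ^ p) ∈ MulAction.stabilizer (Ω ≃ₐ[K] Ω) x := by
          change (τK ^ p) x = x
          rw [hτKi, hx]
        have h2 : Subgroup.zpowers (τK ^ p) ≤ MulAction.stabilizer _ x := by
          rw [Subgroup.zpowers_le]; exact h1
        exact h2 hf
    intro x hx
    rw [← hS]
    refine hMle S ?_ ?_ x hx
    · rw [hS, hτiα]
    · rw [hS]
      have h1 : ∀ i : ℕ, (τ ^ i) β = (algebraMap K Ω ζ) ^ i * β := by
        intro i
        induction i with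
        | zero => simp
        | succ n ih =>
          rw [pow_succ']
          change τ ((τ ^ n) β) = _
          rw [ih, map_mul, map_pow, hζτ, hτβ, pow_succ]
          ring
      rw [h1, ha.prim'.pow_eq_one, one_mul]
  have hτst : ∀ x ∈ (K⟮β⟯)⟮α⟯, τ x ∈ (K⟮β⟯)⟮α⟯ := by
    intro x hx
    have h1 := hMle (((K⟮β⟯)⟮α⟯).restrictScalars K |>.comap τK.toAlgHom) ?_ ?_ x hx
    · exact h1
    · change τ α ∈ (K⟮β⟯)⟮α⟯
      rw [hτα]; exact IntermediateField.mem_adjoin_simple_self _ α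
    · change τ β ∈ (K⟮β⟯)⟮α⟯
      rw [hτβ]
      exact mul_mem (((K⟮β⟯)⟮α⟯).algebraMap_mem (algebraMap K K⟮β⟯ ζ)) hβmem
  have hζ0 : algebraMap K Ω ζ ≠ 0 := ha.ne_zero'.resolve_right hp.out.ne_zero
  -- `w = τ z / z` satisfies `σ w = ζ⁻¹ w`
  have hτy : τ (y : Ω) = y := τ.commutes y
  have hw : σ (τ z / z) = (algebraMap K Ω ζ)⁻¹ * (τ z / z) := by
    have h1 := congrArg τ hxz
    rw [map_div₀, map_div₀, hτβ, hτy, ← hcomm z hz] at h1
    have hσz0 : σ z ≠ 0 := by simpa using hz0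
    have hτz0 : τ z ≠ 0 := by simpa using hz0
    have hστz0 : σ (τ z) ≠ 0 := by simpa using hz0
    rw [map_div₀]
    have h2 : algebraMap K Ω ζ * (β / y) = τ z / σ (τ z) := by rw [← h1]; ring
    rw [hxz] at h2
    field_simp
    field_simp at h2
    linear_combination h2
  set t := τ z / z * α with ht
  have htM : t ∈ (K⟮β⟯)⟮α⟯ :=
    mul_mem (div_mem (hτst z hz) hz) (IntermediateField.mem_adjoin_simple_self _ α)
  have hσt : σ t = t := by
    rw [ht, map_mul, hw, hσα]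
    field_simp
  obtain ⟨t', ht'⟩ := haF.mem_of_fixed hσ t htM hσt
  refine ⟨t', ?_⟩
  apply (algebraMap K Ω).injective
  rw [hb.norm_eq (σ := τK) hτβ, ← ha.pow]
  have ht'' : (t' : Ω) = t := ht'
  rw [ht'']
  have h1 : ∀ i ∈ Finset.range p, (τK ^ i) t = ((τ ^ (i + 1)) z / (τ ^ i) z) * α := by
    intro i _
    rw [hτKi, ht, map_mul, map_div₀, hτiα, pow_succ]
    rfl
  rw [Finset.prod_congr rfl h1, Finset.prod_mul_distrib, Finset.prod_const, Finset.card_range]
  have h2 : ∏ i ∈ Finset.range p, ((τ ^ (i + 1)) z / (τ ^ i) z) = 1 := by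
    have h3 : ∀ n : ℕ, ∏ i ∈ Finset.range n, ((τ ^ (i + 1)) z / (τ ^ i) z) = (τ ^ n) z / z := by
      intro n
      induction n with
      | zero => simp [hz0]
      | succ n ih =>
        rw [Finset.prod_range_succ, ih]
        have : (τ ^ n) z ≠ 0 := (map_ne_zero (τ ^ n)).mpr hz0
        field_simp
    rw [h3, hτp z hz, div_self hz0]
  rw [h2, one_mul]

end symm

end Fermat.Agent.PTLocal
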