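import Fermat.Agent.PTLocal.LGal
import Fermat.Agent.PTLocal.KummerStep

/-!
# Kummer theory for groups of Galois type
-/

set_option autoImplicit false

namespace Fermat.Agent.PTLocal

open Fermat.Agent.PT IntermediateField

section zeta

variable {Ω : Type*} [Field Ω] {p : ℕ} [hp : Fact p.Prime] {ζ : Ω}

/-- `k ↦ ζ^k` -/
noncomputable def zetaHom (hζ : IsPrimitiveRoot ζ p) : ZMod p →+ Additive Ωˣ :=
  ZMod.lift p ⟨zmultiplesHom (Additive Ωˣ)
    (Additive.ofMul (Units.mk0 ζ (hζ.ne_zero hp.out.ne_zero))), by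
      rw [zmultiplesHom_apply, natCast_zsmul, ← ofMul_pow]
      have : (Units.mk0 ζ (hζ.ne_zero hp.out.ne_zero)) ^ p = 1 := by
        apply Units.ext
        rw [Units.val_pow_eq_pow_val, Units.val_mk0, hζ.pow_eq_one]; rfl
      rw [this]; rfl⟩

lemma zetaHom_apply (hζ : IsPrimitiveRoot ζ p) (k : ZMod p) :
    ((Additive.toMul (zetaHom hζ k) : Ωˣ) : Ω) = ζ ^ k.val := by
  have h1 : ((k.val : ℤ) : ZMod p) = k := by
    rw [Int.cast_natCast, ZMod.natCast_val, ZMod.cast_id', id]
  have h2 : zetaHom hζ ((k.val : ℤ) : ZMod p) =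
      (k.val : ℤ) • Additive.ofMul (Units.mk0 ζ (hζ.ne_zero hp.out.ne_zero)) := by
    unfold zetaHom
    rw [ZMod.lift_coe]; rfl
  rw [h1] at h2
  rw [h2, natCast_zsmul, toMul_nsmul, toMul_ofMul, Units.val_pow_eq_pow_val, Units.val_mk0]

lemma zetaHom_injective (hζ : IsPrimitiveRoot ζ p) : Function.Injective (zetaHom hζ) := by
  rw [injective_iff_map_eq_zero]
  intro k hk
  have h1 := zetaHom_apply hζ k
  rw [hk] at h1
  have h2 : ζ ^ k.val = 1 := h1.symm
  rw [hζ.pow_eq_one_iff_dvd] at h2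
  have h3 := Nat.eq_zero_of_dvd_of_lt h2 (ZMod.val_lt k)
  exact (ZMod.val_eq_zero k).1 h3

end zeta

namespace LGal

variable {k Ω : Type*} [Field k] [Field Ω] [Algebra k Ω] [IsAlgClosed Ω] [IsGalois k Ω]
  {G : Type*} [Group G] {L : Levels G} (hG : LGal k Ω L) {p : ℕ} [hp : Fact p.Prime] {ζ : Ω}
  (hζ : IsPrimitiveRoot ζ p) (hfix : ∀ g, hG.j g ζ = ζ)

omit [IsGalois k Ω] in
/-- the Kummer sequence -/
noncomputable def kum : SES (trivAct G (ZMod p)) hG.act hG.act where
  i :=
    { f := zetaHom hζ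
      comm := fun g a => by
        rw [trivAct_apply]
        apply Additive.toMul.injective
        apply Units.ext
        show _ = hG.j g (Additive.toMul (zetaHom hζ a) : Ωˣ)
        rw [zetaHom_apply, map_pow, hfix] }
  p := ⟨nsmulAddMonoidHom p, fun g a => by
    rw [nsmulAddMonoidHom_apply, nsmulAddMonoidHom_apply, map_nsmul]⟩
  inj := zetaHom_injective hζ
  surj a := by
    obtain ⟨z, hz⟩ := IsAlgClosed.exists_pow_nat_eq ((Additive.toMul a : Ωˣ) : Ω) hp.out.pos
    have hz0 : z ≠ 0 := by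
      rintro rfl
      rw [zero_pow hp.out.ne_zero] at hz
      exact (Additive.toMul a : Ωˣ).ne_zero hz.symm
    refine ⟨Additive.ofMul (Units.mk0 z hz0), ?_⟩
    apply Additive.toMul.injective
    apply Units.ext
    show ((Additive.toMul (p • Additive.ofMul (Units.mk0 z hz0)) : Ωˣ) : Ω) = _
    rw [toMul_nsmul, toMul_ofMul, Units.val_pow_eq_pow_val, Units.val_mk0, hz]
  exact b := by
    constructor
    · intro h
      have h1 : ((Additive.toMul b : Ωˣ) : Ω) ^ p = 1 := by
        have h2 : p • b = 0 := h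
        have h3 := congrArg (fun a => ((Additive.toMul a : Ωˣ) : Ω)) h2
        simpa [toMul_nsmul] using h3
      obtain ⟨i, hi, hi2⟩ := hζ.eq_pow_of_pow_eq_one h1
      refine ⟨(i : ZMod p), ?_⟩
      apply Additive.toMul.injective
      apply Units.ext
      rw [zetaHom_apply, ZMod.val_natCast_of_lt hi, hi2]
    · rintro ⟨a, rfl⟩
      show p • zetaHom hζ a = 0
      rw [← map_nsmul, nsmul_eq_mul, CharP.cast_eq_zero, zero_mul, map_zero]

/-- the base field -/
def E : IntermediateField k Ω := fixedField hG.j.range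

omit [IsAlgClosed Ω] [IsGalois k Ω] in
lemma mem_E {x : Ω} : x ∈ hG.E ↔ ∀ g, hG.j g x = x := by
  unfold E
  rw [IntermediateField.mem_fixedField_iff]
  constructor
  · intro h g
    exact h _ ⟨g, rfl⟩
  · rintro h _ ⟨g, rfl⟩
    exact h g

omit [IsAlgClosed Ω] in
lemma exists_of_fix (τ : Ω ≃ₐ[k] Ω) (h : ∀ x ∈ hG.E, τ x = x) : ∃ g, hG.j g = τ := by
  obtain ⟨N, hN⟩ := L.nonempty'
  obtain ⟨F, hF, hlev⟩ := hG.lev N hN
  have h1 := fixing_fixed hG.j.range F hF (fun σ hσ => by
    obtain ⟨g, hg, rfl⟩ := hlev σ hσ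
    exact ⟨g, rfl⟩)
  have h2 : τ ∈ (fixedField hG.j.range).fixingSubgroup := fun x => h x x.2
  rw [h1] at h2
  exact h2

omit [IsAlgClosed Ω] in
lemma finiteDimensional_E : FiniteDimensional k hG.E := by
  obtain ⟨N, hN⟩ := L.nonempty'
  obtain ⟨F, hF, hlev⟩ := hG.lev N hN
  have h1 : hG.E ≤ F := by
    have h2 : F = fixedField F.fixingSubgroup := (InfiniteGalois.fixedField_fixingSubgroup F).symm
    rw [h2]
    apply IntermediateField.fixedField_antitone
    intro σ hσ
    obtain ⟨g, hg, rfl⟩ := hlev σ hσ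
    exact ⟨g, rfl⟩
  exact Module.Finite.of_injective (IntermediateField.inclusion h1).toLinearMap
    (IntermediateField.inclusion h1).injective

omit [IsAlgClosed Ω] [IsGalois k Ω] in
/-- `Eˣ ≅ H⁰` -/
def eH0 : Additive hG.Eˣ →+ H0 hG.act where
  toFun x := ⟨Additive.ofMul (Units.map (algebraMap hG.E Ω : hG.E →* Ω) (Additive.toMul x)), by
    rw [mem_H0]
    intro g
    apply Additive.toMul.injective
    apply Units.ext
    exact hG.mem_E.1 ((Additive.toMul x : hG.Eˣ) : hG.E).2 g⟩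
  map_zero' := by
    apply Subtype.ext
    apply Additive.toMul.injective
    apply Units.ext
    rfl
  map_add' x y := by
    apply Subtype.ext
    apply Additive.toMul.injective
    apply Units.ext
    rfl

omit [IsAlgClosed Ω] [IsGalois k Ω] in
lemma eH0_coe (x : Additive hG.Eˣ) :
    ((Additive.toMul (hG.eH0 x : Additive Ωˣ) : Ωˣ) : Ω) =
      (((Additive.toMul x : hG.Eˣ) : hG.E) : Ω) := rfl

omit [IsAlgClosed Ω] [IsGalois k Ω] in
lemma eH0_bijective : Function.Bijective hG.eH0 := by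
  constructor
  · rw [injective_iff_map_eq_zero]
    intro x hx
    apply Additive.toMul.injective
    apply Units.ext
    apply Subtype.ext
    rw [← eH0_coe, hx]
    rfl
  · intro b
    have h1 : ∀ g, hG.j g ((Additive.toMul (b : Additive Ωˣ) : Ωˣ) : Ω) =
        ((Additive.toMul (b : Additive Ωˣ) : Ωˣ) : Ω) := by
      intro g
      have := mem_H0.1 b.2 g
      exact congrArg (fun a => ((Additive.toMul a : Ωˣ) : Ω)) this
    have h2 : (⟨_, hG.mem_E.2 h1⟩ : hG.E) ≠ 0 := by
      intro h0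
      exact (Additive.toMul (b : Additive Ωˣ) : Ωˣ).ne_zero (congrArg Subtype.val h0)
    refine ⟨Additive.ofMul (Units.mk0 _ h2), ?_⟩
    apply Subtype.ext
    apply Additive.toMul.injective
    apply Units.ext
    rfl

lemma kum_kappa_surj : Function.Surjective ((hG.kum hζ hfix).δ0 hG.smooth) := by
  intro x
  exact ((hG.kum hζ hfix).exact_H1_left hG.smooth x).1 (hG.h90 _)

include hζ hfix in
/-- `|H¹(G, μ_p)| = |Eˣ/Eˣ^p|` -/
lemma card_H1 : Nat.card (H1 L (trivAct G (ZMod p))) =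
    (powMonoidHom p : hG.Eˣ →* hG.Eˣ).range.index := by
  have hs := hG.kum_kappa_surj hζ hfix
  have h1 : Nat.card (H1 L (trivAct G (ZMod p))) =
      ((hG.kum hζ hfix).δ0 hG.smooth).ker.index := by
    rw [AddSubgroup.index_ker]
    rw [AddMonoidHom.range_eq_top.2 hs, AddSubgroup.card_top]
  rw [h1, ← AddSubgroup.index_comap_of_surjective _ hG.eH0_bijective.2,
    ← Subgroup.index_toAddSubgroup]
  congr 1
  ext x
  rw [AddSubgroup.mem_comap, AddMonoidHom.mem_ker, (hG.kum hζ hfix).exact_H0_right hG.smooth]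
  constructor
  · rintro ⟨y, hy⟩
    obtain ⟨y, rfl⟩ := hG.eH0_bijective.2 y
    refine ⟨Additive.toMul y, ?_⟩
    have h3 : hG.eH0 (p • y) = hG.eH0 x := by
      rw [map_nsmul]; exact hy
    have h4 := hG.eH0_bijective.1 h3
    rw [← h4]
    rfl
  · rintro ⟨y, hy⟩
    refine ⟨hG.eH0 (Additive.ofMul y), ?_⟩
    have h3 : x = p • (Additive.ofMul y) := by
      apply Additive.toMul.injective
      exact hy.symm
    rw [h3, map_nsmul]
    rfl

end LGal

end Fermat.Agent.PTLocal
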