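import Mathlib
import Fermat.Prelude.Def_GaloisRep_CompletionBridge

/-!
# Approximation of elements of `PadicAlgCl q` by algebraic numbers, and levels
-/

set_option autoImplicit false

namespace Fermat.Agent.PTLocal

open Polynomial

variable (q : ℕ) [hq : Fact q.Prime]

/-- a monic polynomial over `ℚ` close to a given monic polynomial over `ℚ_q` -/
lemma exists_rat_poly (f : ℚ_[q][X]) (hf : f.Monic) {δ : ℝ} (hδ : 0 < δ) :
    ∃ g : ℚ[X], g.Monic ∧ g.natDegree = f.natDegree ∧
      ∀ i, ‖(g.map (algebraMap ℚ ℚ_[q])).coeff i - f.coeff i‖ < δ := by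
  classical
  have h1 : ∀ i : ℕ, ∃ c : ℚ, ‖(c : ℚ_[q]) - f.coeff i‖ < δ := by
    intro i
    obtain ⟨c, hc⟩ := Padic.rat_dense q (f.coeff i) hδ
    exact ⟨c, by rw [norm_sub_rev]; exact hc⟩
  choose c hc using h1
  set n := f.natDegree with hn
  set g : ℚ[X] := X ^ n + ∑ i ∈ Finset.range n, C (c i) * X ^ i with hg
  have hdeg : (∑ i ∈ Finset.range n, C (c i) * X ^ i : ℚ[X]).degree < n := by
    rw [Polynomial.degree_lt_iff_coeff_zero]
    intro m hm
    rw [Polynomial.finsetSum_coeff]
    refine Finset.sum_eq_zero (fun i hi => ?_)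
    rw [Polynomial.coeff_C_mul_X_pow, if_neg]
    have := Finset.mem_range.mp hi
    omega
  have hmonic : g.Monic := Polynomial.monic_X_pow_add hdeg
  have hnat : g.natDegree = n := Polynomial.natDegree_eq_of_degree_eq_some (by
    rw [hg, Polynomial.degree_add_eq_left_of_degree_lt]
    · exact Polynomial.degree_X_pow n
    · rw [Polynomial.degree_X_pow]; exact hdeg)
  refine ⟨g, hmonic, hnat, fun i => ?_⟩
  rw [Polynomial.coeff_map]
  rcases lt_trichotomy i n with hi | hi | hi
  · have h2 : g.coeff i = c i := by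
      rw [hg, Polynomial.coeff_add, Polynomial.coeff_X_pow, if_neg hi.ne, zero_add,
        Polynomial.finsetSum_coeff]
      simp [hi]
    rw [h2]
    exact hc i
  · have h2 : g.coeff i = 1 := by rw [hi, ← hnat]; exact hmonic
    have h3 : f.coeff i = 1 := by rw [hi, hn]; exact hf
    rw [h2, h3, map_one, sub_self, norm_zero]
    exact hδ
  · rw [Polynomial.coeff_eq_zero_of_natDegree_lt (by rw [hnat]; exact hi),
      Polynomial.coeff_eq_zero_of_natDegree_lt (by rw [← hn]; exact hi), map_zero, sub_self,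
      norm_zero]
    exact hδ

/-- algebraic numbers are dense in the algebraic closure of `ℚ_q`. -/
theorem dense_padicEmbedding (α : PadicAlgCl q) {ε : ℝ} (hε : 0 < ε) :
    ∃ β : AlgebraicClosure ℚ, ‖α - padicEmbedding q β‖ < ε := by
  classical
  by_contra hcon
  push Not at hcon
  set f := minpoly ℚ_[q] α with hf
  have hfm : f.Monic := minpoly.monic (Algebra.IsIntegral.isIntegral α)
  set n := f.natDegree with hn
  set M : ℝ := max 1 ‖α‖ ^ n with hM
  have hM1 : 1 ≤ max 1 ‖α‖ := le_max_left _ _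
  have hMpos : 0 < M := by positivity
  obtain ⟨g, hgm, hgn, hgc⟩ := exists_rat_poly q f hfm (δ := ε ^ n / M) (by positivity)
  -- lower bound
  have hsplit : (g.map (algebraMap ℚ (AlgebraicClosure ℚ))).Splits := IsAlgClosed.splits _
  have hprod := hsplit.eq_prod_roots_of_monic (hgm.map _)
  have hcard : (g.map (algebraMap ℚ (AlgebraicClosure ℚ))).roots.card = n := by
    rw [← hsplit.natDegree_eq_card_roots, Polynomial.natDegree_map, hgn]
  have hlow : ε ^ n ≤ ‖aeval α g‖ := by
    have h1 : aeval α g = ((g.map (algebraMap ℚ (AlgebraicClosure ℚ))).roots.map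
        (fun r => α - padicEmbedding q r)).prod := by
      have h2 : aeval α g = eval₂ (padicEmbedding q : AlgebraicClosure ℚ →+* PadicAlgCl q) α
          (g.map (algebraMap ℚ (AlgebraicClosure ℚ))) := by
        rw [eval₂_map, aeval_def]
        congr 1
        exact Subsingleton.elim _ _
      rw [h2]
      generalize (g.map (algebraMap ℚ (AlgebraicClosure ℚ))) = G at hprod
      conv_lhs => rw [hprod]
      rw [Polynomial.eval₂_multiset_prod, Multiset.map_map]
      congr 1
      refine Multiset.map_congr rfl (fun r _ => ?_)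
      simp
    rw [h1, ← hcard]
    generalize (g.map (algebraMap ℚ (AlgebraicClosure ℚ))).roots = s
    induction s using Multiset.induction_on with
    | empty => simp
    | cons a s ih =>
      rw [Multiset.map_cons, Multiset.prod_cons, norm_mul, Multiset.card_cons, pow_succ']
      exact mul_le_mul (hcon a) ih (by positivity) (norm_nonneg _)
  -- upper bound
  have hup : ‖aeval α g‖ < ε ^ n := by
    have h1 : aeval α g = ∑ i ∈ Finset.range (n + 1),
        algebraMap ℚ_[q] (PadicAlgCl q) ((g.map (algebraMap ℚ ℚ_[q])).coeff i - f.coeff i) *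
          α ^ i := by
      have h2 : aeval α g = aeval α (g.map (algebraMap ℚ ℚ_[q])) := by
        rw [aeval_map_algebraMap]
      have h3 : aeval α f = 0 := minpoly.aeval _ _
      have h4 : aeval α g = aeval α (g.map (algebraMap ℚ ℚ_[q]) - f) := by
        rw [map_sub, h3, sub_zero, h2]
      rw [h4, aeval_eq_sum_range' (n := n + 1)]
      · refine Finset.sum_congr rfl (fun i _ => ?_)
        rw [Polynomial.coeff_sub, Algebra.smul_def]
      · refine (Polynomial.natDegree_sub_le _ _).trans_lt ?_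
        rw [Polynomial.natDegree_map, hgn, max_self]
        exact Nat.lt_succ_self _
    rw [h1]
    have hne : (Finset.range (n + 1)).Nonempty := Finset.nonempty_range_iff.2 (Nat.succ_ne_zero _)
    obtain ⟨i, hi, hle⟩ := IsUltrametricDist.exists_norm_finsetSum_le_of_nonempty hne
      (fun i => algebraMap ℚ_[q] (PadicAlgCl q)
        ((g.map (algebraMap ℚ ℚ_[q])).coeff i - f.coeff i) * α ^ i)
    refine lt_of_le_of_lt hle ?_
    rw [norm_mul, norm_pow, norm_algebraMap']
    have h5 : ‖α‖ ^ i ≤ M := by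
      calc ‖α‖ ^ i ≤ (max 1 ‖α‖) ^ i := pow_le_pow_left₀ (norm_nonneg _) (le_max_right _ _) i
        _ ≤ (max 1 ‖α‖) ^ n := pow_le_pow_right₀ hM1 (Nat.lt_succ_iff.mp (Finset.mem_range.mp hi))
    calc ‖(g.map (algebraMap ℚ ℚ_[q])).coeff i - f.coeff i‖ * ‖α‖ ^ i
        ≤ ‖(g.map (algebraMap ℚ ℚ_[q])).coeff i - f.coeff i‖ * M :=
          mul_le_mul_of_nonneg_left h5 (norm_nonneg _)
      _ < ε ^ n / M * M := mul_lt_mul_of_pos_right (hgc i) hMpos
      _ = ε ^ n := by field_simp
  exact absurd hlow (not_le.mpr hup)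

/-- **Krasner**: every finite level of `ℚ_q` contains the pull back of a level of `ℚ`. -/
theorem krasner (F : IntermediateField ℚ_[q] (PadicAlgCl q)) [FiniteDimensional ℚ_[q] F] :
    ∃ F0 : IntermediateField ℚ (AlgebraicClosure ℚ), FiniteDimensional ℚ F0 ∧
      ∀ τ : PadicAlgCl q ≃ₐ[ℚ_[q]] PadicAlgCl q,
        localGaloisToGlobal q τ ∈ F0.fixingSubgroup → τ ∈ F.fixingSubgroup := by
  classical
  obtain ⟨a, ha⟩ := Field.exists_primitive_element ℚ_[q] F
  set α : PadicAlgCl q := (a : PadicAlgCl q) with hα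
  set R : Finset (PadicAlgCl q) := ((minpoly ℚ_[q] α).rootSet (PadicAlgCl q)).toFinset.erase α
    with hR
  obtain ⟨ε, hε, hεR⟩ : ∃ ε : ℝ, 0 < ε ∧ ∀ r ∈ R, ε ≤ ‖r - α‖ := by
    rcases R.eq_empty_or_nonempty with h | h
    · exact ⟨1, one_pos, by simp [h]⟩
    · obtain ⟨r, hr, hmin⟩ := R.exists_min_image (fun r => ‖r - α‖) h
      refine ⟨‖r - α‖, ?_, hmin⟩
      rw [norm_pos_iff, sub_ne_zero]
      exact Finset.ne_of_mem_erase hr
  obtain ⟨β, hβ⟩ := dense_padicEmbedding q α hε
  have hβalg : IsAlgebraic ℚ β := (AlgebraicClosure.isAlgebraic ℚ).isAlgebraic β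
  refine ⟨IntermediateField.adjoin ℚ {β},
    IntermediateField.adjoin.finiteDimensional hβalg.isIntegral, ?_⟩
  intro τ hτ
  have h1 : localGaloisToGlobal q τ β = β := by
    rw [IntermediateField.mem_fixingSubgroup_iff] at hτ
    exact hτ β (IntermediateField.mem_adjoin_simple_self ℚ β)
  have h2 : τ (padicEmbedding q β) = padicEmbedding q β := by
    rw [← padicEmbedding_localGaloisToGlobal, h1]
  have h3 : ‖τ α - α‖ < ε := by
    have h4 : τ α - α = τ (α - padicEmbedding q β) + (padicEmbedding q β - α) := by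
      rw [map_sub, h2]; ring
    rw [h4]
    refine (IsUltrametricDist.norm_add_le_max _ _).trans_lt (max_lt ?_ ?_)
    · have h5 : ‖τ (α - padicEmbedding q β)‖ = ‖α - padicEmbedding q β‖ :=
        (spectralNorm_eq_of_equiv τ _).symm
      rw [h5]; exact hβ
    · rw [norm_sub_rev]; exact hβ
  have h6 : τ α = α := by
    by_contra hne
    have h7 : τ α ∈ R := by
      rw [hR, Finset.mem_erase]
      refine ⟨hne, ?_⟩
      rw [Set.mem_toFinset, Polynomial.mem_rootSet]
      refine ⟨minpoly.ne_zero (Algebra.IsIntegral.isIntegral α), ?_⟩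
      rw [← AlgEquiv.coe_toAlgHom, Polynomial.aeval_algHom_apply, minpoly.aeval, map_zero]
    exact absurd (hεR _ h7) (not_le.mpr h3)
  -- `F = ℚ_q(α)`
  rw [IntermediateField.mem_fixingSubgroup_iff]
  intro x hx
  have h8 : (⟨x, hx⟩ : F) ∈ IntermediateField.adjoin ℚ_[q] {a} := by rw [ha]; trivial
  have h9 : IntermediateField.adjoin ℚ_[q] {a} ≤
      (IntermediateField.fixedField (Subgroup.zpowers τ)).comap F.val := by
    rw [IntermediateField.adjoin_le_iff, Set.singleton_subset_iff]
    change α ∈ IntermediateField.fixedField (Subgroup.zpowers τ)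
    rw [IntermediateField.mem_fixedField_iff]
    intro σ hσ
    have h10 : τ ∈ MulAction.stabilizer (PadicAlgCl q ≃ₐ[ℚ_[q]] PadicAlgCl q) α := h6
    have h11 : Subgroup.zpowers τ ≤ MulAction.stabilizer _ α := by
      rw [Subgroup.zpowers_le]; exact h10
    exact h11 hσ
  have h12 := h9 h8
  have h13 : x ∈ IntermediateField.fixedField (Subgroup.zpowers τ) := h12
  rw [IntermediateField.mem_fixedField_iff] at h13
  exact h13 τ (Subgroup.mem_zpowers τ)

end Fermat.Agent.PTLocal
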