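import Fermat.Agent.PTLocal.Mu
import Fermat.Agent.PTLocal.Krasner
import Fermat.Agent.PT.Local

/-!
# The local hypotheses of the formal duality theorem
-/

set_option autoImplicit false

namespace Fermat.Agent.PTLocal

open Fermat.Agent.PT IntermediateField

section locHyp

variable {q : ℕ} [hq : Fact q.Prime] {p : ℕ} [hp : Fact p.Prime]
variable {G : Type} [Group G] {L : Levels G} (hG : LGal ℚ_[q] (PadicAlgCl q) L)
  {τ : Act G (ZMod p)} {i : ZMod p →+ Additive (PadicAlgCl q)ˣ} (hi : Function.Injective i)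
  (hc : ∀ g a, i (τ g a) = hG.act g (i a))

include hi hc in
/-- `LocHyp` for a local Galois group. -/
theorem LGal.locHyp (hj : Function.Bijective hG.j) (W : Subgroup G)
    (hW : ∀ g, g ∈ W ↔ ∀ a, τ g a = a) :
    LocHyp p L τ W (if p = q then 1 else 0) := by
  obtain ⟨hζ, hk⟩ := zeta_of_inj i hi
  set ζ := ((Additive.toMul (i 1) : (PadicAlgCl q)ˣ) : PadicAlgCl q) with hζdef
  have hWζ : ∀ g, g ∈ W ↔ hG.j g ζ = ζ := by
    intro g
    rw [hW]
    constructor
    · intro h
      have h1 := hc g 1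
      rw [h 1] at h1
      have h2 := congrArg (fun a => ((Additive.toMul a : (PadicAlgCl q)ˣ) : PadicAlgCl q)) h1
      exact h2.symm
    · intro h a
      apply hi
      rw [hc]
      apply Additive.toMul.injective
      apply Units.ext
      show hG.j g ((Additive.toMul (i a) : (PadicAlgCl q)ˣ) : PadicAlgCl q) =
        ((Additive.toMul (i a) : (PadicAlgCl q)ˣ) : PadicAlgCl q)
      rw [hk, map_pow, h]
  have hWV : W = fixSub hG ζ := by
    ext g
    rw [hWζ, mem_fixSub]
  have hWo : IsOpenSub L W := by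
    rw [hWV]; exact isOpenSub_fixSub hG ζ
  have : NeZero p := ⟨hp.out.ne_zero⟩
  let ω : G →* (ZMod p)ˣ := (hζ.autToPow ℚ_[q]).comp hG.j
  have hω : ∀ g, ζ ^ ((ω g : (ZMod p)ˣ) : ZMod p).val = hG.j g ζ :=
    fun g => hζ.autToPow_spec ℚ_[q] (hG.j g)
  have hker : ω.ker = W := by
    ext g
    rw [MonoidHom.mem_ker, hWζ]
    constructor
    · intro h
      rw [← hω, h, Units.val_one, ZMod.val_one, pow_one]
    · intro h
      have h1 := hω g
      rw [h] at h1
      have h2 : ζ ^ ((ω g : (ZMod p)ˣ) : ZMod p).val = ζ ^ 1 := by rw [h1, pow_one]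
      have h3 := hζ.pow_inj (ZMod.val_lt _) hp.out.one_lt h2
      apply Units.ext
      rw [Units.val_one, ← ZMod.natCast_zmod_val ((ω g : (ZMod p)ˣ) : ZMod p), h3, Nat.cast_one]
  refine ⟨?_, hWo, ?_, fun u hu a => (hW u).1 hu a, ?_, ?_, hG.card_H2_mu hi hc⟩
  · intro a
    obtain ⟨N, hN, hle⟩ := hWo
    exact ⟨N, hN, fun s hs => (hW s).1 (hle hs) a⟩
  · rw [← hker, Subgroup.index_ker]
    intro hdvd
    have h1 := (Subgroup.card_subgroup_dvd_card ω.range)
    have h2 : Nat.card (ZMod p)ˣ = p - 1 := by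
      rw [Nat.card_eq_fintype_card, ZMod.card_units_eq_totient, Nat.totient_prime hp.out]
    rw [h2] at h1
    have h3 := Nat.le_of_dvd (by have := hp.out.one_lt; omega) (hdvd.trans h1)
    have := hp.out.one_lt
    omega
  · intro V hVo hVW
    rw [(hG.sub V hVo).card_H1_eq hζ (fun g => (hWζ _).1 (hVW g.2))]
    have h1 : (hG.sub V hVo).j.range.index = V.index := by
      have h2 : (hG.sub V hVo).j.range = V.map hG.j := by
        ext σ
        constructor
        · rintro ⟨g, rfl⟩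
          exact ⟨g, g.2, rfl⟩
        · rintro ⟨g, hg, rfl⟩
          exact ⟨⟨g, hg⟩, rfl⟩
      rw [h2]
      exact Subgroup.index_map_of_bijective hj V
    rw [h1]
    congr 2
    split_ifs <;> simp
  · intro V hVo hVW
    exact (hG.sub V hVo).card_H2 hζ (fun g => (hWζ _).1 (hVW g.2))

end locHyp

section qlevels

variable (k Ω : Type) [Field k] [Field Ω] [Algebra k Ω] [IsGalois k Ω]

/-- the Krull levels: finite Galois subextensions -/
def galLevels : Levels (Ω ≃ₐ[k] Ω) where
  carrier := {N | ∃ F : IntermediateField k Ω, FiniteDimensional k F ∧ Normal k F ∧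
    N = F.fixingSubgroup}
  nonempty' := ⟨_, ⊥, inferInstance, inferInstance, rfl⟩
  directed' := by
    rintro _ ⟨F, hF, hFn, rfl⟩ _ ⟨F', hF', hFn', rfl⟩
    exact ⟨_, ⟨F ⊔ F', inferInstance, inferInstance, rfl⟩,
      fixingSubgroup_antitone le_sup_left, fixingSubgroup_antitone le_sup_right⟩
  normal' := by
    rintro _ ⟨F, hF, hFn, rfl⟩
    have : IsGalois k F := ⟨⟩
    exact (InfiniteGalois.normal_iff_isGalois F).2 this
  finiteIndex' := by
    rintro _ ⟨F, hF, hFn, rfl⟩
    constructor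
    rw [← IntermediateField.finrank_eq_fixingSubgroup_index]
    exact Module.finrank_pos.ne'

end qlevels

section Gq

lemma fg_of_fd {k Ω : Type*} [Field k] [Field Ω] [Algebra k Ω] (F : IntermediateField k Ω)
    (_h : FiniteDimensional k F) : F.FG :=
  IntermediateField.essFiniteType_iff.1 inferInstance

variable (q : ℕ) [hq : Fact q.Prime]

/-- `Gal(ℚ_q^al/ℚ_q)` with levels cofinal with those pulled back from number fields is of Galois
type. -/
noncomputable def lgalQ (L : Levels (PadicAlgCl q ≃ₐ[ℚ_[q]] PadicAlgCl q))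
    (h1 : ∀ N ∈ L.carrier, ∃ F : IntermediateField ℚ (AlgebraicClosure ℚ),
      FiniteDimensional ℚ F ∧ ∀ g, localGaloisToGlobal q g ∈ F.fixingSubgroup → g ∈ N)
    (h2 : ∀ F : IntermediateField ℚ (AlgebraicClosure ℚ), FiniteDimensional ℚ F →
      ∃ N ∈ L.carrier, ∀ g ∈ N, localGaloisToGlobal q g ∈ F.fixingSubgroup) :
    LGal ℚ_[q] (PadicAlgCl q) L where
  j := MonoidHom.id _
  ker_le N _ g hg := by
    have : g = 1 := hg
    rw [this]; exact N.one_mem
  lev N hN := by
    obtain ⟨F, hF, h⟩ := h1 N hN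
    obtain ⟨T, hT⟩ := fg_of_fd F hF
    let T' : Set (PadicAlgCl q) := padicEmbedding q '' (T : Set (AlgebraicClosure ℚ))
    have hT'f : Finite T' := (T.finite_toSet.image _)
    refine ⟨adjoin ℚ_[q] T', finiteDimensional_adjoin
      (fun x _ => (Algebra.IsAlgebraic.isAlgebraic (R := ℚ_[q]) x).isIntegral),
      fun σ hσ => ⟨σ, h σ ?_, rfl⟩⟩
    rw [IntermediateField.mem_fixingSubgroup_iff]
    intro x hx
    have h5 : F ≤ fixedField (Subgroup.zpowers (localGaloisToGlobal q σ)) := by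
      rw [← hT, adjoin_le_iff]
      intro a ha
      have h3 : σ (padicEmbedding q a) = padicEmbedding q a :=
        hσ ⟨padicEmbedding q a, subset_adjoin _ _ ⟨a, ha, rfl⟩⟩
      have h4 : localGaloisToGlobal q σ a = a := by
        apply (padicEmbedding q).injective
        show padicEmbedding q _ = padicEmbedding q _
        rw [padicEmbedding_localGaloisToGlobal]
        exact h3
      rw [SetLike.mem_coe, IntermediateField.mem_fixedField_iff]
      intro τ hτ
      have h8 : localGaloisToGlobal q σ ∈ MulAction.stabilizer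
        (AlgebraicClosure ℚ ≃ₐ[ℚ] AlgebraicClosure ℚ) a := h4
      have h9 : Subgroup.zpowers (localGaloisToGlobal q σ) ≤ MulAction.stabilizer
        (AlgebraicClosure ℚ ≃ₐ[ℚ] AlgebraicClosure ℚ) a := by
        rw [Subgroup.zpowers_le]; exact h8
      exact h9 hτ
    exact (IntermediateField.mem_fixedField_iff _ _).1 (h5 hx) _ (Subgroup.mem_zpowers _)
  cof F hF := by
    obtain ⟨F0, hF0, h⟩ := krasner q F
    obtain ⟨N, hN, hN2⟩ := h2 F0 hF0
    exact ⟨N, hN, fun g hg => h g (hN2 g hg)⟩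

theorem isGalois_qbar : IsGalois ℚ (AlgebraicClosure ℚ) := by
  have h1 : Algebra.IsAlgebraic ℚ (AlgebraicClosure ℚ) := AlgebraicClosure.isAlgebraic ℚ
  have h2 : IsAlgClosure ℚ (AlgebraicClosure ℚ) := ⟨inferInstance, inferInstance⟩
  have h3 : Normal ℚ (AlgebraicClosure ℚ) := IsAlgClosure.normal ℚ (AlgebraicClosure ℚ)
  exact ⟨⟩

attribute [local instance] isGalois_qbar

/-- levels of `Gal(ℚ_q^al/ℚ_q)` pulled back from number fields -/
noncomputable def qLevels : Levels (PadicAlgCl q ≃ₐ[ℚ_[q]] PadicAlgCl q) :=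
  (galLevels ℚ (AlgebraicClosure ℚ)).comap (localGaloisToGlobal q)

/-- the standard instance -/
noncomputable def lgalQ' : LGal ℚ_[q] (PadicAlgCl q) (qLevels q) :=
  lgalQ q (qLevels q)
    (by
      rintro _ ⟨_, ⟨F, hF, -, rfl⟩, rfl⟩
      exact ⟨F, hF, fun g hg => hg⟩)
    (by
      intro F hF
      let F' := normalClosure ℚ F (AlgebraicClosure ℚ)
      refine ⟨_, ⟨_, ⟨F', inferInstance, inferInstance, rfl⟩, rfl⟩, fun g hg => ?_⟩
      exact fixingSubgroup_antitone (IntermediateField.le_normalClosure F) hg)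

variable {q} {p : ℕ} [hp : Fact p.Prime]

/-- **Final form** of the local hypotheses. -/
theorem locHyp_main (L : Levels (PadicAlgCl q ≃ₐ[ℚ_[q]] PadicAlgCl q))
    (h1 : ∀ N ∈ L.carrier, ∃ F : IntermediateField ℚ (AlgebraicClosure ℚ),
      FiniteDimensional ℚ F ∧ ∀ g, localGaloisToGlobal q g ∈ F.fixingSubgroup → g ∈ N)
    (h2 : ∀ F : IntermediateField ℚ (AlgebraicClosure ℚ), FiniteDimensional ℚ F →
      ∃ N ∈ L.carrier, ∀ g ∈ N, localGaloisToGlobal q g ∈ F.fixingSubgroup)
    (μ : Act (AlgebraicClosure ℚ ≃ₐ[ℚ] AlgebraicClosure ℚ) (ZMod p))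
    {ζ : AlgebraicClosure ℚ} (hζ : IsPrimitiveRoot ζ p)
    (hμ : ∀ g, g ζ = ζ ^ (μ g 1).val)
    (W : Subgroup (AlgebraicClosure ℚ ≃ₐ[ℚ] AlgebraicClosure ℚ))
    (hW : ∀ g, g ∈ W ↔ ∀ a, μ g a = a) :
    LocHyp p L (μ.comp (localGaloisToGlobal q)) (W.comap (localGaloisToGlobal q))
      (if p = q then 1 else 0) := by
  set hG := lgalQ q L h1 h2 with hGdef
  have hζ' : IsPrimitiveRoot (padicEmbedding q ζ) p :=
    hζ.map_of_injective (padicEmbedding q).injective
  refine hG.locHyp (i := zetaHom hζ') (zetaHom_injective hζ') (fun g a => ?_)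
    Function.bijective_id _ (fun g => hW _)
  apply Additive.toMul.injective
  apply Units.ext
  show ((Additive.toMul (zetaHom hζ' (μ (localGaloisToGlobal q g) a)) : (PadicAlgCl q)ˣ) :
    PadicAlgCl q) = g ((Additive.toMul (zetaHom hζ' a) : (PadicAlgCl q)ˣ) : PadicAlgCl q)
  rw [zetaHom_apply, zetaHom_apply, map_pow, ← padicEmbedding_localGaloisToGlobal, hμ, map_pow,
    ← pow_mul]
  have h3 : μ (localGaloisToGlobal q g) a = a.val • μ (localGaloisToGlobal q g) 1 := by
    rw [← map_nsmul, nsmul_eq_mul, mul_one, ZMod.natCast_val, ZMod.cast_id', id]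
  rw [h3, nsmul_eq_mul]
  have h4 : ((a.val : ZMod p) * (μ (localGaloisToGlobal q g)) 1).val =
      (((μ (localGaloisToGlobal q g)) 1).val * a.val) % p := by
    rw [ZMod.val_mul, ZMod.val_natCast_of_lt (ZMod.val_lt a), mul_comm]
  rw [h4, ← pow_mod_orderOf _ (((μ (localGaloisToGlobal q g)) 1).val * a.val),
    ← hζ'.eq_orderOf]

end Gq

end Fermat.Agent.PTLocal
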