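import Mathlib

/-!
# Herbrand quotients and Tate's lemma for a cyclic group of prime order

Everything is additive, with indices of subgroups of an ambient commutative group.
-/

set_option autoImplicit false

namespace Fermat.Agent.PTLocal

open AddSubgroup

variable {A C : Type*} [AddCommGroup A] [AddCommGroup C]

/-- order of the kernel of `f` on `B` (zero if infinite). -/
noncomputable def kc {C : Type*} [AddCommGroup C] (f : A →+ C) (B : AddSubgroup A) : ℕ :=
  Nat.card (f.ker ⊓ B : AddSubgroup A)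

/-- order of the cokernel of `f` on `B` (zero if infinite). -/
noncomputable def cc (f : A →+ A) (B : AddSubgroup A) : ℕ := (B.map f).relIndex B

/-- `[f K : f H] = [K : H + ker f ∩ K]`. -/
lemma relIndex_map_map' {C : Type*} [AddCommGroup C] (f : A →+ C) {H K : AddSubgroup A}
    (h : H ≤ K) : (H.map f).relIndex (K.map f) = (H ⊔ f.ker).relIndex K := by
  rw [AddSubgroup.relIndex_map_map]
  have : K ⊔ f.ker = K ⊔ (H ⊔ f.ker) := by
    rw [← sup_assoc, sup_eq_left.mpr h]
  rw [this, AddSubgroup.relIndex_sup_right]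

lemma relIndex_sup_inf {H K L : AddSubgroup A} (h : H ≤ K) :
    (H ⊔ (L ⊓ K)).relIndex K = (H ⊔ L).relIndex K := by
  rw [← AddSubgroup.inf_relIndex_right (H ⊔ L) K]
  congr 1
  rw [sup_inf_assoc_of_le L h]

lemma card_eq_mul (H K : AddSubgroup A) :
    Nat.card K = H.relIndex K * Nat.card (H ⊓ K : AddSubgroup A) := by
  have h1 : (⊥ : AddSubgroup A).relIndex K = Nat.card K := AddSubgroup.relIndex_bot_left K
  have h2 : (⊥ : AddSubgroup A).relIndex (H ⊓ K) = Nat.card (H ⊓ K : AddSubgroup A) :=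
    AddSubgroup.relIndex_bot_left _
  rw [← h1, ← h2]
  have := AddSubgroup.relIndex_mul_relIndex (⊥ : AddSubgroup A) (H ⊓ K) K bot_le inf_le_right
  rw [← this, AddSubgroup.inf_relIndex_right, mul_comm]

lemma card_eq_map {C : Type*} [AddCommGroup C] (f : A →+ C) (K : AddSubgroup A) :
    Nat.card K = Nat.card (K.map f) * Nat.card (f.ker ⊓ K : AddSubgroup A) := by
  rw [card_eq_mul f.ker K, AddSubgroup.relIndex_ker]

/-- multiplicativity of the Herbrand quotient for a composition. -/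
theorem herbrand_comp (f g : A →+ A) (B : AddSubgroup A) (hf : B.map f ≤ B) (hg : B.map g ≤ B) :
    cc (f.comp g) B * (kc f B * kc g B) = cc f B * cc g B * kc (f.comp g) B := by
  set X := B.map g with hX
  have e1 : cc (f.comp g) B = (X ⊔ f.ker).relIndex B * cc f B := by
    unfold cc
    rw [← AddSubgroup.map_map, ← hX,
      ← AddSubgroup.relIndex_mul_relIndex (X.map f) (B.map f) B (AddSubgroup.map_mono hg) hf,
      relIndex_map_map' f hg]
  have e2 : cc g B = X.relIndex (f.ker ⊓ B) * (X ⊔ f.ker).relIndex B := by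
    unfold cc
    rw [← hX, ← AddSubgroup.relIndex_mul_relIndex X (X ⊔ (f.ker ⊓ B)) B le_sup_left
      (sup_le hg inf_le_right), relIndex_sup_inf hg, AddSubgroup.relIndex_sup_left]
  have e3 : kc f B = X.relIndex (f.ker ⊓ B) * Nat.card (f.ker ⊓ X : AddSubgroup A) := by
    unfold kc
    rw [card_eq_mul X (f.ker ⊓ B)]
    congr 3
    rw [← inf_assoc, inf_comm X f.ker, inf_assoc, inf_eq_left.mpr hg]
  have e4 : kc (f.comp g) B = Nat.card (f.ker ⊓ X : AddSubgroup A) * kc g B := by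
    unfold kc
    rw [card_eq_map g ((f.comp g).ker ⊓ B)]
    have h1 : ((f.comp g).ker ⊓ B).map g = f.ker ⊓ X := by
      ext x
      simp only [AddSubgroup.mem_map, AddSubgroup.mem_inf, AddMonoidHom.mem_ker, hX,
        AddMonoidHom.comp_apply]
      constructor
      · rintro ⟨y, ⟨h1, h2⟩, rfl⟩
        exact ⟨h1, y, h2, rfl⟩
      · rintro ⟨h1, y, h2, rfl⟩
        exact ⟨y, ⟨h1, h2⟩, rfl⟩
    have h2 : g.ker ⊓ ((f.comp g).ker ⊓ B) = g.ker ⊓ B := by
      ext x
      simp only [AddSubgroup.mem_inf, AddMonoidHom.mem_ker, AddMonoidHom.comp_apply]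
      constructor
      · rintro ⟨h1, h2, h3⟩
        exact ⟨h1, h3⟩
      · rintro ⟨h1, h2⟩
        exact ⟨h1, by rw [h1, map_zero], h2⟩
    rw [h1, h2]
  rw [e1, e2, e3, e4]
  ring

/-- multiplicativity of the Herbrand quotient in a short exact sequence
`0 → B ∩ ker π → B → π B → 0`. -/
theorem herbrand_exact (f : A →+ A) (f'' : C →+ C) (π : A →+ C) (hπ : ∀ a, π (f a) = f'' (π a))
    (B : AddSubgroup A) (hf : B.map f ≤ B) :
    cc f B * (kc f (B ⊓ π.ker) * kc f'' (B.map π)) =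
      cc f (B ⊓ π.ker) * cc f'' (B.map π) * kc f B := by
  set B' := B ⊓ π.ker with hB'
  have hB'B : B' ≤ B := inf_le_left
  set Y := B ⊓ (π.ker.comap f) with hY
  have hB'Y : B' ≤ Y := by
    refine le_inf inf_le_left ?_
    intro x hx
    rw [AddSubgroup.mem_comap, AddMonoidHom.mem_ker, hπ, (AddMonoidHom.mem_ker).mp hx.2, map_zero]
  have e1 : cc f B = (B.map f).relIndex B' * cc f'' (B.map π) := by
    unfold cc
    rw [← AddSubgroup.relIndex_mul_relIndex (B.map f) (B.map f ⊔ B') B le_sup_left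
      (sup_le hf hB'B), AddSubgroup.relIndex_sup_left]
    congr 1
    have h1 : (B.map π).map f'' = (B.map f).map π := by
      rw [AddSubgroup.map_map, AddSubgroup.map_map]
      congr 1
      ext a
      exact (hπ a).symm
    rw [h1, relIndex_map_map' π hf, hB', inf_comm B π.ker, relIndex_sup_inf hf]
  have hfB' : B'.map f ≤ B.map f ⊓ B' := by
    refine le_inf (AddSubgroup.map_mono hB'B) ?_
    rintro _ ⟨x, hx, rfl⟩
    refine ⟨hf ⟨x, hx.1, rfl⟩, ?_⟩
    exact (hB'Y hx).2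
  have e5 : B.map f ⊓ B' = Y.map f := by
    ext x
    constructor
    · rintro ⟨⟨y, hy, rfl⟩, hx⟩
      exact ⟨y, ⟨hy, hx.2⟩, rfl⟩
    · rintro ⟨y, hy, rfl⟩
      exact ⟨⟨y, hy.1, rfl⟩, hf ⟨y, hy.1, rfl⟩, hy.2⟩
  have e2 : cc f B' = (B' ⊔ f.ker).relIndex Y * (B.map f).relIndex B' := by
    unfold cc
    rw [← AddSubgroup.relIndex_mul_relIndex (B'.map f) (B.map f ⊓ B') B' hfB' inf_le_right,
      AddSubgroup.inf_relIndex_right]
    congr 1
    rw [e5, relIndex_map_map' f hB'Y]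
  have e6 : f''.ker ⊓ B.map π = Y.map π := by
    ext x
    constructor
    · rintro ⟨h1, y, hy, rfl⟩
      refine ⟨y, ⟨hy, ?_⟩, rfl⟩
      change π (f y) = 0
      rw [hπ]
      exact h1
    · rintro ⟨y, hy, rfl⟩
      refine ⟨?_, y, hy.1, rfl⟩
      change f'' (π y) = 0
      rw [← hπ]
      exact hy.2
  have hkY : f.ker ⊓ B ≤ Y := by
    refine le_inf inf_le_right ?_
    intro x hx
    rw [AddSubgroup.mem_comap, AddMonoidHom.mem_ker, (AddMonoidHom.mem_ker).mp hx.1, map_zero]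
  have hkY' : f.ker ⊓ B = f.ker ⊓ Y := by
    refine le_antisymm (le_inf inf_le_left hkY) (inf_le_inf_left _ inf_le_left)
  -- `[ker f'' on πB : π (ker f on B)] = [Y : B' + ker f]`
  have e7 : ((f.ker ⊓ B).map π).relIndex (Y.map π) = (B' ⊔ f.ker).relIndex Y := by
    have hB'' : π.ker ⊓ Y = B' := by
      refine le_antisymm (le_inf (inf_le_right.trans inf_le_left) inf_le_left)
        (le_inf inf_le_right hB'Y)
    rw [relIndex_map_map' π hkY, ← relIndex_sup_inf hkY, hB'', ← relIndex_sup_inf hB'Y, hkY',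
      sup_comm]
  have e3 : kc f'' (B.map π) = (B' ⊔ f.ker).relIndex Y *
      Nat.card ((f.ker ⊓ B).map π : AddSubgroup C) := by
    unfold kc
    rw [e6, card_eq_mul ((f.ker ⊓ B).map π) (Y.map π), e7]
    congr 3
    exact inf_eq_left.mpr (AddSubgroup.map_mono hkY)
  have e4 : kc f B = Nat.card ((f.ker ⊓ B).map π : AddSubgroup C) * kc f B' := by
    unfold kc
    rw [card_eq_map π (f.ker ⊓ B)]
    congr 3
    rw [hB', inf_comm B π.ker, inf_left_comm]
  rw [e1, e2, e3, e4]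
  ring

lemma kc_eq_mul (f : A →+ A) {B₁ B : AddSubgroup A} (h : B₁ ≤ B) :
    kc f B = B₁.relIndex (f.ker ⊓ B) * kc f B₁ := by
  unfold kc
  rw [card_eq_mul B₁ (f.ker ⊓ B)]
  congr 3
  rw [← inf_assoc, inf_comm B₁ f.ker, inf_assoc, inf_eq_left.mpr h]

lemma kc_ne_zero_of_le (f : A →+ A) {B₁ B : AddSubgroup A} (h : B₁ ≤ B) (hB : kc f B ≠ 0) :
    kc f B₁ ≠ 0 := by
  rw [kc_eq_mul f h] at hB
  exact right_ne_zero_of_mul hB

/-- the Herbrand quotient does not change when passing to a subgroup of finite index. -/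
theorem herbrand_finite_index (f : A →+ A) (B₁ B : AddSubgroup A) (h : B₁ ≤ B)
    (hf : B.map f ≤ B) (hf₁ : B₁.map f ≤ B₁) (hfin : B₁.relIndex B ≠ 0) :
    cc f B * kc f B₁ = cc f B₁ * kc f B := by
  have e1 : (B₁.map f).relIndex B = cc f B₁ * B₁.relIndex B := by
    unfold cc
    rw [AddSubgroup.relIndex_mul_relIndex _ _ _ hf₁ h]
  have e2 : (B₁.map f).relIndex B = (B₁ ⊔ f.ker).relIndex B * cc f B := by
    unfold cc
    rw [← relIndex_map_map' f h, AddSubgroup.relIndex_mul_relIndex _ _ _ (AddSubgroup.map_mono h) hf]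
  have e3 : B₁.relIndex B = B₁.relIndex (f.ker ⊓ B) * (B₁ ⊔ f.ker).relIndex B := by
    rw [← AddSubgroup.relIndex_mul_relIndex B₁ (B₁ ⊔ (f.ker ⊓ B)) B le_sup_left
      (sup_le h inf_le_right), relIndex_sup_inf h, AddSubgroup.relIndex_sup_left]
  have ht : (B₁ ⊔ f.ker).relIndex B ≠ 0 := by
    rw [e3] at hfin
    exact right_ne_zero_of_mul hfin
  have e4 : cc f B = cc f B₁ * B₁.relIndex (f.ker ⊓ B) := by
    apply mul_left_cancel₀ ht
    rw [← e2, e1, e3]
    ring
  rw [e4, kc_eq_mul f h]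
  ring

lemma cc_congr {f g : A →+ A} {B : AddSubgroup A} (h : ∀ a ∈ B, f a = g a) : cc f B = cc g B := by
  unfold cc
  congr 1
  ext x
  constructor
  · rintro ⟨y, hy, rfl⟩
    exact ⟨y, hy, (h y hy).symm⟩
  · rintro ⟨y, hy, rfl⟩
    exact ⟨y, hy, h y hy⟩

lemma kc_congr {f g : A →+ A} {B : AddSubgroup A} (h : ∀ a ∈ B, f a = g a) : kc f B = kc g B := by
  unfold kc
  congr 3
  ext x
  constructor
  · rintro ⟨h1, h2⟩
    refine ⟨?_, h2⟩
    change g x = 0
    rw [← h x h2]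
    exact h1
  · rintro ⟨h1, h2⟩
    refine ⟨?_, h2⟩
    change f x = 0
    rw [h x h2]
    exact h1

lemma kc_comp_ne_zero (f g : A →+ A) (B : AddSubgroup A) (hg : B.map g ≤ B)
    (hf0 : kc f B ≠ 0) (hg0 : kc g B ≠ 0) : kc (f.comp g) B ≠ 0 := by
  set X := B.map g with hX
  have e4 : kc (f.comp g) B = Nat.card (f.ker ⊓ X : AddSubgroup A) * kc g B := by
    unfold kc
    rw [card_eq_map g ((f.comp g).ker ⊓ B)]
    have h1 : ((f.comp g).ker ⊓ B).map g = f.ker ⊓ X := by
      ext x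
      simp only [AddSubgroup.mem_map, AddSubgroup.mem_inf, AddMonoidHom.mem_ker, hX,
        AddMonoidHom.comp_apply]
      constructor
      · rintro ⟨y, ⟨h1, h2⟩, rfl⟩
        exact ⟨h1, y, h2, rfl⟩
      · rintro ⟨h1, y, h2, rfl⟩
        exact ⟨y, ⟨h1, h2⟩, rfl⟩
    have h2 : g.ker ⊓ ((f.comp g).ker ⊓ B) = g.ker ⊓ B := by
      ext x
      simp only [AddSubgroup.mem_inf, AddMonoidHom.mem_ker, AddMonoidHom.comp_apply]
      constructor
      · rintro ⟨h1, h2, h3⟩
        exact ⟨h1, h3⟩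
      · rintro ⟨h1, h2⟩
        exact ⟨h1, by rw [h1, map_zero], h2⟩
    rw [h1, h2]
  rw [e4]
  exact mul_ne_zero (kc_ne_zero_of_le f hg hf0) hg0

section cyclic

open Polynomial

variable (p : ℕ) (s : AddMonoid.End A)

/-- evaluation of integral polynomials at an endomorphism -/
noncomputable def ev (F : ℤ[X]) : AddMonoid.End A := Polynomial.aeval s F

lemma ev_mul (F G : ℤ[X]) : ev s (F * G) = ev s F * ev s G := by simp [ev]

lemma ev_add_apply (F G : ℤ[X]) (a : A) : ev s (F + G) a = ev s F a + ev s G a := by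
  simp only [ev, map_add]
  rfl

lemma ev_natCast_apply (n : ℕ) (a : A) : ev s (n : ℤ[X]) a = n • a := by
  simp only [ev, map_natCast]
  exact AddMonoid.End.natCast_apply n a

/-- the norm -/
noncomputable def nrm : AddMonoid.End A := ∑ i ∈ Finset.range p, s ^ i

lemma ev_cyclotomic [hp : Fact p.Prime] : ev s (cyclotomic p ℤ) = nrm p s := by
  simp [ev, nrm, cyclotomic_prime]

lemma prod_one_sub_eq [hp : Fact p.Prime] :
    ∃ Q : ℤ[X], ∏ i ∈ Finset.range (p - 1), (1 - (X : ℤ[X]) ^ (i + 1)) =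
      (p : ℤ[X]) + Q * cyclotomic p ℤ := by
  have hp1 := hp.out.one_lt
  have hp0 := hp.out.pos
  obtain ⟨ζ, hζ⟩ : ∃ ζ : ℂ, IsPrimitiveRoot ζ p :=
    ⟨_, Complex.isPrimitiveRoot_exp p hp.out.ne_zero⟩
  have key : aeval ζ (∏ i ∈ Finset.range (p - 1), (1 - (X : ℤ[X]) ^ (i + 1)) - (p : ℤ[X])) = 0 := by
    have h1 : (∏ i ∈ Finset.range (p - 1), (1 - ζ ^ (i + 1))) = (p : ℂ) := by
      have h2 : p - 1 + 1 = p := Nat.sub_add_cancel hp1.le
      have := IsPrimitiveRoot.prod_one_sub_pow_eq_order (n := p - 1) (μ := ζ) (by rw [h2]; exact hζ)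
      rw [this]
      exact_mod_cast congrArg (Nat.cast : ℕ → ℂ) h2
    simp [h1]
  have hdvd : cyclotomic p ℤ ∣
      ∏ i ∈ Finset.range (p - 1), (1 - (X : ℤ[X]) ^ (i + 1)) - (p : ℤ[X]) := by
    rw [cyclotomic_eq_minpoly hζ hp0]
    exact minpoly.isIntegrallyClosed_dvd (hζ.isIntegral hp0) key
  obtain ⟨Q, hQ⟩ := hdvd
  exact ⟨Q, by rw [mul_comm Q, ← hQ]; ring⟩

/-- On the kernel of the norm, `∏ (1 - σ^i) = p`. -/
lemma ev_prod_apply [hp : Fact p.Prime] (a : A) (ha : nrm p s a = 0) :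
    ev s (∏ i ∈ Finset.range (p - 1), (1 - (X : ℤ[X]) ^ (i + 1))) a = p • a := by
  obtain ⟨Q, hQ⟩ := prod_one_sub_eq p
  rw [hQ, ev_add_apply, ev_natCast_apply, ev_mul, ev_cyclotomic]
  change p • a + ev s Q (nrm p s a) = p • a
  rw [ha, map_zero, add_zero]

lemma ev_comm_apply (F G : ℤ[X]) (a : A) : ev s F (ev s G a) = ev s G (ev s F a) := by
  change (ev s F * ev s G) a = (ev s G * ev s F) a
  rw [← ev_mul, ← ev_mul, mul_comm]

lemma ev_mul_apply (F G : ℤ[X]) (a : A) : ev s (F * G) a = ev s F (ev s G a) := by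
  rw [ev_mul]; rfl

/-- subgroup stable under the action -/
def Stable (B : AddSubgroup A) : Prop := ∀ F : ℤ[X], ∀ b ∈ B, ev s F b ∈ B

lemma Stable.map_le {B : AddSubgroup A} (hB : Stable s B) (F : ℤ[X]) :
    B.map (ev s F : A →+ A) ≤ B := by
  rintro _ ⟨b, hb, rfl⟩
  exact hB F b hb

lemma stable_ker (F : ℤ[X]) : Stable s (AddMonoidHom.ker (ev s F : A →+ A)) := by
  intro G b hb
  change ev s F (ev s G b) = 0
  rw [ev_comm_apply]
  have : ev s F b = 0 := hb
  rw [this, map_zero]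

variable {s}

lemma map_one_sub_pow {p : ℕ} [hp : Fact p.Prime] (hs : s ^ p = 1) {B : AddSubgroup A}
    (hB : Stable s B) {i : ℕ} (hi : ¬ p ∣ i) :
    B.map (ev s (1 - X ^ i) : A →+ A) = B.map (ev s (1 - X) : A →+ A) := by
  apply le_antisymm
  · rintro _ ⟨b, hb, rfl⟩
    obtain ⟨G, hG⟩ : (1 - X : ℤ[X]) ∣ 1 - X ^ i := by
      simpa using sub_dvd_pow_sub_pow (1 : ℤ[X]) X i
    refine ⟨ev s G b, hB G b hb, ?_⟩
    change ev s (1 - X) (ev s G b) = ev s (1 - X ^ i) b
    rw [hG, ev_mul_apply]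
  · rintro _ ⟨b, hb, rfl⟩
    obtain ⟨j, hj⟩ : ∃ j : ℕ, i * j ≡ 1 [MOD p] := by
      have hcop : Nat.Coprime i p := ((Nat.Prime.coprime_iff_not_dvd hp.out).mpr hi).symm
      obtain ⟨j, hj⟩ := Nat.exists_mul_mod_eq_one_of_coprime hcop hp.out.one_lt
      exact ⟨j, by rw [Nat.ModEq, hj.2, Nat.mod_eq_of_lt hp.out.one_lt]⟩
    obtain ⟨G, hG⟩ : (1 - X ^ i : ℤ[X]) ∣ 1 - X ^ (i * j) := by
      have := sub_dvd_pow_sub_pow (1 : ℤ[X]) (X ^ i) j
      simpa [pow_mul] using this
    have hsij : s ^ (i * j) = s := by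
      have h1 : s ^ (i * j) = s ^ ((i * j) % p) := by
        conv_lhs => rw [← Nat.div_add_mod (i * j) p, pow_add, pow_mul, hs, one_pow, one_mul]
      rw [h1, hj, Nat.mod_eq_of_lt hp.out.one_lt, pow_one]
    refine ⟨ev s G b, hB G b hb, ?_⟩
    change ev s (1 - X ^ i) (ev s G b) = ev s (1 - X) b
    rw [← ev_mul_apply, ← hG]
    simp [ev, hsij]

lemma ker_one_sub_pow {p : ℕ} [hp : Fact p.Prime] (hs : s ^ p = 1) {i : ℕ} (hi : ¬ p ∣ i) :
    AddMonoidHom.ker (ev s (1 - X ^ i) : A →+ A) = AddMonoidHom.ker (ev s (1 - X) : A →+ A) := by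
  apply le_antisymm
  · intro b hb
    obtain ⟨j, hj⟩ : ∃ j : ℕ, i * j ≡ 1 [MOD p] := by
      have hcop : Nat.Coprime i p := ((Nat.Prime.coprime_iff_not_dvd hp.out).mpr hi).symm
      obtain ⟨j, hj⟩ := Nat.exists_mul_mod_eq_one_of_coprime hcop hp.out.one_lt
      exact ⟨j, by rw [Nat.ModEq, hj.2, Nat.mod_eq_of_lt hp.out.one_lt]⟩
    obtain ⟨G, hG⟩ : (1 - X ^ i : ℤ[X]) ∣ 1 - X ^ (i * j) := by
      have := sub_dvd_pow_sub_pow (1 : ℤ[X]) (X ^ i) j
      simpa [pow_mul] using this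
    have hsij : s ^ (i * j) = s := by
      have h1 : s ^ (i * j) = s ^ ((i * j) % p) := by
        conv_lhs => rw [← Nat.div_add_mod (i * j) p, pow_add, pow_mul, hs, one_pow, one_mul]
      rw [h1, hj, Nat.mod_eq_of_lt hp.out.one_lt, pow_one]
    have h2 : ev s (1 - X ^ (i * j)) b = ev s (1 - X) b := by simp [ev, hsij]
    have h3 : ev s (1 - X ^ i) b = 0 := hb
    change ev s (1 - X) b = 0
    rw [← h2, hG, mul_comm, ev_mul_apply, h3, map_zero]
  · intro b hb
    obtain ⟨G, hG⟩ : (1 - X : ℤ[X]) ∣ 1 - X ^ i := by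
      simpa using sub_dvd_pow_sub_pow (1 : ℤ[X]) X i
    have h3 : ev s (1 - X) b = 0 := hb
    change ev s (1 - X ^ i) b = 0
    rw [hG, mul_comm, ev_mul_apply, h3, map_zero]

lemma herbrand_prod {p : ℕ} [hp : Fact p.Prime] (hs : s ^ p = 1) {B : AddSubgroup A}
    (hB : Stable s B) (hD : kc (ev s (1 - X) : A →+ A) B ≠ 0) (n : ℕ) (hn : n < p) :
    kc (ev s (∏ i ∈ Finset.range n, (1 - (X : ℤ[X]) ^ (i + 1))) : A →+ A) B ≠ 0 ∧
    cc (ev s (∏ i ∈ Finset.range n, (1 - (X : ℤ[X]) ^ (i + 1))) : A →+ A) B *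
        kc (ev s (1 - X) : A →+ A) B ^ n =
      cc (ev s (1 - X) : A →+ A) B ^ n *
        kc (ev s (∏ i ∈ Finset.range n, (1 - (X : ℤ[X]) ^ (i + 1))) : A →+ A) B := by
  induction n with
  | zero =>
    have h1 : (ev s (∏ i ∈ Finset.range 0, (1 - (X : ℤ[X]) ^ (i + 1))) : A →+ A) =
        AddMonoidHom.id A := by
      simp only [Finset.range_zero, Finset.prod_empty, ev, map_one]
      rfl
    rw [h1]
    have h2 : kc (AddMonoidHom.id A) B = 1 := by
      unfold kc
      have : (AddMonoidHom.id A).ker = ⊥ := by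
        ext x; simp
      rw [this, bot_inf_eq]
      simp
    have h3 : cc (AddMonoidHom.id A) B = 1 := by
      unfold cc
      rw [AddSubgroup.map_id, AddSubgroup.relIndex_self]
    rw [h2, h3]
    simp
  | succ n ih =>
    obtain ⟨ih1, ih2⟩ := ih (by omega)
    have hnp : ¬ p ∣ (n + 1) := fun h => by
      have := Nat.le_of_dvd (by omega) h
      omega
    set g := (ev s (∏ i ∈ Finset.range n, (1 - (X : ℤ[X]) ^ (i + 1))) : A →+ A) with hg
    set f := (ev s (1 - (X : ℤ[X]) ^ (n + 1)) : A →+ A) with hf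
    set d := (ev s (1 - X) : A →+ A) with hd
    have hfg : (ev s (∏ i ∈ Finset.range (n + 1), (1 - (X : ℤ[X]) ^ (i + 1))) : A →+ A) =
        f.comp g := by
      rw [Finset.prod_range_succ, mul_comm, ev_mul]
      rfl
    have hcf : cc f B = cc d B := by
      unfold cc
      rw [hf, map_one_sub_pow hs hB hnp]
    have hkf : kc f B = kc d B := by
      unfold kc
      rw [hf, ker_one_sub_pow hs hnp]
    rw [hfg]
    have h1 := herbrand_comp f g B (hB.map_le s _) (hB.map_le s _)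
    refine ⟨kc_comp_ne_zero f g B (hB.map_le s _) (by rw [hkf]; exact hD) ih1, ?_⟩
    apply mul_right_cancel₀ ih1
    rw [hcf, hkf] at h1
    calc cc (f.comp g) B * kc d B ^ (n + 1) * kc g B
        = (cc (f.comp g) B * (kc d B * kc g B)) * kc d B ^ n := by ring
      _ = (cc d B * cc g B * kc (f.comp g) B) * kc d B ^ n := by rw [h1]
      _ = (cc g B * kc d B ^ n) * cc d B * kc (f.comp g) B := by ring
      _ = (cc d B ^ n * kc g B) * cc d B * kc (f.comp g) B := by rw [ih2]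
      _ = cc d B ^ (n + 1) * kc (f.comp g) B * kc g B := by ring

variable (s)

/-- multiplication by `p`. -/
noncomputable def pmul (A : Type*) [AddCommGroup A] (p : ℕ) : A →+ A := p • AddMonoidHom.id A

@[simp] lemma pmul_apply (p : ℕ) (a : A) : pmul A p a = p • a := rfl

/-- **Tate's lemma**: relation between the Herbrand quotient of a cyclic group of prime order `p`
and the Herbrand quotients of multiplication by `p`. -/
theorem tate_phi [hp : Fact p.Prime] (hs : s ^ p = 1)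
    (hk : kc (pmul A p) ⊤ ≠ 0)
    (hc : cc (pmul A p) (AddMonoidHom.ker (ev s (1 - X) : A →+ A)) ≠ 0) :
    cc (pmul A p) ⊤ * kc (pmul A p) (AddMonoidHom.ker (ev s (1 - X) : A →+ A)) ^ p *
        ((AddMonoidHom.range (nrm p s : A →+ A)).relIndex
          (AddMonoidHom.ker (ev s (1 - X) : A →+ A))) ^ (p - 1) =
      kc (pmul A p) ⊤ * cc (pmul A p) (AddMonoidHom.ker (ev s (1 - X) : A →+ A)) ^ p *
        ((AddMonoidHom.range (ev s (1 - X) : A →+ A)).relIndex
          (AddMonoidHom.ker (nrm p s : A →+ A))) ^ (p - 1) := by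
  set P := pmul A p with hP
  set d := (ev s (1 - X) : A →+ A) with hd
  set N := (nrm p s : A →+ A) with hN
  set AG := d.ker with hAG
  set AN := N.ker with hAN
  have hPle : ∀ B : AddSubgroup A, B.map P ≤ B := by
    rintro B _ ⟨b, hb, rfl⟩
    exact B.nsmul_mem hb p
  have hNev : N = (ev s (cyclotomic p ℤ) : A →+ A) := by rw [hN, ev_cyclotomic]
  have hANst : Stable s AN := by
    rw [hAN, hNev]; exact stable_ker s _
  have hgeom : ∀ n : ℕ, ∀ a ∈ AG, (s ^ n) a = a := by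
    intro n a ha
    have h1 : ev s (1 - X) a = 0 := ha
    have h2 : s a = a := by
      have h3 : ev s (1 - X) = 1 - s := by simp [ev]
      have : a - s a = 0 := by
        rw [h3] at h1
        exact h1
      exact (sub_eq_zero.mp this).symm
    induction n with
    | zero => rfl
    | succ n ih => 
      rw [pow_succ]
      change (s ^ n) (s a) = a
      rw [h2, ih]
  have hNAG : ∀ a ∈ AG, N a = p • a := by
    intro a ha
    change (∑ i ∈ Finset.range p, s ^ i : AddMonoid.End A) a = p • a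
    have h1 : (∑ i ∈ Finset.range p, s ^ i : AddMonoid.End A) a =
        ∑ i ∈ Finset.range p, (s ^ i) a :=
      map_sum (AddMonoidHom.eval a : (A →+ A) →+ A) (fun i => (s ^ i : AddMonoid.End A)) _
    rw [h1, Finset.sum_congr rfl (fun i _ => hgeom i a ha), Finset.sum_const, Finset.card_range]
  -- (1)
  have e1 := herbrand_exact P P N (fun a => by simp [hP]) ⊤ (hPle _)
  rw [top_inf_eq, ← AddMonoidHom.range_eq_map] at e1
  -- norms are invariant
  have hNR : N.range ≤ AG := by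
    rintro _ ⟨a, rfl⟩
    change ev s (1 - X) (N a) = 0
    rw [hNev, ← ev_mul_apply, cyclotomic_prime]
    have h2 : (1 - X : ℤ[X]) * ∑ i ∈ Finset.range p, X ^ i = 1 - X ^ p := mul_neg_geom_sum X p
    rw [h2]
    simp [ev, hs]
  have hDR : d.range ≤ AN := by
    rintro _ ⟨a, rfl⟩
    change N (ev s (1 - X) a) = 0
    rw [hNev, ← ev_mul_apply, cyclotomic_prime]
    have h2 : (∑ i ∈ Finset.range p, (X : ℤ[X]) ^ i) * (1 - X) = 1 - X ^ p := by
      rw [mul_comm]; exact mul_neg_geom_sum X p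
    rw [h2]
    simp [ev, hs]
  have hPAG : AG.map P = AG.map N := by
    ext x
    constructor
    · rintro ⟨y, hy, rfl⟩
      exact ⟨y, hy, hNAG y hy⟩
    · rintro ⟨y, hy, rfl⟩
      exact ⟨y, hy, (hNAG y hy).symm⟩
  have hPN : AG.map P ≤ N.range := by
    rw [hPAG]
    rintro _ ⟨y, _, rfl⟩
    exact ⟨y, rfl⟩
  have hH0 : N.range.relIndex AG ≠ 0 := by
    intro h0
    apply hc
    unfold cc
    rw [← AddSubgroup.relIndex_mul_relIndex (AG.map P) N.range AG hPN hNR, h0, mul_zero]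
  -- (2)
  have e2 := herbrand_finite_index P N.range AG hNR (hPle _) (hPle _) hH0
  -- (4)
  have e4 : kc d AN = kc P AG := by
    unfold kc
    congr 2
    ext a
    constructor
    · rintro ⟨h1, h2⟩
      refine ⟨?_, h1⟩
      change p • a = 0
      rw [← hNAG a h1]
      exact h2
    · rintro ⟨h1, h2⟩
      refine ⟨h2, ?_⟩
      change N a = 0
      rw [hNAG a h2]
      exact h1
  have hkAG : kc P AG ≠ 0 := kc_ne_zero_of_le P le_top hk
  have hkAN : kc P AN ≠ 0 := kc_ne_zero_of_le P le_top hk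
  have hkNR : kc P N.range ≠ 0 := kc_ne_zero_of_le P le_top hk
  -- (3)
  have e3 := (herbrand_prod hs hANst (by rw [← hd, e4]; exact hkAG) (p - 1)
    (Nat.sub_lt hp.out.pos one_pos)).2
  have hPprod : ∀ a ∈ AN, ev s (∏ i ∈ Finset.range (p - 1), (1 - (X : ℤ[X]) ^ (i + 1))) a = P a :=
    fun a ha => ev_prod_apply p s a ha
  rw [cc_congr hPprod, kc_congr hPprod, ← hd, e4] at e3
  -- (5)
  have e5 : cc d AN * N.range.relIndex AG = cc P AG * d.range.relIndex AN := by
    have h1 : cc d AN = (AN ⊔ AG).relIndex ⊤ * d.range.relIndex AN := by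
      unfold cc
      have h2 : AN.map d ≤ d.range := by
        rintro _ ⟨y, _, rfl⟩
        exact ⟨y, rfl⟩
      rw [← AddSubgroup.relIndex_mul_relIndex (AN.map d) d.range AN h2 hDR,
        AddMonoidHom.range_eq_map d, relIndex_map_map' d (le_top : AN ≤ ⊤)]
    have h3 : cc P AG = (AG ⊔ AN).relIndex ⊤ * N.range.relIndex AG := by
      unfold cc
      rw [← AddSubgroup.relIndex_mul_relIndex (AG.map P) N.range AG hPN hNR, hPAG,
        AddMonoidHom.range_eq_map N, relIndex_map_map' N (le_top : AG ≤ ⊤)]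
    rw [h1, h3, sup_comm]
    ring
  have hkk : kc P AN * kc P N.range ≠ 0 := mul_ne_zero hkAN hkNR
  obtain ⟨q, hq⟩ : ∃ q, p = q + 1 := ⟨p - 1, (Nat.sub_add_cancel hp.out.pos).symm⟩
  have hq1 : p - 1 = q := by omega
  rw [hq1] at e3 ⊢
  apply mul_right_cancel₀ hkk
  have hpw : ∀ x : ℕ, x ^ p = x ^ q * x := fun x => by rw [hq, pow_succ]
  rw [hpw, hpw]
  calc cc P ⊤ * (kc P AG ^ q * kc P AG) * N.range.relIndex AG ^ q * (kc P AN * kc P N.range)
      = (cc P ⊤ * (kc P AN * kc P N.range)) * (kc P AG ^ q * kc P AG) *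
          N.range.relIndex AG ^ q := by ring
    _ = (cc P AN * cc P N.range * kc P ⊤) * (kc P AG ^ q * kc P AG) *
          N.range.relIndex AG ^ q := by rw [e1]
    _ = (cc P AN * kc P AG ^ q) * (cc P N.range * kc P AG) * kc P ⊤ *
          N.range.relIndex AG ^ q := by ring
    _ = (cc d AN ^ q * kc P AN) * (cc P AG * kc P N.range) * kc P ⊤ *
          N.range.relIndex AG ^ q := by rw [e3, e2]
    _ = (cc d AN * N.range.relIndex AG) ^ q * kc P AN * (cc P AG * kc P N.range) * kc P ⊤ := by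
          rw [mul_pow]; ring
    _ = (cc P AG * d.range.relIndex AN) ^ q * kc P AN * (cc P AG * kc P N.range) * kc P ⊤ := by
          rw [e5]
    _ = kc P ⊤ * (cc P AG ^ q * cc P AG) * d.range.relIndex AN ^ q *
          (kc P AN * kc P N.range) := by rw [mul_pow]; ring

end cyclic

end Fermat.Agent.PTLocal
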