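import Fermat.Agent.PTLocal.Unram

/-!
# Purely algebraic versions (finite extensions of `ℚ_q` without norms)
-/

set_option autoImplicit false

namespace Fermat.Agent.PTLocal

open AddSubgroup

variable (q : ℕ) [hq : Fact q.Prime]
variable (K : Type) [Field K] [Algebra ℚ_[q] K] [FiniteDimensional ℚ_[q] K]

/-- the exponent `[K : ℚ_q]` if `p = q` and `0` otherwise -/
noncomputable def dexpA (p : ℕ) : ℕ := if p = q then Module.finrank ℚ_[q] K else 0

/-- `[Kˣ : Kˣ^p] = p · p^[K:ℚ_p] · #μ_p(K)`. -/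
theorem cc_top_alg (p : ℕ) [hp : Fact p.Prime] :
    cc (pmul (Additive Kˣ) p) ⊤ = p * p ^ dexpA q K p * kc (pmul (Additive Kˣ) p) ⊤ := by
  let := spectralNorm.nontriviallyNormedField ℚ_[q] K
  let := spectralNorm.normedAlgebra ℚ_[q] K
  have : IsUltrametricDist K := IsUltrametricDist.of_normedAlgebra ℚ_[q]
  exact cc_top_eq q K p

lemma index_pow_eq_cc (K : Type*) [Field K] (p : ℕ) :
    (powMonoidHom p : Kˣ →* Kˣ).range.index = cc (pmul (Additive Kˣ) p) ⊤ := by
  unfold cc
  rw [AddSubgroup.relIndex_top_right, ← Subgroup.index_toAddSubgroup]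
  congr 1
  ext x
  constructor
  · rintro ⟨y, hy⟩
    exact ⟨Additive.ofMul y, trivial, hy⟩
  · rintro ⟨y, _, hy⟩
    exact ⟨Additive.toMul y, hy⟩

/-- `[Kˣ : Kˣ^p] = p^(2+[K:ℚ_p])` (resp. `p^2` if `p ≠ q`) if `K` contains the `p`-th roots
of unity. -/
theorem index_pow_alg (p : ℕ) [hp : Fact p.Prime] {ζ : K} (hζ : IsPrimitiveRoot ζ p) :
    (powMonoidHom p : Kˣ →* Kˣ).range.index = p ^ (2 + dexpA q K p) := by
  have h := cc_top_alg q K p
  have : NeZero p := ⟨hp.out.ne_zero⟩
  rw [kc_top_eq, hζ.card_rootsOfUnity] at h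
  rw [index_pow_eq_cc, h, pow_add, pow_two]
  ring

variable (L : Type) [Field L] [Algebra K L] [FiniteDimensional K L] [IsGalois K L]

include q in
/-- **Local norm index**, algebraic version. -/
theorem norm_index_alg (p : ℕ) [hp : Fact p.Prime] (hdeg : Module.finrank K L = p) :
    (normU K L).range.index = p := by
  let algL : Algebra ℚ_[q] L := ((algebraMap K L).comp (algebraMap ℚ_[q] K)).toAlgebra
  have : IsScalarTower ℚ_[q] K L := IsScalarTower.of_algebraMap_eq (fun _ => rfl)
  have : FiniteDimensional ℚ_[q] L := FiniteDimensional.trans ℚ_[q] K L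
  let := spectralNorm.nontriviallyNormedField ℚ_[q] K
  let := spectralNorm.normedAlgebra ℚ_[q] K
  have : IsUltrametricDist K := IsUltrametricDist.of_normedAlgebra ℚ_[q]
  let := spectralNorm.nontriviallyNormedField ℚ_[q] L
  let := spectralNorm.normedAlgebra ℚ_[q] L
  have : IsUltrametricDist L := IsUltrametricDist.of_normedAlgebra ℚ_[q]
  exact local_norm_index q K L p hdeg

end Fermat.Agent.PTLocal
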