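import Fermat.Agent.PT.ShapiroAll
import Fermat.Agent.PT.Cup

/-!
# The cyclic lemma

For a level-constant character `χ : G → ℤ/p` and the `G`-set `X' = ℤ/p`, the two short exact
sequences `0 → A → Map(X', A) → I → 0` and `0 → I → Map(X', A) → A → 0`.
-/

set_option autoImplicit false

namespace Fermat.Agent.PTLocal

open Fermat.Agent.PT

section Wr

variable {p : ℕ} [NeZero p]

/-- wrap indicator -/
def wr (x a : ZMod p) : ℤ := if x.val < a.val then 1 else 0

/-- carry -/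
def carry (a c : ZMod p) : ℤ := if p ≤ a.val + c.val then 1 else 0

lemma val_sub_cases (x a : ZMod p) :
    ((x - a).val : ℤ) = x.val - a.val + p * wr x a := by
  have h1 : ((x - a).val + a.val) % p = x.val := by
    rw [← ZMod.val_add, sub_add_cancel]
  have h2 := ZMod.val_lt (x - a)
  have h3 := ZMod.val_lt a
  have h4 := ZMod.val_lt x
  unfold wr
  by_cases h : (x - a).val + a.val < p
  · rw [Nat.mod_eq_of_lt h] at h1
    rw [if_neg (by omega)]
    omega
  · have h5 : ((x - a).val + a.val) % p = (x - a).val + a.val - p := by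
      rw [Nat.mod_eq_sub_mod (by omega), Nat.mod_eq_of_lt (by omega)]
    rw [h5] at h1
    rw [if_pos (by omega)]
    omega

lemma val_add_cases (a c : ZMod p) :
    ((a + c).val : ℤ) = a.val + c.val - p * carry a c := by
  have h1 := ZMod.val_add a c
  have h3 := ZMod.val_lt a
  have h4 := ZMod.val_lt c
  unfold carry
  by_cases h : a.val + c.val < p
  · rw [Nat.mod_eq_of_lt h] at h1
    rw [if_neg (by omega)]
    omega
  · have h5 : (a.val + c.val) % p = a.val + c.val - p := by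
      rw [Nat.mod_eq_sub_mod (by omega), Nat.mod_eq_of_lt (by omega)]
    rw [h5] at h1
    rw [if_pos (by omega)]
    omega

lemma wr_identity (x a c : ZMod p) :
    wr (x - a) c - wr x (a + c) + wr x a = carry a c := by
  have h1 := val_sub_cases (x - a) c
  have h2 := val_sub_cases x a
  have h3 := val_sub_cases x (a + c)
  have h4 := val_add_cases a c
  have h5 : x - a - c = x - (a + c) := by abel
  rw [h5] at h1
  have hp : (p : ℤ) ≠ 0 := by exact_mod_cast NeZero.ne p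
  apply mul_left_cancel₀ hp
  linear_combination h3 - h4 - h1 - h2

lemma wr_sub_one (hp : 1 < p) (x a : ZMod p) :
    wr (x - 1) a - wr x a = (if x = a then 1 else 0) - (if x = 0 then 1 else 0) := by
  have hone : (1 : ZMod p).val = 1 := by
    have : Fact (1 < p) := ⟨hp⟩
    exact ZMod.val_one p
  have h2 := val_sub_cases x 1
  unfold wr at h2
  rw [hone] at h2
  have h4 := ZMod.val_lt x
  have h5 := ZMod.val_lt (x - 1)
  have h6 := ZMod.val_lt a
  have e1 : x = a ↔ x.val = a.val := ⟨fun h => by rw [h], fun h => ZMod.val_injective p h⟩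
  have e2 : x = 0 ↔ x.val = 0 := by
    rw [← ZMod.val_eq_zero]
  simp only [e1, e2]
  unfold wr
  split_ifs at h2 ⊢ <;> omega

end Wr

section Cyc

variable {p : ℕ} [hp : Fact p.Prime] {G : Type*} [Group G] {L : Levels G} {A : Type*}
  [AddCommGroup A]

/-- level-constant characters -/
abbrev Chi (p : ℕ) (L : Levels G) := Z1 L (trivAct G (ZMod p))

lemma chi_mul (χ : Chi p L) (g h : G) :
    (χ : G → ZMod p) (g * h) = (χ : G → ZMod p) g + (χ : G → ZMod p) h :=
  (mem_Z1'.1 χ.2).2 g h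

lemma chi_one (χ : Chi p L) : (χ : G → ZMod p) 1 = 0 := by
  have := chi_mul χ 1 1
  rw [mul_one] at this
  exact left_eq_add.mp this

lemma chi_inv (χ : Chi p L) (g : G) : (χ : G → ZMod p) g⁻¹ = - (χ : G → ZMod p) g := by
  have := chi_mul χ g⁻¹ g
  rw [inv_mul_cancel, chi_one] at this
  exact (neg_eq_of_add_eq_zero_left this.symm).symm

/-- the translation action of `G` on `ℤ/p` through `χ` -/
def xi (χ : Chi p L) : G →* Equiv.Perm (ZMod p) where
  toFun g := Equiv.addRight ((χ : G → ZMod p) g)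
  map_one' := by ext x; simp [chi_one]
  map_mul' g h := by
    apply Equiv.ext
    intro x
    show x + (χ : G → ZMod p) (g * h) = x + (χ : G → ZMod p) h + (χ : G → ZMod p) g
    rw [chi_mul]; ring

lemma xi_apply (χ : Chi p L) (g : G) (x : ZMod p) : xi χ g x = x + (χ : G → ZMod p) g := rfl

lemma xi_inv_apply (χ : Chi p L) (g : G) (x : ZMod p) :
    xi χ g⁻¹ x = x - (χ : G → ZMod p) g := by
  rw [xi_apply, chi_inv, sub_eq_add_neg]

lemma levelTrivial_xi (χ : Chi p L) : LevelTrivial L (xi χ) := by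
  obtain ⟨N, hN, h⟩ := χ.2.1
  refine ⟨N, hN, fun s hs x => ?_⟩
  have := h 1 s hs
  rw [one_mul, chi_one] at this
  rw [xi_apply]
  change x + (χ : G → ZMod p) s = x
  rw [this, add_zero]

/-- the kernel of `χ` as a stabiliser -/
lemma mem_stab_xi (χ : Chi p L) {g : G} : g ∈ stab (xi χ) 0 ↔ (χ : G → ZMod p) g = 0 := by
  rw [mem_stab, xi_apply, zero_add]

lemma chi_surjective {χ : Chi p L} (hχ : χ ≠ 0) (x : ZMod p) :
    ∃ g, (χ : G → ZMod p) g = x := by
  obtain ⟨g, hg⟩ : ∃ g, (χ : G → ZMod p) g ≠ 0 := by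
    by_contra hcon
    push Not at hcon
    exact hχ (Subtype.ext (funext hcon))
  have hpow : ∀ n : ℕ, (χ : G → ZMod p) (g ^ n) = n * (χ : G → ZMod p) g := by
    intro n
    induction n with
    | zero => simp [chi_one]
    | succ n ih => rw [pow_succ, chi_mul, ih]; push_cast; ring
  refine ⟨g ^ (x / (χ : G → ZMod p) g).val, ?_⟩
  rw [hpow, ZMod.natCast_val, ZMod.cast_id', id]
  field_simp

lemma isTrans_xi {χ : Chi p L} (hχ : χ ≠ 0) : IsTrans (xi χ) 0 := by
  intro x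
  obtain ⟨g, hg⟩ := chi_surjective hχ x
  exact ⟨g, by rw [xi_apply, hg, zero_add]⟩

variable (ρ : Act G A)

/-- the difference operator -/
def Dop (χ : Chi p L) : EHom (mapAct (xi χ) ρ) (mapAct (xi χ) ρ) where
  f :=
    { toFun := fun f x => f x - f (x - 1)
      map_zero' := by ext x; simp
      map_add' := fun f f' => by ext x; simp only [Pi.add_apply]; abel }
  comm g f := by
    ext x
    show ρ g (f (xi χ g⁻¹ x)) - ρ g (f (xi χ g⁻¹ (x - 1))) =
      ρ g (f (xi χ g⁻¹ x) - f (xi χ g⁻¹ x - 1))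
    rw [map_sub (ρ g) (f (xi χ g⁻¹ x)) (f (xi χ g⁻¹ x - 1)), xi_inv_apply, xi_inv_apply,
      sub_right_comm]

lemma Dop_f (χ : Chi p L) (f : ZMod p → A) (x : ZMod p) :
    (Dop ρ χ).f f x = f x - f (x - 1) := rfl

lemma sum_Dop (χ : Chi p L) (f : ZMod p → A) : ∑ x, (Dop ρ χ).f f x = 0 := by
  simp only [Dop_f, Finset.sum_sub_distrib]
  rw [sub_eq_zero]
  exact (Fintype.sum_equiv (Equiv.subRight 1) _ _ (fun x => rfl)).symm

/-- sums of values -/
lemma sum_val_eq (f : ZMod p → A) (n : ℕ) (hn' : n + 1 = p) :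
    ∑ i ∈ Finset.range (n + 1), f (i : ZMod p) = ∑ x, f x := by
  rw [hn']
  symm
  refine Finset.sum_bij (fun x _ => x.val) (fun x _ => Finset.mem_range.2 (ZMod.val_lt x))
    (fun x _ y _ h => ZMod.val_injective p h) (fun i hi => ⟨(i : ZMod p), Finset.mem_univ _,
      ZMod.val_natCast_of_lt (Finset.mem_range.1 hi)⟩) (fun x _ => ?_)
  rw [ZMod.natCast_val, ZMod.cast_id', id]

lemma Dop_surj (χ : Chi p L) (f : ZMod p → A) (hf : ∑ x, f x = 0) :
    ∃ F, (Dop ρ χ).f F = f := by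
  refine ⟨fun x => ∑ i ∈ Finset.range (x.val + 1), f (i : ZMod p), ?_⟩
  ext x
  rw [Dop_f]
  have h1 := val_sub_cases x 1
  have hone : (1 : ZMod p).val = 1 := by
    have : Fact (1 < p) := ⟨hp.out.one_lt⟩
    exact ZMod.val_one p
  unfold wr at h1
  rw [hone] at h1
  have h4 := ZMod.val_lt x
  have hx : ((x.val : ℕ) : ZMod p) = x := by rw [ZMod.natCast_val, ZMod.cast_id', id]
  by_cases h : x.val < 1
  · rw [if_pos h] at h1
    have h2 : (x - 1).val + 1 = p := by omega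
    rw [sum_val_eq f _ h2, hf, sub_zero]
    have h3 : x.val = 0 := by omega
    rw [h3] at hx ⊢
    rw [zero_add, Finset.sum_range_one, hx]
  · rw [if_neg h] at h1
    have h2 : (x - 1).val + 1 = x.val := by omega
    rw [h2, Finset.sum_range_succ, hx]
    abel

lemma Dop_ker (χ : Chi p L) (f : ZMod p → A) (hf : (Dop ρ χ).f f = 0) (x : ZMod p) :
    f x = f 0 := by
  have h1 : ∀ n : ℕ, f (n : ZMod p) = f 0 := by
    intro n
    induction n with
    | zero => simp
    | succ n ih =>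
      have h2 := congrFun hf ((n + 1 : ℕ) : ZMod p)
      rw [Dop_f, Pi.zero_apply, sub_eq_zero] at h2
      rw [h2]
      push_cast
      rw [add_sub_cancel_right, ih]
  have h2 := h1 x.val
  rwa [ZMod.natCast_val, ZMod.cast_id', id] at h2

/-- first cyclic sequence `0 → A → Map → I → 0` -/
def cycS1 (χ : Chi p L) : SES ρ (mapAct (xi χ) ρ) (kerAct (sumHom (xi χ) ρ)) where
  i := constHom (xi χ) ρ
  p :=
    { f := (Dop ρ χ).f.codRestrict _ (fun f => sum_Dop ρ χ f)
      comm := fun g f => Subtype.ext ((Dop ρ χ).comm g f) }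
  inj a b h := congrFun h 0
  surj f := by
    obtain ⟨F, hF⟩ := Dop_surj ρ χ f f.2
    exact ⟨F, Subtype.ext hF⟩
  exact f := by
    constructor
    · intro h
      refine ⟨f 0, ?_⟩
      ext x
      exact (Dop_ker ρ χ f (congrArg Subtype.val h) x).symm
    · rintro ⟨a, rfl⟩
      apply Subtype.ext
      ext x
      show a - a = 0
      rw [sub_self]

/-- second cyclic sequence `0 → I → Map → A → 0` -/
def cycS2 (χ : Chi p L) : SES (kerAct (sumHom (xi χ) ρ)) (mapAct (xi χ) ρ) ρ :=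
  SES.ofSurj (sumHom (xi χ) ρ) (fun a => ⟨Pi.single 0 a, by simp⟩)

variable {ρ}

/-- the composite `δ¹ ∘ δ⁰` -/
noncomputable def cycδ (hρ : Smooth L ρ) (χ : Chi p L) : H0 ρ →+ H2 L ρ :=
  ((cycS1 ρ χ).δ1 (hρ.mapAct (levelTrivial_xi χ))).comp
    ((cycS2 ρ χ).δ0 (hρ.mapAct (levelTrivial_xi χ)))

/-- explicit 2-cocycle -/
lemma carry_mem (χ : Chi p L) (b : H0 ρ) :
    (fun g h => -(carry ((χ : G → ZMod p) g) ((χ : G → ZMod p) h) • (b : A))) ∈ Z2 L ρ := by
  rw [mem_Z2']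
  refine ⟨(IsLC₁.fst χ.2.1).comp₂ (IsLC₁.snd χ.2.1) (fun x y => -(carry x y • (b : A))), ?_⟩
  intro g h j
  simp only [map_neg, map_zsmul, mem_H0.1 b.2, chi_mul]
  have h1 := wr_identity (p := p) 0 0 0
  have key : ∀ a c e : ZMod p, carry (a + c) e + carry a c = carry c e + carry a (c + e) := by
    intro a c e
    have h1 := val_add_cases a c
    have h2 := val_add_cases (a + c) e
    have h3 := val_add_cases c e
    have h4 := val_add_cases a (c + e)
    rw [add_assoc] at h2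
    have hp' : (p : ℤ) ≠ 0 := by exact_mod_cast hp.out.ne_zero
    apply mul_left_cancel₀ hp'
    linear_combination h1 + h2 - h3 - h4
  rw [← neg_add, ← neg_add, ← add_smul, ← add_smul, key]

lemma cycδ_apply (hρ : Smooth L ρ) (χ : Chi p L) (b : H0 ρ) :
    cycδ hρ χ b = H2.mk L ρ ⟨_, carry_mem χ b⟩ := by
  have hM := hρ.mapAct (levelTrivial_xi χ)
  let F : G → ZMod p → A := fun g x => -(wr x ((χ : G → ZMod p) g) • (b : A))
  have hFL : IsLC₁ L F := IsLC₁.comp χ.2.1 (fun y x => -(wr x y • (b : A)))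
  have hd0 : ∀ g x, d0 (mapAct (xi χ) ρ) (Pi.single 0 (b : A)) g x =
      (if x = (χ : G → ZMod p) g then (b : A) else 0) - (if x = 0 then (b : A) else 0) := by
    intro g x
    rw [d0_apply, Pi.sub_apply, mapAct_apply, xi_inv_apply, Pi.single_apply, Pi.single_apply]
    congr 1
    by_cases h : x = (χ : G → ZMod p) g
    · rw [if_pos (sub_eq_zero.2 h), if_pos h, mem_H0.1 b.2]
    · rw [if_neg (fun h' => h (sub_eq_zero.1 h')), if_neg h, map_zero]
  have hDF : ∀ g, (Dop ρ χ).f (F g) = d0 (mapAct (xi χ) ρ) (Pi.single 0 (b : A)) g := by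
    intro g
    ext x
    rw [hd0, Dop_f]
    have h1 := wr_sub_one hp.out.one_lt x ((χ : G → ZMod p) g)
    show -(wr x ((χ : G → ZMod p) g) • (b : A)) - -(wr (x - 1) ((χ : G → ZMod p) g) • (b : A)) = _
    rw [sub_neg_eq_add, neg_add_eq_sub, ← sub_smul, h1, sub_smul]
    congr 1 <;> split_ifs <;> simp
  -- the 1-cocycle with values in `I`
  let k : G → (sumHom (xi χ) ρ).f.ker := fun g => ⟨(Dop ρ χ).f (F g), sum_Dop ρ χ _⟩
  have hk : k ∈ Z1 L (kerAct (sumHom (xi χ) ρ)) := by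
    refine ⟨IsLC₁.comp hFL (fun y => (⟨(Dop ρ χ).f y, sum_Dop ρ χ _⟩ :
      (sumHom (xi χ) ρ).f.ker)), ?_⟩
    show d1 _ k = 0
    ext g h : 2
    apply (cycS2 ρ χ).inj
    rw [(cycS2 ρ χ).i_d1]
    have h2 : (fun g => (cycS2 ρ χ).i.f (k g)) = d0 (mapAct (xi χ) ρ) (Pi.single 0 (b : A)) := by
      ext g x
      exact congrFun (hDF g) x
    rw [h2, d1_d0]
    simp
  have h1 : (cycS2 ρ χ).δ0 hM b = H1.mk L _ ⟨k, hk⟩ := by
    refine (cycS2 ρ χ).δ0_eq hM b (Pi.single 0 (b : A)) ⟨k, hk⟩ ?_ (fun g => hDF g)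
    show ∑ x, (Pi.single 0 (b : A) : ZMod p → A) x = b
    simp
  show (cycS1 ρ χ).δ1 hM ((cycS2 ρ χ).δ0 hM b) = _
  rw [h1]
  refine (cycS1 ρ χ).δ1_eq hM ⟨k, hk⟩ F hFL _ (fun g => rfl) (fun g h => ?_)
  ext x
  rw [d1_apply]
  show -(carry ((χ : G → ZMod p) g) ((χ : G → ZMod p) h) • (b : A)) =
    ρ g (-(wr (xi χ g⁻¹ x) ((χ : G → ZMod p) h) • (b : A))) -
      -(wr x ((χ : G → ZMod p) (g * h)) • (b : A)) + -(wr x ((χ : G → ZMod p) g) • (b : A))
  rw [map_neg, map_zsmul, mem_H0.1 b.2, xi_inv_apply, chi_mul,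
    ← wr_identity x ((χ : G → ZMod p) g) ((χ : G → ZMod p) h), add_smul, sub_smul]
  abel

/-- kernel of `cycδ` = norms -/
lemma cycδ_eq_zero (hρ : Smooth L ρ) (χ : Chi p L)
    (h90 : ∀ x : H1 L (mapAct (xi χ) ρ), x = 0) (b : H0 ρ) :
    cycδ hρ χ b = 0 ↔ ∃ f : H0 (mapAct (xi χ) ρ), (sumHom (xi χ) ρ).h0 f = b := by
  have hM := hρ.mapAct (levelTrivial_xi χ)
  constructor
  · intro h
    obtain ⟨y, hy⟩ := ((cycS1 ρ χ).exact_H1_right hM _).1 h
    rw [h90 y, map_zero] at hy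
    exact ((cycS2 ρ χ).exact_H0_right hM b).1 hy.symm
  · intro h
    have h1 := ((cycS2 ρ χ).exact_H0_right hM b).2 h
    show (cycS1 ρ χ).δ1 hM ((cycS2 ρ χ).δ0 hM b) = 0
    rw [h1, map_zero]

/-- image of `cycδ` = classes killed in `Map(X', A)` -/
lemma exists_cycδ (hρ : Smooth L ρ) (χ : Chi p L)
    (h90 : ∀ x : H1 L (mapAct (xi χ) ρ), x = 0) (x : H2 L ρ)
    (hx : (constHom (xi χ) ρ).h2 L x = 0) : ∃ b : H0 ρ, cycδ hρ χ b = x := by
  have hM := hρ.mapAct (levelTrivial_xi χ)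
  obtain ⟨y, hy⟩ := ((cycS1 ρ χ).exact_H2_left hM x).1 hx
  obtain ⟨b, hb⟩ := ((cycS2 ρ χ).exact_H1_left hM y).1 (h90 _)
  exact ⟨b, by rw [← hy, ← hb]; rfl⟩

/-- `cycδ` vanishes in `Map(X', A)` -/
lemma constHom_cycδ (hρ : Smooth L ρ) (χ : Chi p L) (b : H0 ρ) :
    (constHom (xi χ) ρ).h2 L (cycδ hρ χ b) = 0 := by
  have hM := hρ.mapAct (levelTrivial_xi χ)
  exact ((cycS1 ρ χ).exact_H2_left hM _).2 ⟨_, rfl⟩

end Cyc

end Fermat.Agent.PTLocal
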