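import Fermat.Agent.PTLocal.LGalCyc
import Fermat.Agent.PT.RightExact2

/-!
# Local fields: `H²(G, ℤ/p)` has order `p`
-/

set_option autoImplicit false

namespace Fermat.Agent.PTLocal

open Fermat.Agent.PT IntermediateField

variable {q : ℕ} [hq : Fact q.Prime] {p : ℕ} [hp : Fact p.Prime] {ζ : PadicAlgCl q}
  (hζ : IsPrimitiveRoot ζ p)

section

variable {G : Type*} [Group G] {L : Levels G} (hG : LGal ℚ_[q] (PadicAlgCl q) L)
  (hfix : ∀ g, hG.j g ζ = ζ)

include hζ hfix in
/-- `|H¹(G, ℤ/p)| = p^(2 + [E : ℚ_p])` resp. `p²`. -/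
theorem LGal.card_H1_eq : Nat.card (H1 L (trivAct G (ZMod p))) =
    p ^ (2 + if p = q then hG.j.range.index else 0) := by
  have hfd := hG.finiteDimensional_E
  have hζE : ζ ∈ hG.E := hG.mem_E.2 hfix
  have hζ' : IsPrimitiveRoot (⟨ζ, hζE⟩ : hG.E) p :=
    IsPrimitiveRoot.of_map_of_injective (f := algebraMap hG.E (PadicAlgCl q)) hζ
      (algebraMap hG.E (PadicAlgCl q)).injective
  have h1 : Module.finrank ℚ_[q] hG.E = hG.j.range.index := by
    rw [IntermediateField.finrank_eq_fixingSubgroup_index]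
    congr 1
    obtain ⟨N, hN⟩ := L.nonempty'
    obtain ⟨F, hF, hlev⟩ := hG.lev N hN
    exact fixing_fixed hG.j.range F hF (fun σ hσ => by
      obtain ⟨g, hg, rfl⟩ := hlev σ hσ
      exact ⟨g, rfl⟩)
  rw [hG.card_H1 hζ hfix, index_pow_alg q hG.E p hζ', dexpA, h1]

lemma LGal.h90' {χ : Chi p L} (hχ : χ ≠ 0) (x : H1 L (mapAct (xi χ) hG.act)) : x = 0 := by
  have hξ := levelTrivial_xi χ
  have hbij := sh_h1_bijective (L := L) (ρ := hG.act) hξ hG.smooth (isTrans_xi hχ)
  apply hbij.1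
  exact ((hG.sub _ (isOpenSub_stab hξ 0)).h90 _).trans (map_zero _).symm

/-- the local-like data of a local Galois group -/
theorem LGal.ll : LL p L hG.act (hG.kum hζ hfix) where
  smooth := hG.smooth
  pow _ := rfl
  h90 := hG.h90
  h90' _ hχ := hG.h90' hχ
  card := by
    rw [hG.card_H1_eq hζ hfix]
    exact Nat.pow_le_pow_right hp.out.pos (by omega)
  norm χ hχ := by
    obtain ⟨ζE, aE, β, hKD, hζE, hg⟩ := hG.exists_kummer hζ hfix hχ
    have h1 := hG.norm_comap hχ hKD (by rw [hζE]; exact hζ) (by rw [hζE]; exact hg)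
    rw [← AddSubgroup.index_comap_of_surjective _ hG.eH0_bijective.2, h1,
      Subgroup.index_toAddSubgroup]
    have hfd := hG.finiteDimensional_E
    have := hKD.finiteDimensional
    have := hKD.isGalois
    exact norm_index_alg q hG.E _ p hKD.finrank

end

section pgroup

/-- a `p`-group quotient has a character -/
lemma exists_chi {G : Type*} [Group G] {L : Levels G} {N : Subgroup G} (hN : N ∈ L.carrier)
    {n : ℕ} (hidx : N.index = p ^ (n + 1)) :
    ∃ χ : Chi p L, χ ≠ 0 ∧ ∀ s ∈ N, (χ : G → ZMod p) s = 0 := by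
  have hNn := L.normal' N hN
  have hNf := L.finiteIndex' N hN
  have hcard : Nat.card (G ⧸ N) = p ^ (n + 1) := hidx
  obtain ⟨H, hH⟩ := Sylow.exists_subgroup_card_pow_prime (G := G ⧸ N) p (n := n)
    (by rw [hcard]; exact pow_dvd_pow p (Nat.le_succ n))
  have hHi : H.index = p := by
    have h1 := H.card_mul_index
    rw [hH, hcard, pow_succ] at h1
    exact Nat.eq_of_mul_eq_mul_left (pow_pos hp.out.pos n) h1
  have hHn : H.Normal := by
    apply Subgroup.normal_of_index_eq_minFac_card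
    rw [hHi, hcard, Nat.pow_minFac (Nat.succ_ne_zero n), hp.out.minFac_eq]
  let e : (G ⧸ N) ⧸ H ≃* Multiplicative (ZMod p) := mulEquivOfPrimeCardEq (p := p) hHi
    (by rw [Nat.card_congr Multiplicative.toAdd, Nat.card_zmod])
  let φ : G →* Multiplicative (ZMod p) :=
    e.toMonoidHom.comp ((QuotientGroup.mk' H).comp (QuotientGroup.mk' N))
  have hφN : ∀ s ∈ N, φ s = 1 := by
    intro s hs
    have : (QuotientGroup.mk' N) s = 1 := (QuotientGroup.eq_one_iff s).2 hs
    show e ((QuotientGroup.mk' H) ((QuotientGroup.mk' N) s)) = 1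
    rw [this, map_one, map_one]
  refine ⟨⟨fun g => Multiplicative.toAdd (φ g), ?_⟩, ?_, fun s hs => ?_⟩
  · rw [mem_Z1']
    refine ⟨⟨N, hN, fun g s hs => ?_⟩, fun g h => ?_⟩
    · show Multiplicative.toAdd (φ (g * s)) = Multiplicative.toAdd (φ g)
      rw [map_mul, hφN s hs, mul_one]
    · show Multiplicative.toAdd (φ (g * h)) = _
      rw [map_mul, toAdd_mul, trivAct_apply]
  · intro h0
    have h1 : ∀ g, φ g = 1 := fun g => by
      have := congrFun (congrArg Subtype.val h0) g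
      exact this
    have hs : Function.Surjective φ :=
      e.surjective.comp ((QuotientGroup.mk'_surjective H).comp (QuotientGroup.mk'_surjective N))
    obtain ⟨g, hg⟩ := hs (Multiplicative.ofAdd 1)
    rw [h1] at hg
    have h2 : (0 : ZMod p) = 1 := congrArg Multiplicative.toAdd hg
    exact zero_ne_one h2
  · show Multiplicative.toAdd (φ s) = 0
    rw [hφN s hs]; rfl

include hζ in
theorem isCup_of_pgroup (n : ℕ) : ∀ {G : Type} [Group G] {L : Levels G}
    (hG : LGal ℚ_[q] (PadicAlgCl q) L) (_hfix : ∀ g, hG.j g ζ = ζ) {N : Subgroup G}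
    (_hN : N ∈ L.carrier) (_hidx : N.index = p ^ n) (f : Z2 L (trivAct G (ZMod p)))
    (_hf : ∀ g h, ∀ s ∈ N, ∀ t ∈ N, (f : G → G → ZMod p) (g * s) (h * t) =
      (f : G → G → ZMod p) g h), IsCup p L (H2.mk L _ f) := by
  induction n with
  | zero =>
    intro G _ L hG hfix N hN hidx f hf
    rw [pow_zero, Subgroup.index_eq_one] at hidx
    subst hidx
    have h1 : H2.mk L _ f = 0 := by
      refine H2.mk_eq_zero.2 ⟨fun _ => (f : G → G → ZMod p) 1 1, isLC₁_const L _, ?_⟩
      ext g h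
      rw [d1_apply, trivAct_apply, sub_self, zero_add]
      have := hf 1 1 g trivial h trivial
      rw [one_mul, one_mul] at this
      exact this.symm
    rw [h1]
    exact ⟨0, 0, map_zero _⟩
  | succ n ih =>
    intro G _ L hG hfix N hN hidx f hf
    obtain ⟨χ, hχ, hχN⟩ := exists_chi (p := p) hN hidx
    have hV := isOpenSub_stab (levelTrivial_xi χ) 0
    refine (hG.ll hζ hfix).tower hχ ((hG.sub _ hV).ll hζ (fun g => hfix g)) _ ?_
    have hNV : N ≤ stab (xi χ) 0 := fun s hs => (mem_stab_xi χ).2 (hχN s hs)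
    have hidx' : (N.subgroupOf (stab (xi χ) 0)).index = p ^ n := by
      have h1 : N.relIndex (stab (xi χ) 0) * (stab (xi χ) 0).index = N.index :=
        Subgroup.relIndex_mul_index hNV
      have h2 : (stab (xi χ) 0).index = p := by
        have h3 := (index_stab (isTrans_xi hχ))
        rw [h3, Nat.card_zmod]
      rw [h2, hidx, pow_succ] at h1
      exact Nat.eq_of_mul_eq_mul_right hp.out.pos h1
    rw [PairHom.h2_mk]
    exact ih (hG.sub _ hV) (fun g => hfix g) ⟨N, hN, rfl⟩ hidx' _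
      (fun g h s hs t ht => hf g h s hs t ht)

end pgroup

section final

variable {G : Type} [Group G] {L : Levels G} (hG : LGal ℚ_[q] (PadicAlgCl q) L)
  (hfix : ∀ g, hG.j g ζ = ζ)

include hζ hfix in
/-- every class in `H²(G, ℤ/p)` is a cup product -/
theorem LGal.isCup (x : H2 L (trivAct G (ZMod p))) : IsCup p L x := by
  obtain ⟨f, rfl⟩ := H2.mk_surjective _ _ x
  obtain ⟨⟨N, hN, hc⟩, -⟩ := mem_Z2'.1 f.2
  have hNn := L.normal' N hN
  have hNf := L.finiteIndex' N hN
  obtain ⟨P, hNP, -, hidx, hpg⟩ := exists_sylow_sub (p := p) N ⊤ le_top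
    (by rw [Subgroup.index_top]; exact fun h => hp.out.one_lt.ne' (Nat.dvd_one.1 h))
  have hPo : IsOpenSub L P := ⟨N, hN, hNP⟩
  have hst := stab_cosetAct P
  have hl := levelTrivial_cosetAct hPo
  have ht := isTrans_cosetAct P
  have hPf := hPo.finiteIndex
  have hX : Fintype (G ⧸ P) := Fintype.ofFinite _
  have hXc : ¬ p ∣ Fintype.card (G ⧸ P) := by
    rw [← Nat.card_eq_fintype_card]; exact hidx
  have hNV : N ≤ stab (cosetAct P) ((1 : G) : G ⧸ P) := by rw [hst]; exact hNP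
  have hpg' : IsPGroup p (stab (cosetAct P) ((1 : G) : G ⧸ P) ⧸
      N.subgroupOf (stab (cosetAct P) ((1 : G) : G ⧸ P))) := by rw [hst]; exact hpg
  have hVo := isOpenSub_stab hl ((1 : G) : G ⧸ P)
  set V := stab (cosetAct P) ((1 : G) : G ⧸ P) with hVdef
  obtain ⟨n, hn⟩ := IsPGroup.iff_card.1 hpg'
  have hresx : IsCup p (L.sub V) ((resT p L V).h2 (H2.mk L _ f)) := by
    rw [PairHom.h2_mk]
    exact isCup_of_pgroup hζ n (hG.sub V hVo) (fun g => hfix g) ⟨N, hN, rfl⟩ hn _
      (fun g h s hs t ht => hc g h s hs t ht)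
  have hll := hG.ll hζ hfix
  have hllV := (hG.sub V hVo).ll hζ (fun g => hfix g)
  obtain ⟨y, hy⟩ := hll.exists_ne
  obtain ⟨yV, hyV⟩ := hllV.exists_ne
  have hcy := hll.card_range hy
  obtain ⟨z, hz, hz0⟩ : ∃ z ∈ (Rm p L y).range, z ≠ 0 := by
    by_contra hcon
    push Not at hcon
    have h1 : (Rm p L y).range = ⊥ := (AddSubgroup.eq_bot_iff_forall _).2 hcon
    rw [h1, AddSubgroup.card_bot] at hcy
    exact hp.out.one_lt.ne hcy
  have hzc := (hll.isCup_iff hy z).2 hz
  have hresz : IsCup p (L.sub V) ((resT p L V).h2 z) := by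
    obtain ⟨κ, χ, rfl⟩ := hzc
    exact ⟨_, _, (resT_cup L V κ χ).symm⟩
  have hresz0 : (resT p L V).h2 z ≠ 0 := fun h0 => hz0 (eq_zero_of_res hl ht hXc z h0)
  have h1 := (hllV.isCup_iff hyV _).1 hresx
  have h2 := (hllV.isCup_iff hyV _).1 hresz
  rw [← eq_zmultiples_of_card (hllV.card_range hyV) h2 hresz0] at h1
  obtain ⟨m, hm⟩ := AddSubgroup.mem_zmultiples_iff.1 h1
  have h3 : (resT p L V).h2 (m • z - H2.mk L _ f) = 0 := by
    rw [map_sub, map_zsmul, hm, sub_self]
  have h4 := eq_zero_of_res hl ht hXc _ h3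
  rw [sub_eq_zero] at h4
  rw [← h4]
  exact (hll.isCup_iff hy _).2 (AddSubgroup.zsmul_mem _ hz m)

include hζ hfix in
/-- `|H²(G, ℤ/p)| = p` -/
theorem LGal.card_H2 : Nat.card (H2 L (trivAct G (ZMod p))) = p := by
  have hll := hG.ll hζ hfix
  obtain ⟨y, hy⟩ := hll.exists_ne
  refine Eq.trans ?_ (hll.card_range hy)
  have : (Rm p L y).range = ⊤ :=
    eq_top_iff.2 (fun x _ => (hll.isCup_iff hy x).1 (hG.isCup hζ hfix x))
  rw [this, AddSubgroup.card_top]

include hζ hfix in
/-- nondegeneracy of the cup product -/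
theorem LGal.exists_cup_ne {y : H1 L (trivAct G (ZMod p))} (hy : y ≠ 0) :
    ∃ x, cupT p L y x ≠ 0 := (hG.ll hζ hfix).exists_cup_ne hy

end final

end Fermat.Agent.PTLocal
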