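import Fermat.Agent.PTLocal.Tower

/-!
# Groups of Galois type

`LGal k Ω L` : a group `G` with levels `L`, mapping to `Gal(Ω/k)` such that the levels are the ones
coming from finite subextensions.
-/

set_option autoImplicit false

namespace Fermat.Agent.PTLocal

open Fermat.Agent.PT IntermediateField

section defs

variable (k Ω : Type*) [Field k] [Field Ω] [Algebra k Ω]

/-- the Galois action on units -/
def galAct : Act (Ω ≃ₐ[k] Ω) (Additive Ωˣ) where
  toFun σ := MonoidHom.toAdditive (Units.map (σ : Ω →* Ω))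
  map_one' := by ext a; rfl
  map_mul' σ τ := by ext a; rfl

lemma galAct_apply (σ : Ω ≃ₐ[k] Ω) (a : Additive Ωˣ) :
    ((Additive.toMul (galAct k Ω σ a) : Ωˣ) : Ω) = σ ((Additive.toMul a : Ωˣ) : Ω) := rfl

/-- A group with levels of Galois type. -/
structure LGal {G : Type*} [Group G] (L : Levels G) where
  /-- the map to the Galois group -/
  j : G →* (Ω ≃ₐ[k] Ω)
  ker_le : ∀ N ∈ L.carrier, ∀ g, j g = 1 → g ∈ N
  lev : ∀ N ∈ L.carrier, ∃ F : IntermediateField k Ω, FiniteDimensional k F ∧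
    ∀ σ ∈ F.fixingSubgroup, ∃ g ∈ N, j g = σ
  cof : ∀ F : IntermediateField k Ω, FiniteDimensional k F →
    ∃ N ∈ L.carrier, ∀ g ∈ N, j g ∈ F.fixingSubgroup

end defs

variable {k Ω : Type*} [Field k] [Field Ω] [Algebra k Ω]

/-- Galois correspondence for open subgroups. -/
lemma fixing_fixed [IsGalois k Ω] (H : Subgroup (Ω ≃ₐ[k] Ω)) (F : IntermediateField k Ω)
    (hF : FiniteDimensional k F) (h : F.fixingSubgroup ≤ H) :
    (fixedField H).fixingSubgroup = H := by
  have h1 : IsOpen (F.fixingSubgroup : Set (Ω ≃ₐ[k] Ω)) := IntermediateField.fixingSubgroup_isOpen F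
  have h2 : IsOpen (H : Set (Ω ≃ₐ[k] Ω)) := Subgroup.isOpen_mono h h1
  exact InfiniteGalois.fixingSubgroup_fixedField ⟨H, Subgroup.isClosed_of_isOpen H h2⟩

namespace LGal

variable {G : Type*} [Group G] {L : Levels G} (hG : LGal k Ω L)

/-- the action on units -/
abbrev act : Act G (Additive Ωˣ) := (galAct k Ω).comp hG.j

/-- restriction to an open subgroup -/
def sub (U : Subgroup G) (hU : IsOpenSub L U) : LGal k Ω (L.sub U) where
  j := hG.j.comp U.subtype
  ker_le := by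
    rintro _ ⟨N, hN, rfl⟩ g hg
    exact hG.ker_le N hN g hg
  lev := by
    rintro _ ⟨N, hN, rfl⟩
    obtain ⟨M, hM, hMN, hMU⟩ := hU.exists_le hN
    obtain ⟨F, hF, h⟩ := hG.lev M hM
    refine ⟨F, hF, fun σ hσ => ?_⟩
    obtain ⟨g, hg, rfl⟩ := h σ hσ
    exact ⟨⟨g, hMU hg⟩, hMN hg, rfl⟩
  cof F hF := by
    obtain ⟨N, hN, h⟩ := hG.cof F hF
    exact ⟨_, ⟨N, hN, rfl⟩, fun g hg => h g hg⟩

lemma sub_act (U : Subgroup G) (hU : IsOpenSub L U) : (hG.sub U hU).act = resAct hG.act U := rfl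

lemma smooth [Algebra.IsAlgebraic k Ω] : Smooth L hG.act := by
  intro a
  have hfin : FiniteDimensional k k⟮((Additive.toMul a : Ωˣ) : Ω)⟯ :=
    adjoin.finiteDimensional (Algebra.IsAlgebraic.isAlgebraic _).isIntegral
  obtain ⟨N, hN, h⟩ := hG.cof _ hfin
  refine ⟨N, hN, fun s hs => ?_⟩
  apply Additive.toMul.injective
  apply Units.ext
  exact h s hs ⟨_, mem_adjoin_simple_self k _⟩

lemma mem_of_fixes [IsGalois k Ω] {N : Subgroup G} (hN : N ∈ L.carrier) (g : G)
    (h : ∀ x ∈ fixedField (N.map hG.j), hG.j g x = x) : g ∈ N := by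
  obtain ⟨F, hF, hlev⟩ := hG.lev N hN
  have h1 := fixing_fixed (N.map hG.j) F hF (fun σ hσ => by
    obtain ⟨g, hg, rfl⟩ := hlev σ hσ
    exact ⟨g, hg, rfl⟩)
  have h2 : hG.j g ∈ (fixedField (N.map hG.j)).fixingSubgroup := fun x => h x x.2
  rw [h1] at h2
  obtain ⟨s, hs, hsg⟩ := h2
  have h3 := hG.ker_le N hN (s⁻¹ * g) (by rw [map_mul, map_inv, hsg, inv_mul_cancel])
  have := N.mul_mem hs h3
  rwa [mul_inv_cancel_left] at this

/-- **Hilbert 90**. -/
theorem h90 [IsGalois k Ω] (x : H1 L hG.act) : x = 0 := by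
  obtain ⟨f, rfl⟩ := H1.mk_surjective _ _ x
  obtain ⟨⟨N, hN, hc⟩, hf⟩ := mem_Z1'.1 f.2
  have hNn := L.normal' N hN
  have hNf := L.finiteIndex' N hN
  let u : G → Ωˣ := fun g => Additive.toMul ((f : G → Additive Ωˣ) g)
  have hu : ∀ g h, (u (g * h) : Ω) = u g * hG.j g (u h) := by
    intro g h
    have := congrArg (fun a => ((Additive.toMul a : Ωˣ) : Ω)) (hf g h)
    exact this
  have huN : ∀ g, ∀ s ∈ N, u (g * s) = u g := fun g s hs => by
    show Additive.toMul _ = Additive.toMul _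
    rw [hc g s hs]
  let M := fixedField (N.map hG.j)
  let φ : G ⧸ N → (M →* Ω) := fun c => ((hG.j c.out : Ω →* Ω)).comp (M.val : M →* Ω)
  have hφa : ∀ c (x : M), φ c x = hG.j c.out (x : Ω) := fun _ _ => rfl
  have hMs : ∀ s ∈ N, ∀ x : M, hG.j s (x : Ω) = x := fun s hs x =>
    (IntermediateField.mem_fixedField_iff _ _).1 x.2 _ ⟨s, hs, rfl⟩
  have hφ : Function.Injective φ := by
    intro c c' h
    have h1 : c.out⁻¹ * c'.out ∈ N := by
      apply hG.mem_of_fixes hN
      intro x hx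
      have h2 : φ c ⟨x, hx⟩ = φ c' ⟨x, hx⟩ := by rw [h]
      rw [hφa, hφa] at h2
      rw [map_mul, map_inv]
      show (hG.j c.out).symm (hG.j c'.out x) = x
      rw [← h2, AlgEquiv.symm_apply_apply]
    rw [← QuotientGroup.eq] at h1
    rwa [QuotientGroup.out_eq', QuotientGroup.out_eq'] at h1
  have hli : LinearIndependent Ω (fun c : G ⧸ N => (φ c : M → Ω)) :=
    (linearIndependent_monoidHom M Ω).comp φ hφ
  have hfin : Fintype (G ⧸ N) := Fintype.ofFinite _
  obtain ⟨c, hc0⟩ : ∃ c : M, ∑ i : G ⧸ N, (u i.out : Ω) * hG.j i.out (c : Ω) ≠ 0 := by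
    by_contra hcon
    push Not at hcon
    have h1 : ∑ i : G ⧸ N, (u i.out : Ω) • (φ i : M → Ω) = 0 := by
      ext c
      rw [Finset.sum_apply]
      exact hcon c
    have h2 := Fintype.linearIndependent_iff.1 hli (fun i => (u i.out : Ω)) h1 (1 : G)
    exact (u _).ne_zero h2
  set b := ∑ i : G ⧸ N, (u i.out : Ω) * hG.j i.out (c : Ω) with hb
  have hkey : ∀ h : G, (u h : Ω) * hG.j h b = b := by
    intro h
    rw [hb, map_sum, Finset.mul_sum]
    have h1 : ∀ i : G ⧸ N, (u h : Ω) * hG.j h ((u i.out : Ω) * hG.j i.out (c : Ω)) =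
        (u (h • i).out : Ω) * hG.j (h • i).out (c : Ω) := by
      intro i
      obtain ⟨s, hs⟩ : ∃ s ∈ N, h * i.out = (h • i).out * s := by
        refine ⟨(h • i).out⁻¹ * (h * i.out), ?_, by group⟩
        rw [← QuotientGroup.eq, QuotientGroup.out_eq']
        conv_lhs => rw [← QuotientGroup.out_eq' i]
        rfl
      rw [map_mul, ← mul_assoc, ← hu, hs.2, huN _ s hs.1]
      congr 1
      have h3 : hG.j h (hG.j i.out (c : Ω)) = hG.j (h * i.out) (c : Ω) := by
        rw [map_mul]; rfl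
      rw [h3, hs.2, map_mul]
      show hG.j (h • i).out (hG.j s (c : Ω)) = _
      rw [hMs s hs.1]
    rw [Finset.sum_congr rfl (fun i _ => h1 i)]
    exact Equiv.sum_comp (MulAction.toPerm h)
      (fun i : G ⧸ N => (u i.out : Ω) * hG.j i.out (c : Ω))
  refine H1.mk_eq_zero.2 ⟨Additive.ofMul (Units.mk0 b hc0)⁻¹, funext fun h => ?_⟩
  rw [d0_apply]
  apply Additive.toMul.injective
  apply Units.ext
  rw [toMul_sub, Units.val_div_eq_div_val]
  show hG.j h ((Units.mk0 b hc0)⁻¹ : Ωˣ) / ((Units.mk0 b hc0)⁻¹ : Ωˣ) = (u h : Ω)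
  have h1 := hkey h
  have h2 : hG.j h b ≠ 0 := by simpa using hc0
  rw [Units.val_inv_eq_inv_val, Units.val_mk0, map_inv₀]
  field_simp
  linear_combination -h1

end LGal

end Fermat.Agent.PTLocal
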