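import Fermat.Agent.PTLocal.LGalNorm

/-!
# The cyclic extension cut out by a character (no roots of unity needed)
-/

set_option autoImplicit false

namespace Fermat.Agent.PTLocal

open Fermat.Agent.PT IntermediateField

lemma index_stab {G : Type*} [Group G] {X : Type*} {ξ : G →* Equiv.Perm X} {x₀ : X}
    (ht : IsTrans ξ x₀) : (stab ξ x₀).index = Nat.card X := by
  have h1 : ∀ a b : G, (QuotientGroup.leftRel (stab ξ x₀)) a b → ξ a x₀ = ξ b x₀ := by
    intro a b hab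
    rw [QuotientGroup.leftRel_apply, mem_stab, map_mul, Equiv.Perm.mul_apply, map_inv,
      Equiv.Perm.inv_eq_iff_eq] at hab
    exact hab.symm
  refine Nat.card_congr (Equiv.ofBijective (fun c : G ⧸ stab ξ x₀ =>
    Quotient.liftOn' c (fun g => ξ g x₀) h1) ⟨?_, ?_⟩)
  · intro c c' h
    obtain ⟨g, rfl⟩ := QuotientGroup.mk_surjective c
    obtain ⟨g', rfl⟩ := QuotientGroup.mk_surjective c'
    have h2 : ξ g x₀ = ξ g' x₀ := h
    rw [QuotientGroup.eq, mem_stab, map_mul, Equiv.Perm.mul_apply, map_inv,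
      Equiv.Perm.inv_eq_iff_eq, h2]
  · intro x
    obtain ⟨g, hg⟩ := ht x
    exact ⟨(g : G ⧸ stab ξ x₀), hg⟩

namespace LGal

variable {k Ω : Type} [Field k] [Field Ω] [Algebra k Ω] [IsGalois k Ω]
  {G : Type*} [Group G] {L : Levels G} (hG : LGal k Ω L) {p : ℕ} [hp : Fact p.Prime]

omit [IsGalois k Ω] in
/-- `jE` as a homomorphism -/
def jEh : G →* (Ω ≃ₐ[hG.E] Ω) where
  toFun := hG.jE
  map_one' := by
    apply AlgEquiv.ext
    intro x
    rw [jE_apply, map_one]; rfl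
  map_mul' g h := by
    apply AlgEquiv.ext
    intro x
    rw [jE_apply, map_mul]; rfl

omit [IsGalois k Ω] in
lemma jEh_apply (g : G) (x : Ω) : hG.jEh g x = hG.j g x := rfl

lemma jEh_surjective : Function.Surjective hG.jEh := by
  intro τ
  obtain ⟨g, hg⟩ := hG.exists_jE τ
  exact ⟨g, AlgEquiv.ext hg⟩

omit [IsGalois k Ω] in
lemma j_eq_of_jEh {g g' : G} (h : hG.jEh g = hG.jEh g') : hG.j g = hG.j g' := by
  apply AlgEquiv.ext
  intro x
  exact congrArg (fun τ : Ω ≃ₐ[hG.E] Ω => τ x) h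

/-- base change to the base field -/
def overE : LGal hG.E Ω L where
  j := hG.jEh
  ker_le N hN g hg := hG.ker_le N hN g (by
    have := hG.j_eq_of_jEh (g := g) (g' := 1) (by rw [hg, map_one])
    rw [this, map_one])
  lev N hN := by
    obtain ⟨F, hF, hlev⟩ := hG.lev N hN
    have hfE := hG.finiteDimensional_E
    have hsup : FiniteDimensional hG.E (extendScalars (le_sup_left : hG.E ≤ hG.E ⊔ F)) := by
      have h1 : FiniteDimensional k (hG.E ⊔ F : IntermediateField k Ω) :=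
        IntermediateField.finiteDimensional_sup hG.E F
      have h2 : FiniteDimensional k (extendScalars (le_sup_left : hG.E ≤ hG.E ⊔ F)) := h1
      exact Module.Finite.of_restrictScalars_finite k hG.E _
    refine ⟨extendScalars (le_sup_left : hG.E ≤ hG.E ⊔ F), hsup, fun σ hσ => ?_⟩
    obtain ⟨g, hg, hgσ⟩ := hlev (σ.restrictScalars k) (fun x =>
      hσ ⟨(x : Ω), (le_sup_right : F ≤ hG.E ⊔ F) x.2⟩)
    refine ⟨g, hg, AlgEquiv.ext fun x => ?_⟩
    exact congrArg (fun τ : Ω ≃ₐ[k] Ω => τ x) hgσ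
  cof F hF := by
    have : FiniteDimensional k (F.restrictScalars k) := by
      have hfE := hG.finiteDimensional_E
      have h1 : FiniteDimensional k F := FiniteDimensional.trans k hG.E F
      exact h1
    obtain ⟨N, hN, h⟩ := hG.cof (F.restrictScalars k) this
    exact ⟨N, hN, fun g hg x => h g hg x⟩

omit [IsGalois k Ω] hp in
lemma chi_eq_of_j (χ : Chi p L) {g g' : G} (h : hG.j g = hG.j g') :
    (χ : G → ZMod p) g = (χ : G → ZMod p) g' := by
  obtain ⟨N, hN, hc⟩ := χ.2.1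
  have h1 : g'⁻¹ * g ∈ N := hG.ker_le N hN _ (by rw [map_mul, map_inv, h, inv_mul_cancel])
  have h2 := hc g' _ h1
  rwa [mul_inv_cancel_left] at h2

/-- the fixed field of the kernel of `χ` -/
def cf (χ : Chi p L) : IntermediateField hG.E Ω := fixedField ((stab (xi χ) 0).map hG.jEh)

lemma cf_fixing (χ : Chi p L) : (hG.cf χ).fixingSubgroup = (stab (xi χ) 0).map hG.jEh := by
  obtain ⟨N, hN, h⟩ := isOpenSub_stab (levelTrivial_xi χ) 0
  obtain ⟨F, hF, hlev⟩ := hG.overE.lev N hN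
  exact fixing_fixed _ F hF (fun σ hσ => by
    obtain ⟨g, hg, rfl⟩ := hlev σ hσ
    exact ⟨g, h hg, rfl⟩)

omit [IsGalois k Ω] in
lemma mem_cf {χ : Chi p L} {x : Ω} :
    x ∈ hG.cf χ ↔ ∀ g, (χ : G → ZMod p) g = 0 → hG.j g x = x := by
  unfold cf
  rw [IntermediateField.mem_fixedField_iff]
  constructor
  · intro h g hg
    exact h _ ⟨g, (mem_stab_xi χ).2 hg, rfl⟩
  · rintro h _ ⟨g, hg, rfl⟩
    exact h g ((mem_stab_xi χ).1 hg)

lemma cf_comap (χ : Chi p L) : ((hG.cf χ).fixingSubgroup).comap hG.jEh = stab (xi χ) 0 := by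
  rw [cf_fixing]
  ext g
  rw [Subgroup.mem_comap]
  constructor
  · rintro ⟨g', hg', h⟩
    rw [mem_stab_xi, ← hG.chi_eq_of_j χ (hG.j_eq_of_jEh h)]
    exact (mem_stab_xi χ).1 hg'
  · intro hg
    exact ⟨g, hg, rfl⟩

lemma cf_isGalois (χ : Chi p L) : IsGalois hG.E (hG.cf χ) := by
  rw [← InfiniteGalois.normal_iff_isGalois]
  constructor
  intro τ hτ σ
  obtain ⟨h, rfl⟩ := hG.jEh_surjective σ
  obtain ⟨g, rfl⟩ := hG.jEh_surjective τ
  have hg : g ∈ stab (xi χ) 0 := by rw [← hG.cf_comap χ]; exact hτ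
  have h1 : h * g * h⁻¹ ∈ stab (xi χ) 0 := by
    rw [mem_stab_xi, chi_mul, chi_mul, chi_inv, (mem_stab_xi χ).1 hg, add_zero, add_neg_cancel]
  rw [← hG.cf_comap χ] at h1
  have h2 : hG.jEh (h * g * h⁻¹) ∈ (hG.cf χ).fixingSubgroup := h1
  rwa [map_mul, map_mul, map_inv] at h2

lemma index_stab_xi {χ : Chi p L} (hχ : χ ≠ 0) : (stab (xi χ) 0).index = p := by
  have h1 := index_stab (isTrans_xi hχ)
  rw [h1, Nat.card_zmod]

lemma cf_finrank {χ : Chi p L} (hχ : χ ≠ 0) : Module.finrank hG.E (hG.cf χ) = p := by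
  rw [IntermediateField.finrank_eq_fixingSubgroup_index,
    ← Subgroup.index_comap_of_surjective _ hG.jEh_surjective, cf_comap, index_stab_xi hχ]

lemma cf_fd {χ : Chi p L} (hχ : χ ≠ 0) : FiniteDimensional hG.E (hG.cf χ) :=
  FiniteDimensional.of_finrank_pos (by rw [hG.cf_finrank hχ]; exact hp.out.pos)

lemma cf_exists_restrict {χ : Chi p L} (hχ : χ ≠ 0) {g1 : G} (hg1 : (χ : G → ZMod p) g1 = 1) :
    ∃ g : hG.cf χ ≃ₐ[hG.E] hG.cf χ, (∀ τ, τ ∈ Subgroup.zpowers g) ∧ orderOf g = p ∧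
      ∀ (i : ℕ) (x : hG.cf χ), (((g ^ i) x : hG.cf χ) : Ω) = hG.j (g1 ^ i) (x : Ω) := by
  have hGal := hG.cf_isGalois χ
  have hfd := hG.cf_fd hχ
  set g := (hG.jE g1).restrictNormal (hG.cf χ) with hg
  have hgx : ∀ x : hG.cf χ, ((g x : hG.cf χ) : Ω) = hG.j g1 (x : Ω) :=
    fun x => AlgEquiv.restrictNormal_apply (hG.cf χ) (hG.jE g1) x
  have hcard : Nat.card (hG.cf χ ≃ₐ[hG.E] hG.cf χ) = p := by
    rw [IsGalois.card_aut_eq_finrank, hG.cf_finrank hχ]
  have hne : g ≠ 1 := by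
    intro h1
    have h2 : g1 ∈ stab (xi χ) 0 := by
      rw [← hG.cf_comap χ, Subgroup.mem_comap, IntermediateField.mem_fixingSubgroup_iff]
      intro x hx
      have h3 := hgx ⟨x, hx⟩
      rw [h1] at h3
      exact h3.symm
    rw [mem_stab_xi, hg1] at h2
    exact one_ne_zero h2
  have hgen : ∀ τ, τ ∈ Subgroup.zpowers g := fun τ => mem_zpowers_of_prime_card hcard hne
  refine ⟨g, hgen, by rw [orderOf_eq_card_of_forall_mem_zpowers hgen, hcard], ?_⟩
  intro i
  induction i with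
  | zero => intro x; rw [pow_zero, pow_zero, map_one]; rfl
  | succ n ih =>
    intro x
    rw [pow_succ, pow_succ, map_mul]
    change (((g ^ n) (g x) : hG.cf χ) : Ω) = hG.j (g1 ^ n) (hG.j g1 (x : Ω))
    rw [ih, hgx]

/-- sums over `X' = ℤ/p` are norms -/
lemma cf_sum_eq_norm {χ : Chi p L} (hχ : χ ≠ 0)
    (g1 : G) (hg1 : (χ : G → ZMod p) g1 = 1) (f : H0 (mapAct (xi χ) hG.act)) :
    ∃ h : ((Additive.toMul ((f : ZMod p → Additive Ωˣ) 0) : Ωˣ) : Ω) ∈ hG.cf χ,
    ((Additive.toMul (((sumHom (xi χ) hG.act).h0 f : Additive Ωˣ)) : Ωˣ) : Ω) =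
      algebraMap hG.E Ω (Algebra.norm hG.E (⟨_, h⟩ : hG.cf χ)) := by
  have hf : ∀ g x, (f : ZMod p → Additive Ωˣ) (x + (χ : G → ZMod p) g) =
      hG.act g ((f : ZMod p → Additive Ωˣ) x) := fun g x => mem_H0_mapAct.1 f.2 g x
  set y : Ω := ((Additive.toMul ((f : ZMod p → Additive Ωˣ) 0) : Ωˣ) : Ω) with hy
  have hmem : y ∈ hG.cf χ := by
    rw [mem_cf]
    intro g hg
    have h2 := hf g 0
    rw [hg, zero_add] at h2
    have h3 := congrArg (fun a => ((Additive.toMul a : Ωˣ) : Ω)) h2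
    exact h3.symm
  refine ⟨hmem, ?_⟩
  have hGal := hG.cf_isGalois χ
  have hfd := hG.cf_fd hχ
  obtain ⟨g, hgen, hord, hgp⟩ := hG.cf_exists_restrict hχ hg1
  have h1 := norm_eq_prod_pow hgen hord (⟨y, hmem⟩ : hG.cf χ)
  have h2 := congrArg (algebraMap (hG.cf χ) Ω) h1
  rw [← IsScalarTower.algebraMap_apply, map_prod] at h2
  rw [h2]
  have hchin : ∀ n : ℕ, (χ : G → ZMod p) (g1 ^ n) = n := by
    intro n
    induction n with
    | zero => simp [chi_one]
    | succ n ih => rw [pow_succ, chi_mul, ih, hg1]; push_cast; ring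
  have hfn : ∀ n : ℕ, (f : ZMod p → Additive Ωˣ) (n : ZMod p) =
      hG.act (g1 ^ n) ((f : ZMod p → Additive Ωˣ) 0) := by
    intro n
    rw [← hf, hchin, zero_add]
  have hsum : ((sumHom (xi χ) hG.act).h0 f : Additive Ωˣ) =
      ∑ i ∈ Finset.range p, hG.act (g1 ^ i) ((f : ZMod p → Additive Ωˣ) 0) := by
    show ∑ x, (f : ZMod p → Additive Ωˣ) x = _
    obtain ⟨n, hn⟩ : ∃ n, n + 1 = p := ⟨p - 1, Nat.succ_pred_eq_of_pos hp.out.pos⟩
    rw [← sum_val_eq _ n hn, hn]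
    exact Finset.sum_congr rfl fun i _ => hfn i
  rw [hsum, toMul_sum, Units.coe_prod]
  refine Finset.prod_congr rfl fun i _ => ?_
  exact (hgp i ⟨y, hmem⟩).symm

/-- The norm group in terms of `Map(X', -)`. -/
lemma cf_norm_comap {χ : Chi p L} (hχ : χ ≠ 0) :
    (((sumHom (xi χ) hG.act).h0).range).comap hG.eH0 =
      Subgroup.toAddSubgroup (normU hG.E (hG.cf χ)).range := by
  obtain ⟨g1, hg1⟩ := chi_surjective hχ 1
  have hfd := hG.cf_fd hχ
  ext x
  rw [AddSubgroup.mem_comap]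
  constructor
  · rintro ⟨f, hf⟩
    obtain ⟨hmem, heq⟩ := hG.cf_sum_eq_norm hχ g1 hg1 f
    rw [hf] at heq
    have h0 : (⟨_, hmem⟩ : hG.cf χ) ≠ 0 := by
      intro h0
      exact (Additive.toMul ((f : ZMod p → Additive Ωˣ) 0) : Ωˣ).ne_zero
        (congrArg Subtype.val h0)
    refine ⟨Units.mk0 _ h0, ?_⟩
    apply Units.ext
    apply Subtype.ext
    rw [normU_coe, Units.val_mk0]
    exact heq.symm
  · rintro ⟨y, hy⟩
    have hy1 : ∀ u : stab (xi χ) 0, hG.j (u : G) ((y : hG.cf χ) : Ω) = (y : hG.cf χ) :=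
      fun u => hG.mem_cf.1 (y : hG.cf χ).2 u ((mem_stab_xi χ).1 u.2)
    have hy0 : ((y : hG.cf χ) : Ω) ≠ 0 := fun h0 => y.ne_zero (Subtype.ext h0)
    obtain ⟨f, hf⟩ := (sh_h0_bijective (L := L) (ρ := hG.act) (isTrans_xi hχ)).2
      ⟨Additive.ofMul (Units.mk0 _ hy0), by
        rw [mem_H0]
        intro u
        apply Additive.toMul.injective
        apply Units.ext
        exact hy1 u⟩
    refine ⟨f, ?_⟩
    have hf0 : (f : ZMod p → Additive Ωˣ) 0 = Additive.ofMul (Units.mk0 _ hy0) :=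
      congrArg Subtype.val hf
    obtain ⟨hmem, heq⟩ := hG.cf_sum_eq_norm hχ g1 hg1 f
    apply Subtype.ext
    apply Additive.toMul.injective
    apply Units.ext
    rw [heq, eH0_coe]
    have h6 : (⟨_, hmem⟩ : hG.cf χ) = y := by
      apply Subtype.ext
      show ((Additive.toMul ((f : ZMod p → Additive Ωˣ) 0) : Ωˣ) : Ω) = _
      rw [hf0]; rfl
    rw [h6]
    have h7 := congrArg (fun t : hG.Eˣ => ((t : hG.E) : Ω)) hy
    rw [normU_coe] at h7
    exact h7

end LGal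

/-- norm index for an arbitrary character of a local Galois group -/
theorem LGal.norm_index {q : ℕ} [hq : Fact q.Prime] {G : Type*} [Group G] {L : Levels G}
    (hG : LGal ℚ_[q] (PadicAlgCl q) L) {p : ℕ} [hp : Fact p.Prime] {χ : Chi p L} (hχ : χ ≠ 0) :
    ((sumHom (xi χ) hG.act).h0).range.index = p := by
  rw [← AddSubgroup.index_comap_of_surjective _ hG.eH0_bijective.2, hG.cf_norm_comap hχ,
      Subgroup.index_toAddSubgroup]
  have hfd := hG.finiteDimensional_E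
  have := hG.cf_fd hχ
  have := hG.cf_isGalois χ
  exact norm_index_alg q hG.E _ p (hG.cf_finrank hχ)

end Fermat.Agent.PTLocal
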