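import Fermat.Agent.PTLocal.LGalKummer

/-!
# Norms for groups of Galois type
-/

set_option autoImplicit false

namespace Fermat.Agent.PTLocal

open Fermat.Agent.PT IntermediateField

namespace LGal

variable {k Ω : Type} [Field k] [Field Ω] [Algebra k Ω] [IsAlgClosed Ω] [IsGalois k Ω]
  {G : Type*} [Group G] {L : Levels G} (hG : LGal k Ω L) {p : ℕ} [hp : Fact p.Prime] {ζ : Ω}
  (hζ : IsPrimitiveRoot ζ p) (hfix : ∀ g, hG.j g ζ = ζ)

omit [IsAlgClosed Ω] [IsGalois k Ω] in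
/-- elements of `G` as automorphisms over the base field -/
def jE (g : G) : Ω ≃ₐ[hG.E] Ω :=
  AlgEquiv.ofRingEquiv (f := (hG.j g : Ω ≃+* Ω)) (fun x => hG.mem_E.1 x.2 g)

omit [IsAlgClosed Ω] [IsGalois k Ω] in
lemma jE_apply (g : G) (x : Ω) : hG.jE g x = hG.j g x := rfl

omit [IsAlgClosed Ω] [IsGalois k Ω] in
lemma jE_pow (g : G) (n : ℕ) (x : Ω) : (hG.jE g ^ n) x = hG.j (g ^ n) x := by
  induction n generalizing x with
  | zero => simp
  | succ n ih => rw [pow_succ, pow_succ, map_mul]; exact ih (hG.j g x)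

omit [IsAlgClosed Ω] in
lemma exists_jE (τ : Ω ≃ₐ[hG.E] Ω) : ∃ g, ∀ x, hG.j g x = τ x := by
  obtain ⟨g, hg⟩ := hG.exists_of_fix (τ.restrictScalars k) (fun x hx => τ.commutes ⟨x, hx⟩)
  exact ⟨g, fun x => by rw [hg]; rfl⟩

include hζ hfix

/-- Kummer generator of a character -/
lemma exists_kummer {χ : Chi p L} (hχ : χ ≠ 0) :
    ∃ (ζE aE : hG.E) (β : Ω), KD ζE aE β p ∧ (ζE : Ω) = ζ ∧
      ∀ g, hG.j g β = ζ ^ ((χ : G → ZMod p) g).val * β := by
  obtain ⟨b, hb⟩ := hG.kum_kappa_surj hζ hfix (H1.mk L _ χ)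
  obtain ⟨β', a, hβ, ha, hδ⟩ := (hG.kum hζ hfix).exists_δ0 hG.smooth b
  rw [hδ] at hb
  have hab := chi_mk_injective hb
  set β : Ω := ((Additive.toMul β' : Ωˣ) : Ω) with hβdef
  have hβ0 : β ≠ 0 := (Additive.toMul β' : Ωˣ).ne_zero
  have hg : ∀ g, hG.j g β = ζ ^ ((χ : G → ZMod p) g).val * β := by
    intro g
    have h1 := congrArg (fun a => ((Additive.toMul a : Ωˣ) : Ω)) (ha g)
    rw [hab, d0_apply, toMul_sub, Units.val_div_eq_div_val] at h1
    have h2 : ζ ^ ((χ : G → ZMod p) g).val = hG.j g β / β := by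
      rw [← zetaHom_apply hζ]; exact h1
    rw [h2]
    field_simp
  have hζE : ζ ∈ hG.E := hG.mem_E.2 hfix
  have hβp : β ^ p ∈ hG.E := by
    rw [hG.mem_E]
    intro g
    rw [map_pow, hg, mul_pow, ← pow_mul, mul_comm ((χ : G → ZMod p) g).val, pow_mul,
      hζ.pow_eq_one, one_pow, one_mul]
  refine ⟨⟨ζ, hζE⟩, ⟨β ^ p, hβp⟩, β, ⟨?_, rfl, ?_⟩, rfl, hg⟩
  · exact IsPrimitiveRoot.of_map_of_injective (f := algebraMap hG.E Ω) hζ
      (algebraMap hG.E Ω).injective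
  · rintro ⟨x, hx⟩
    apply hχ
    apply Subtype.ext
    ext g
    have h1 := hg g
    rw [← hx] at h1
    have h2 : hG.j g (x : Ω) = x := hG.mem_E.1 x.2 g
    have h3 : ζ ^ ((χ : G → ZMod p) g).val = 1 := by
      have hx0 : (x : Ω) ≠ 0 := by
        have : algebraMap hG.E Ω x = x := rfl
        rw [← this, hx]; exact hβ0
      have h4 : (x : Ω) = ζ ^ ((χ : G → ZMod p) g).val * x := h2.symm.trans h1
      exact (mul_eq_right₀ hx0).1 h4.symm
    rw [hζ.pow_eq_one_iff_dvd] at h3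
    exact (ZMod.val_eq_zero _).1 (Nat.eq_zero_of_dvd_of_lt h3 (ZMod.val_lt _))

omit [IsAlgClosed Ω] hζ hfix in
/-- sums over `X' = ℤ/p` are norms -/
lemma sum_eq_norm {χ : Chi p L} {ζE aE : hG.E} {β : Ω} (hKD : KD ζE aE β p)
    (hζE : IsPrimitiveRoot (ζE : Ω) p)
    (hg : ∀ g, hG.j g β = (ζE : Ω) ^ ((χ : G → ZMod p) g).val * β)
    (g1 : G) (hg1 : (χ : G → ZMod p) g1 = 1) (f : H0 (mapAct (xi χ) hG.act)) :
    ∃ h : ((Additive.toMul ((f : ZMod p → Additive Ωˣ) 0) : Ωˣ) : Ω) ∈ (hG.E)⟮β⟯,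
    ((Additive.toMul (((sumHom (xi χ) hG.act).h0 f : Additive Ωˣ)) : Ωˣ) : Ω) =
      algebraMap hG.E Ω (Algebra.norm hG.E (⟨_, h⟩ : (hG.E)⟮β⟯)) := by
  have hf : ∀ g x, (f : ZMod p → Additive Ωˣ) (x + (χ : G → ZMod p) g) =
      hG.act g ((f : ZMod p → Additive Ωˣ) x) := fun g x => mem_H0_mapAct.1 f.2 g x
  set y : Ω := ((Additive.toMul ((f : ZMod p → Additive Ωˣ) 0) : Ωˣ) : Ω) with hy
  have hchi : ∀ g, hG.j g β = β → (χ : G → ZMod p) g = 0 := by
    intro g hgb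
    rw [hg] at hgb
    have h4 := (mul_eq_right₀ hKD.ne_zero).1 hgb
    rw [hζE.pow_eq_one_iff_dvd] at h4
    exact (ZMod.val_eq_zero _).1 (Nat.eq_zero_of_dvd_of_lt h4 (ZMod.val_lt _))
  have hmem : y ∈ (hG.E)⟮β⟯ := by
    rw [← InfiniteGalois.fixedField_fixingSubgroup (hG.E)⟮β⟯, IntermediateField.mem_fixedField_iff]
    intro τ hτ
    obtain ⟨g, hgτ⟩ := hG.exists_jE τ
    have h1 : hG.j g β = β := by
      rw [hgτ]; exact hτ ⟨β, mem_adjoin_simple_self _ β⟩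
    have h2 := hf g 0
    rw [hchi g h1, zero_add] at h2
    have h3 := congrArg (fun a => ((Additive.toMul a : Ωˣ) : Ω)) h2
    rw [← hgτ]
    exact h3.symm
  refine ⟨hmem, ?_⟩
  have hσ : hG.jE g1 β = algebraMap hG.E Ω ζE * β := by
    rw [jE_apply, hg, hg1, ZMod.val_one, pow_one]; rfl
  rw [hKD.norm_eq hσ]
  have hchin : ∀ n : ℕ, (χ : G → ZMod p) (g1 ^ n) = n := by
    intro n
    induction n with
    | zero => simp [chi_one]
    | succ n ih => rw [pow_succ, chi_mul, ih, hg1]; push_cast; ring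
  have hfn : ∀ n : ℕ, (f : ZMod p → Additive Ωˣ) (n : ZMod p) =
      hG.act (g1 ^ n) ((f : ZMod p → Additive Ωˣ) 0) := by
    intro n
    rw [← hf, hchin, zero_add]
  have hsum : ((sumHom (xi χ) hG.act).h0 f : Additive Ωˣ) =
      ∑ i ∈ Finset.range p, hG.act (g1 ^ i) ((f : ZMod p → Additive Ωˣ) 0) := by
    show ∑ x, (f : ZMod p → Additive Ωˣ) x = _
    obtain ⟨n, hn⟩ : ∃ n, n + 1 = p := ⟨p - 1, Nat.succ_pred_eq_of_pos hp.out.pos⟩
    rw [← sum_val_eq _ n hn, hn]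
    exact Finset.sum_congr rfl fun i _ => hfn i
  rw [hsum, toMul_sum, Units.coe_prod]
  refine Finset.prod_congr rfl fun i _ => ?_
  rw [jE_pow]
  rfl

omit [IsAlgClosed Ω] hζ hfix in
/-- The norm group in terms of `Map(X', -)`. -/
lemma norm_comap {χ : Chi p L} (hχ : χ ≠ 0) {ζE aE : hG.E} {β : Ω}
    (hKD : KD ζE aE β p) (hζE : IsPrimitiveRoot (ζE : Ω) p)
    (hg : ∀ g, hG.j g β = (ζE : Ω) ^ ((χ : G → ZMod p) g).val * β) :
    (((sumHom (xi χ) hG.act).h0).range).comap hG.eH0 =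
      Subgroup.toAddSubgroup (normU hG.E (hG.E)⟮β⟯).range := by
  obtain ⟨g1, hg1⟩ := chi_surjective hχ 1
  have hfd := hKD.finiteDimensional
  ext x
  rw [AddSubgroup.mem_comap]
  constructor
  · rintro ⟨f, hf⟩
    obtain ⟨hmem, heq⟩ := hG.sum_eq_norm hKD hζE hg g1 hg1 f
    rw [hf] at heq
    have h0 : (⟨_, hmem⟩ : (hG.E)⟮β⟯) ≠ 0 := by
      intro h0
      exact (Additive.toMul ((f : ZMod p → Additive Ωˣ) 0) : Ωˣ).ne_zero
        (congrArg Subtype.val h0)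
    refine ⟨Units.mk0 _ h0, ?_⟩
    apply Units.ext
    apply Subtype.ext
    rw [normU_coe, Units.val_mk0]
    exact heq.symm
  · rintro ⟨y, hy⟩
    have hy1 : ∀ u : stab (xi χ) 0, hG.j (u : G) ((y : (hG.E)⟮β⟯) : Ω) = (y : (hG.E)⟮β⟯) := by
      intro u
      have h1 : hG.j (u : G) β = β := by
        rw [hg, (mem_stab_xi χ).1 u.2, ZMod.val_zero, pow_zero, one_mul]
      have h2 : hG.jE u ∈ ((hG.E)⟮β⟯).fixingSubgroup := by
        rw [IntermediateField.mem_fixingSubgroup_iff]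
        intro x hx
        have h3 : (hG.E)⟮β⟯ ≤ fixedField (Subgroup.zpowers (hG.jE u)) := by
          rw [adjoin_simple_le_iff, IntermediateField.mem_fixedField_iff]
          intro τ hτ
          have h4 : hG.jE u ∈ MulAction.stabilizer (Ω ≃ₐ[hG.E] Ω) β := h1
          have h5 : Subgroup.zpowers (hG.jE u) ≤ MulAction.stabilizer (Ω ≃ₐ[hG.E] Ω) β := by
            rw [Subgroup.zpowers_le]; exact h4
          exact h5 hτ
        exact (IntermediateField.mem_fixedField_iff _ _).1 (h3 hx) _ (Subgroup.mem_zpowers _)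
      exact h2 (y : (hG.E)⟮β⟯)
    have hy0 : ((y : (hG.E)⟮β⟯) : Ω) ≠ 0 := fun h0 => y.ne_zero (Subtype.ext h0)
    obtain ⟨f, hf⟩ := (sh_h0_bijective (L := L) (ρ := hG.act) (isTrans_xi hχ)).2
      ⟨Additive.ofMul (Units.mk0 _ hy0), by
        rw [mem_H0]
        intro u
        apply Additive.toMul.injective
        apply Units.ext
        exact hy1 u⟩
    refine ⟨f, ?_⟩
    have hf0 : (f : ZMod p → Additive Ωˣ) 0 = Additive.ofMul (Units.mk0 _ hy0) :=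
      congrArg Subtype.val hf
    obtain ⟨hmem, heq⟩ := hG.sum_eq_norm hKD hζE hg g1 hg1 f
    apply Subtype.ext
    apply Additive.toMul.injective
    apply Units.ext
    rw [heq, eH0_coe]
    have h6 : (⟨_, hmem⟩ : (hG.E)⟮β⟯) = y := by
      apply Subtype.ext
      show ((Additive.toMul ((f : ZMod p → Additive Ωˣ) 0) : Ωˣ) : Ω) = _
      rw [hf0]; rfl
    rw [h6]
    have h7 := congrArg (fun t : hG.Eˣ => ((t : hG.E) : Ω)) hy
    rw [normU_coe] at h7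
    exact h7

end LGal

end Fermat.Agent.PTLocal
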