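import Fermat.Agent.PTLocal.Cyclic

/-!
# The abstract local theorem

From Hilbert 90 and the norm index `p` we deduce the structure of `H²(G, ℤ/p)`.
-/

set_option autoImplicit false

namespace Fermat.Agent.PTLocal

open Fermat.Agent.PT

section T

variable {p : ℕ} [hp : Fact p.Prime] {G : Type*} [Group G] (L : Levels G)

/-- the multiplication pairing -/
def mulP (p : ℕ) (G : Type*) [Group G] :
    Pairing (trivAct G (ZMod p)) (trivAct G (ZMod p)) (trivAct G (ZMod p)) where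
  m := AddMonoidHom.mul
  comm _ _ _ := rfl

/-- cup product `H¹(𝔽_p) × H¹(𝔽_p) → H²(𝔽_p)` -/
def cupT (p : ℕ) {G : Type*} [Group G] (L : Levels G) :
    H1 L (trivAct G (ZMod p)) →+ H1 L (trivAct G (ZMod p)) →+ H2 L (trivAct G (ZMod p)) :=
  (mulP p G).cup (smooth_trivAct L)

lemma cupT_anti (x y : H1 L (trivAct G (ZMod p))) : cupT p L x y = - cupT p L y x := by
  have h := (mulP p G).cup_flip (smooth_trivAct L) (smooth_trivAct L) x y
  have h2 : (mulP p G).flip = mulP p G := by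
    unfold Pairing.flip mulP
    congr 1
    ext a
    exact mul_comm _ _
  rw [h2] at h
  exact eq_neg_of_add_eq_zero_left h

lemma chi_mk_eq_zero {L : Levels G} {χ : Chi p L} : H1.mk L _ χ = 0 ↔ χ = 0 := by
  rw [H1.mk_eq_zero]
  constructor
  · rintro ⟨a, ha⟩
    apply Subtype.ext
    rw [← ha]
    ext g
    rw [d0_apply, trivAct_apply, sub_self]; rfl
  · rintro rfl
    exact ⟨0, by simp⟩

lemma chi_mk_injective {L : Levels G} : Function.Injective (H1.mk L (trivAct G (ZMod p))) := by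
  rw [injective_iff_map_eq_zero]
  exact fun _ h => chi_mk_eq_zero.1 h

/-- restriction for trivial coefficients -/
def resT (p : ℕ) {G : Type*} [Group G] (L : Levels G) (U : Subgroup G) :
    PairHom L (trivAct G (ZMod p)) (L.sub U) (trivAct U (ZMod p)) :=
  resPair L (trivAct G (ZMod p)) U

/-- Shapiro for trivial coefficients -/
def shT (p : ℕ) {G : Type*} [Group G] (L : Levels G) {X : Type*} (ξ : G →* Equiv.Perm X)
    (x₀ : X) : PairHom L (mapAct ξ (trivAct G (ZMod p))) (L.sub (stab ξ x₀))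
      (trivAct (stab ξ x₀) (ZMod p)) :=
  shPair L ξ (trivAct G (ZMod p)) x₀

lemma resT_cup (U : Subgroup G) (x y : H1 L (trivAct G (ZMod p))) :
    (resT p L U).h2 (cupT p L x y) = cupT p (L.sub U) ((resT p L U).h1 x) ((resT p L U).h1 y) :=
  Pairing.cup_nat _ (mulP p U) _ (smooth_trivAct _) (resT p L U) (resT p L U) (resT p L U)
    (fun _ => rfl) (fun _ => rfl) (fun _ _ => rfl) x y

lemma shT_const {X : Type*} (ξ : G →* Equiv.Perm X) (x₀ : X) (x : H2 L (trivAct G (ZMod p))) :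
    (shT p L ξ x₀).h2 ((constHom ξ (trivAct G (ZMod p))).h2 L x) =
      (resT p L (stab ξ x₀)).h2 x := by
  rw [EHom.h2, ← PairHom.h2_comp]
  exact PairHom.h2_congr (fun _ => rfl) (fun _ => rfl) x

lemma shT_const1 {X : Type*} (ξ : G →* Equiv.Perm X) (x₀ : X) (x : H1 L (trivAct G (ZMod p))) :
    (shT p L ξ x₀).h1 ((constHom ξ (trivAct G (ZMod p))).h1 L x) =
      (resT p L (stab ξ x₀)).h1 x := by
  rw [EHom.h1, ← PairHom.h1_comp]
  exact PairHom.h1_congr (fun _ => rfl) (fun _ => rfl) x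

variable {L}

lemma p_nsmul_h2 (x : H2 L (trivAct G (ZMod p))) : p • x = 0 := by
  obtain ⟨f, rfl⟩ := H2.mk_surjective _ _ x
  rw [← map_nsmul]
  have : p • f = 0 := by
    apply Subtype.ext
    ext g h
    show p • (f : G → G → ZMod p) g h = 0
    rw [nsmul_eq_mul, CharP.cast_eq_zero, zero_mul]
  rw [this, map_zero]

lemma p_nsmul_h1 (x : H1 L (trivAct G (ZMod p))) : p • x = 0 := by
  obtain ⟨f, rfl⟩ := H1.mk_surjective _ _ x
  rw [← map_nsmul]
  have : p • f = 0 := by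
    apply Subtype.ext
    ext g
    show p • (f : G → ZMod p) g = 0
    rw [nsmul_eq_mul, CharP.cast_eq_zero, zero_mul]
  rw [this, map_zero]

/-- prime-to-`p` descent -/
lemma eq_zero_of_res {X : Type*} [Fintype X] {ξ : G →* Equiv.Perm X} {x₀ : X}
    (hξ : LevelTrivial L ξ) (ht : IsTrans ξ x₀) (hX : ¬ p ∣ Fintype.card X)
    (x : H2 L (trivAct G (ZMod p))) (hx : (resT p L (stab ξ x₀)).h2 x = 0) : x = 0 := by
  rw [← shT_const] at hx
  have h1 : (constHom ξ (trivAct G (ZMod p))).h2 L x = 0 :=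
    (sh_h2_bijective hξ (smooth_trivAct L) ht).1 (hx.trans (map_zero _).symm)
  have h2 : (sumHom ξ (trivAct G (ZMod p))).h2 L
      ((constHom ξ (trivAct G (ZMod p))).h2 L x) = Fintype.card X • x := by
    rw [← EHom.h2_comp]
    refine EHom.h2_nsmul L (fun a => ?_) x
    show ∑ _x : X, a = _
    rw [Finset.sum_const, Finset.card_univ]
  rw [h1, map_zero] at h2
  have h3 : p • x = 0 := p_nsmul_h2 x
  have hcop : Nat.Coprime p (Fintype.card X) := (hp.out.coprime_iff_not_dvd).2 hX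
  obtain ⟨a, b, hab⟩ : ∃ a b : ℤ, a * p + b * Fintype.card X = 1 :=
    Int.isCoprime_iff_gcd_eq_one.2 (by exact_mod_cast hcop :
      Int.gcd (p : ℤ) (Fintype.card X : ℤ) = 1)
  rw [← one_zsmul x, ← hab, add_zsmul, mul_zsmul, mul_zsmul, natCast_zsmul, natCast_zsmul, h3,
    ← h2, smul_zero, smul_zero, add_zero]

end T

section LLsec

variable {p : ℕ} [hp : Fact p.Prime] {G : Type*} [Group G] {L : Levels G} {A : Type*}
  [AddCommGroup A] {ρ : Act G A} {K : SES (trivAct G (ZMod p)) ρ ρ}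

/-- "local-like" data: Kummer sequence, Hilbert 90, norm index `p`. -/
structure LL (p : ℕ) [Fact p.Prime] {G : Type*} [Group G] (L : Levels G) {A : Type*}
    [AddCommGroup A] (ρ : Act G A) (K : SES (trivAct G (ZMod p)) ρ ρ) : Prop where
  smooth : Smooth L ρ
  pow : ∀ a, K.p.f a = p • a
  h90 : ∀ x : H1 L ρ, x = 0
  h90' : ∀ χ : Chi p L, χ ≠ 0 → ∀ x : H1 L (mapAct (xi χ) ρ), x = 0
  card : p ^ 2 ≤ Nat.card (H1 L (trivAct G (ZMod p)))
  norm : ∀ χ : Chi p L, χ ≠ 0 → ((sumHom (xi χ) ρ).h0).range.index = p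

variable (h : LL p L ρ K)

include h

lemma LL.kappa_surj : Function.Surjective (K.δ0 h.smooth) := by
  intro x
  exact (K.exact_H1_left h.smooth x).1 (h.h90 _)

lemma LL.i_inj : Function.Injective (K.i.h2 L) := by
  rw [injective_iff_map_eq_zero]
  intro x hx
  obtain ⟨y, rfl⟩ := (K.exact_H2_left h.smooth x).1 hx
  rw [h.h90 y, map_zero]

lemma LL.i_cup (b : H0 ρ) (χ : Chi p L) :
    K.i.h2 L (cupT p L (K.δ0 h.smooth b) (H1.mk L _ χ)) = cycδ h.smooth χ b := by
  obtain ⟨β, a, hβ, ha, hδ⟩ := K.exists_δ0 h.smooth b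
  rw [hδ, cycδ_apply, cupT, Pairing.cup_mk, EHom.h2, PairHom.h2_mk, ← sub_eq_zero, ← map_sub]
  refine H2.mk_eq_zero.2 ⟨fun g => ((χ : G → ZMod p) g).val • β,
    IsLC₁.comp χ.2.1 (fun y => y.val • β), ?_⟩
  ext g g'
  rw [d1_apply, chi_mul, map_nsmul]
  have h1 : ρ g β = β + K.i.f ((a : G → ZMod p) g) := by
    rw [ha, d0_apply]; abel
  have h2 := val_add_cases ((χ : G → ZMod p) g) ((χ : G → ZMod p) g')
  rw [h1]
  show _ = K.i.f ((a : G → ZMod p) g * (χ : G → ZMod p) g') -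
    -(carry ((χ : G → ZMod p) g) ((χ : G → ZMod p) g') • (b : A))
  have h3 : (a : G → ZMod p) g * (χ : G → ZMod p) g' =
      ((χ : G → ZMod p) g').val • (a : G → ZMod p) g := by
    rw [nsmul_eq_mul, ZMod.natCast_val, ZMod.cast_id', id, mul_comm]
  rw [h3, map_nsmul, ← hβ, h.pow, smul_add]
  have h4 : ((((χ : G → ZMod p) g + (χ : G → ZMod p) g').val : ℕ) : ℤ) • β =
    ((((χ : G → ZMod p) g).val : ℤ) + ((χ : G → ZMod p) g').val -
      p * carry ((χ : G → ZMod p) g) ((χ : G → ZMod p) g')) • β := by rw [h2]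
  rw [natCast_zsmul, sub_smul, add_smul, natCast_zsmul, natCast_zsmul, mul_comm, mul_smul,
    natCast_zsmul] at h4
  rw [h4]
  abel

/-- `κ_b ∪ χ = 0` iff `b` is a norm -/
lemma LL.cup_eq_zero {χ : Chi p L} (hχ : χ ≠ 0) (b : H0 ρ) :
    cupT p L (K.δ0 h.smooth b) (H1.mk L _ χ) = 0 ↔ b ∈ ((sumHom (xi χ) ρ).h0).range := by
  rw [← (injective_iff_map_eq_zero' _).1 h.i_inj, h.i_cup, cycδ_eq_zero _ _ (h.h90' χ hχ)]
  rfl

/-- classes killed in `Map(X', -)` are cup products -/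
lemma LL.exists_cup {χ : Chi p L} (hχ : χ ≠ 0) (x : H2 L (trivAct G (ZMod p)))
    (hx : (constHom (xi χ) _).h2 L x = 0) : ∃ κ, cupT p L κ (H1.mk L _ χ) = x := by
  have h1 : (constHom (xi χ) ρ).h2 L (K.i.h2 L x) = 0 := by
    have h2 : ((K.mapX (xi χ)).i.h2 L) ((constHom (xi χ) _).h2 L x) = 0 := by
      rw [hx, map_zero]
    rw [← h2, ← EHom.h2_comp, ← EHom.h2_comp]
    exact EHom.h2_congr L (fun a => rfl) x
  obtain ⟨b, hb⟩ := exists_cycδ h.smooth χ (h.h90' χ hχ) _ h1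
  refine ⟨K.δ0 h.smooth b, h.i_inj ?_⟩
  rw [h.i_cup, hb]

/-- the map `κ ↦ κ ∪ χ` -/
def Rm (p : ℕ) {G : Type*} [Group G] (L : Levels G) (y : H1 L (trivAct G (ZMod p))) :
    H1 L (trivAct G (ZMod p)) →+ H2 L (trivAct G (ZMod p)) :=
  (cupT p L).flip y

omit hp h in
lemma Rm_apply [Fact p.Prime] (x y : H1 L (trivAct G (ZMod p))) :
    Rm p L y x = cupT p L x y := rfl

lemma LL.index_ker {y : H1 L (trivAct G (ZMod p))} (hy : y ≠ 0) : (Rm p L y).ker.index = p := by
  obtain ⟨χ, rfl⟩ := H1.mk_surjective _ _ y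
  have hχ : χ ≠ 0 := fun h0 => hy (by rw [h0, map_zero])
  refine Eq.trans ?_ (h.norm χ hχ)
  rw [← AddSubgroup.index_comap_of_surjective _ h.kappa_surj]
  congr 1
  ext b
  rw [AddSubgroup.mem_comap, AddMonoidHom.mem_ker, Rm_apply, h.cup_eq_zero hχ]

lemma LL.card_range {y : H1 L (trivAct G (ZMod p))} (hy : y ≠ 0) :
    Nat.card (Rm p L y).range = p := by
  rw [← AddSubgroup.index_ker, h.index_ker hy]

end LLsec

section grp

variable {p : ℕ} [hp : Fact p.Prime] {H M : Type*} [AddCommGroup H] [AddCommGroup M]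

lemma exists_notMem_two (S T : AddSubgroup H) (hS : S ≠ ⊤) (hT : T ≠ ⊤) :
    ∃ x, x ∉ S ∧ x ∉ T := by
  obtain ⟨a, ha⟩ : ∃ a, a ∉ S := by
    by_contra hcon; push Not at hcon; exact hS (eq_top_iff.2 fun x _ => hcon x)
  obtain ⟨b, hb⟩ : ∃ b, b ∉ T := by
    by_contra hcon; push Not at hcon; exact hT (eq_top_iff.2 fun x _ => hcon x)
  by_cases haT : a ∈ T
  · by_cases hbS : b ∈ S
    · refine ⟨a + b, fun h1 => ha ?_, fun h1 => hb ?_⟩
      · have := S.sub_mem h1 hbS; rwa [add_sub_cancel_right] at this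
      · have := T.sub_mem h1 haT; rwa [add_sub_cancel_left] at this
    · exact ⟨b, hbS, hb⟩
  · exact ⟨a, ha, haT⟩

lemma eq_zmultiples_of_card {S : AddSubgroup M} (hS : Nat.card S = p) {x : M} (hx : x ∈ S)
    (hx0 : x ≠ 0) : AddSubgroup.zmultiples x = S := by
  have hle : AddSubgroup.zmultiples x ≤ S := by
    rw [AddSubgroup.zmultiples_le]; exact hx
  have hfin : Finite S := Nat.finite_of_card_ne_zero (by rw [hS]; exact hp.out.ne_zero)
  have hdvd : Nat.card (AddSubgroup.zmultiples x) ∣ p := by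
    rw [← hS]; exact AddSubgroup.card_dvd_of_le hle
  rcases (Nat.dvd_prime hp.out).1 hdvd with h1 | h1
  · exfalso
    apply hx0
    have h2 := AddSubgroup.card_eq_one.1 h1
    exact AddSubgroup.zmultiples_eq_bot.1 h2
  · exact AddSubgroup.eq_of_le_of_card_ge hle (by rw [h1, hS])

lemma eq_of_card_of_mem {S T : AddSubgroup M} (hS : Nat.card S = p) (hT : Nat.card T = p)
    {x : M} (hx : x ∈ S) (hx' : x ∈ T) (hx0 : x ≠ 0) : S = T := by
  rw [← eq_zmultiples_of_card hS hx hx0, eq_zmultiples_of_card hT hx' hx0]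

lemma eq_of_index_prime {S T : AddSubgroup M} (hS : S.index = p) (hST : S ≤ T) (hT : T ≠ ⊤) :
    S = T := by
  have h1 := AddSubgroup.relIndex_mul_index hST
  rw [hS] at h1
  have h2 : T.index ∣ p := ⟨_, by rw [mul_comm]; exact h1.symm⟩
  rcases (Nat.dvd_prime hp.out).1 h2 with h3 | h3
  · exact absurd (AddSubgroup.index_eq_one.1 h3) hT
  · rw [h3] at h1
    have h4 : S.relIndex T = 1 := by
      have := hp.out.pos
      exact Nat.eq_of_mul_eq_mul_right this (by rw [h1, one_mul])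
    exact le_antisymm hST (AddSubgroup.relIndex_eq_one.1 h4)

lemma ne_top_of_index {S : AddSubgroup M} (hS : S.index = p) : S ≠ ⊤ := by
  rintro rfl
  rw [AddSubgroup.index_top] at hS
  exact hp.out.one_lt.ne hS

end grp

section LLsec2

variable {p : ℕ} [hp : Fact p.Prime] {G : Type*} [Group G] {L : Levels G} {A : Type*}
  [AddCommGroup A] {ρ : Act G A} {K : SES (trivAct G (ZMod p)) ρ ρ}

/-- classes which are cup products -/
def IsCup (p : ℕ) {G : Type*} [Group G] (L : Levels G) (x : H2 L (trivAct G (ZMod p))) : Prop :=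
  ∃ κ χ, cupT p L κ χ = x

variable (h : LL p L ρ K)

include h

lemma LL.range_eq {y y' : H1 L (trivAct G (ZMod p))} (hy : y ≠ 0) (hy' : y' ≠ 0) :
    (Rm p L y).range = (Rm p L y').range := by
  have key : ∀ {y x : H1 L (trivAct G (ZMod p))}, y ≠ 0 → x ∉ (Rm p L y).ker →
      (Rm p L y).range = (Rm p L x).range := by
    intro y x hy hx
    have hx0 : x ≠ 0 := by
      rintro rfl
      exact hx (AddSubgroup.zero_mem _)
    refine eq_of_card_of_mem (h.card_range hy) (h.card_range hx0) (x := cupT p L x y)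
      ⟨x, rfl⟩ ?_ hx
    rw [cupT_anti]
    exact AddSubgroup.neg_mem _ ⟨y, rfl⟩
  obtain ⟨x, hx, hx'⟩ := exists_notMem_two _ _ (ne_top_of_index (h.index_ker hy))
    (ne_top_of_index (h.index_ker hy'))
  rw [key hy hx, key hy' hx']

lemma LL.isCup_iff {y : H1 L (trivAct G (ZMod p))} (hy : y ≠ 0) (x : H2 L (trivAct G (ZMod p))) :
    IsCup p L x ↔ x ∈ (Rm p L y).range := by
  constructor
  · rintro ⟨κ, χ, rfl⟩
    by_cases hχ : χ = 0
    · rw [hχ, map_zero]; exact AddSubgroup.zero_mem _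
    · rw [h.range_eq hy hχ]
      exact ⟨κ, rfl⟩
  · rintro ⟨κ, rfl⟩
    exact ⟨κ, y, rfl⟩

lemma LL.exists_ne : ∃ y : H1 L (trivAct G (ZMod p)), y ≠ 0 := by
  by_contra hcon
  push Not at hcon
  have h1 := h.card
  have h2 : Nat.card (H1 L (trivAct G (ZMod p))) ≤ 1 := by
    have : Subsingleton (H1 L (trivAct G (ZMod p))) := ⟨fun a b => by rw [hcon a, hcon b]⟩
    exact Finite.card_le_one_iff_subsingleton.2 this
  have := hp.out.one_lt
  nlinarith

lemma LL.exists_notMem_zmultiples (y : H1 L (trivAct G (ZMod p))) :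
    ∃ y', y' ∉ AddSubgroup.zmultiples y := by
  by_contra hcon
  push Not at hcon
  have h1 := h.card
  have htop : AddSubgroup.zmultiples y = ⊤ := eq_top_iff.2 fun x _ => hcon x
  have h2 : Nat.card (AddSubgroup.zmultiples y) = Nat.card (H1 L (trivAct G (ZMod p))) := by
    rw [htop, AddSubgroup.card_top]
  rw [Nat.card_zmultiples] at h2
  have h3 : addOrderOf y ∣ p := addOrderOf_dvd_of_nsmul_eq_zero (p_nsmul_h1 y)
  have h4 := Nat.le_of_dvd hp.out.pos h3
  have := hp.out.one_lt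
  nlinarith

/-- nondegeneracy: distinct lines have distinct orthogonals -/
lemma LL.mem_zmultiples {y y' : H1 L (trivAct G (ZMod p))} (hy : y ≠ 0) (hy' : y' ≠ 0)
    (hle : (Rm p L y).ker ≤ (Rm p L y').ker) : y' ∈ AddSubgroup.zmultiples y := by
  have heq := eq_of_index_prime (h.index_ker hy) hle (ne_top_of_index (h.index_ker hy'))
  obtain ⟨κ, hκ⟩ : ∃ κ, κ ∉ (Rm p L y).ker := by
    by_contra hcon; push Not at hcon
    exact ne_top_of_index (h.index_ker hy) (eq_top_iff.2 fun x _ => hcon x)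
  have hκy : cupT p L κ y ≠ 0 := hκ
  have hκ0 : κ ≠ 0 := by
    rintro rfl
    exact hκy (by rw [map_zero]; rfl)
  have h1 : cupT p L κ y ∈ (Rm p L κ).range := by
    rw [cupT_anti]; exact AddSubgroup.neg_mem _ ⟨y, rfl⟩
  have h2 : cupT p L κ y' ∈ (Rm p L κ).range := by
    rw [cupT_anti]; exact AddSubgroup.neg_mem _ ⟨y', rfl⟩
  rw [← eq_zmultiples_of_card (h.card_range hκ0) h1 hκy] at h2
  obtain ⟨n, hn⟩ := AddSubgroup.mem_zmultiples_iff.1 h2
  refine AddSubgroup.mem_zmultiples_iff.2 ⟨n, ?_⟩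
  by_contra hne
  have hz : y' - n • y ≠ 0 := fun h0 => hne (sub_eq_zero.1 h0).symm
  have h3 : (Rm p L y).ker ≤ (Rm p L (y' - n • y)).ker := by
    intro x hx
    have hx' := hle hx
    rw [AddMonoidHom.mem_ker, Rm_apply] at hx hx' ⊢
    rw [map_sub, map_zsmul, hx, hx', smul_zero, sub_zero]
  have h4 := eq_of_index_prime (h.index_ker hy) h3 (ne_top_of_index (h.index_ker hz))
  apply hκ
  rw [h4, AddMonoidHom.mem_ker, Rm_apply, map_sub, map_zsmul, hn, sub_self]

/-- `LOCDUAL` -/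
lemma LL.exists_cup_ne {y : H1 L (trivAct G (ZMod p))} (hy : y ≠ 0) :
    ∃ x, cupT p L y x ≠ 0 := by
  obtain ⟨κ, hκ⟩ : ∃ κ, κ ∉ (Rm p L y).ker := by
    by_contra hcon; push Not at hcon
    exact ne_top_of_index (h.index_ker hy) (eq_top_iff.2 fun x _ => hcon x)
  refine ⟨κ, fun h0 => hκ ?_⟩
  rw [AddMonoidHom.mem_ker, Rm_apply, cupT_anti, h0, neg_zero]

end LLsec2

end Fermat.Agent.PTLocal
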