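import Fermat.Agent.PTLocal.LocalUnits

/-!
# The index `[O : pO]` for finite extensions of `ℚ_q`
-/

set_option autoImplicit false

namespace Fermat.Agent.PTLocal

open AddSubgroup Metric

section diff

variable (K : Type*) [NontriviallyNormedField K] [IsUltrametricDist K]

/-- `[O : pO] = 1` if `|p| = 1`. -/
lemma dlt_eq_one {p : ℕ} (hp : ‖(p : K)‖ = 1) : dlt K p = 1 := by
  have hp0 : (p : K) ≠ 0 := by
    intro h; rw [h, norm_zero] at hp; exact zero_ne_one hp
  unfold dlt cc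
  have : (OO K).map (pmul K p) = OO K := by
    ext x
    constructor
    · rintro ⟨y, hy, rfl⟩
      have hy' : ‖y‖ ≤ 1 := hy
      change ‖p • y‖ ≤ 1
      rw [nsmul_eq_mul, norm_mul, hp, one_mul]
      exact hy'
    · intro hx
      have hx' : ‖x‖ ≤ 1 := hx
      refine ⟨x / p, ?_, ?_⟩
      · change ‖x / p‖ ≤ 1
        rw [norm_div, hp, div_one]; exact hx'
      · rw [pmul_apply, nsmul_eq_mul]; field_simp
  rw [this, AddSubgroup.relIndex_self]

end diff

section same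

variable (p : ℕ) [hp : Fact p.Prime]

/-- `[ℤ_p : pℤ_p] = p`. -/
lemma index_padicInt : ((⊤ : AddSubgroup ℤ_[p]).map (pmul ℤ_[p] p)).index = p := by
  have h1 : (⊤ : AddSubgroup ℤ_[p]).map (pmul ℤ_[p] p) =
      (PadicInt.toZMod (p := p) : ℤ_[p] →+* ZMod p).toAddMonoidHom.ker := by
    ext x
    have h2 : x ∈ (PadicInt.toZMod (p := p) : ℤ_[p] →+* ZMod p).toAddMonoidHom.ker ↔
        x ∈ RingHom.ker (PadicInt.toZMod (p := p)) := Iff.rfl
    rw [h2, PadicInt.ker_toZMod, PadicInt.maximalIdeal_eq_span_p, Ideal.mem_span_singleton']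
    constructor
    · rintro ⟨y, _, rfl⟩
      exact ⟨y, by rw [pmul_apply, nsmul_eq_mul, mul_comm]⟩
    · rintro ⟨y, rfl⟩
      exact ⟨y, trivial, by rw [pmul_apply, nsmul_eq_mul, mul_comm]⟩
  rw [h1, AddSubgroup.index_ker]
  have h3 : (PadicInt.toZMod (p := p) : ℤ_[p] →+* ZMod p).toAddMonoidHom.range = ⊤ := by
    rw [AddMonoidHom.range_eq_top]
    exact ZMod.ringHom_surjective _
  rw [h3, AddSubgroup.card_top, Nat.card_zmod]

variable (K : Type*) [NontriviallyNormedField K] [IsUltrametricDist K] [ProperSpace K]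
  [NormedAlgebra ℚ_[p] K] [FiniteDimensional ℚ_[p] K]

/-- **Lattice index**: `[O : pO] = p ^ [K : ℚ_p]`. -/
theorem dlt_eq_pow : dlt K p = p ^ Module.finrank ℚ_[p] K := by
  set d := Module.finrank ℚ_[p] K with hd
  have hnp : ‖(p : K)‖ = (p : ℝ)⁻¹ := by
    have h1 : (p : K) = algebraMap ℚ_[p] K (p : ℚ_[p]) := by simp
    rw [h1, norm_algebraMap', Padic.norm_p]
  have hp1 : (1 : ℝ) < p := by exact_mod_cast hp.out.one_lt
  have hpK0 : (p : K) ≠ 0 := by
    rw [← norm_pos_iff, hnp]; positivity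
  have hcz : ∀ x : K, p • x = 0 → x = 0 := by
    intro x hx
    rw [nsmul_eq_mul] at hx
    rcases mul_eq_zero.mp hx with h | h
    · exact absurd h hpK0
    · exact h
  let b : Module.Basis (Fin d) ℚ_[p] K := Module.finBasis ℚ_[p] K
  -- scaling
  obtain ⟨N, hN⟩ : ∃ N : ℕ, ∀ i, ‖((p : K) ^ N) * b i‖ ≤ 1 := by
    have h1 : ∀ i, ∃ N : ℕ, ∀ M ≥ N, ‖((p : K) ^ M) * b i‖ ≤ 1 := by
      intro i
      obtain ⟨N, hN⟩ := pow_unbounded_of_one_lt (‖b i‖) hp1
      refine ⟨N, fun M hM => ?_⟩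
      rw [norm_mul, norm_pow, hnp, inv_pow, inv_mul_le_iff₀ (by positivity), mul_one]
      exact hN.le.trans (pow_le_pow_right₀ hp1.le hM)
    choose f hf using h1
    exact ⟨Finset.univ.sup f, fun i => hf i _ (Finset.le_sup (Finset.mem_univ i))⟩
  have hpN0 : ((p : K) ^ N) ≠ 0 := pow_ne_zero _ hpK0
  -- coordinates are continuous
  obtain ⟨C, hC0, hC⟩ : ∃ C : ℝ, 0 < C ∧ ∀ x : K, ∀ i, ‖b.repr x i‖ ≤ C * ‖x‖ := by
    have h1 : ∀ i, ∃ C : ℝ, 0 < C ∧ ∀ x : K, ‖b.repr x i‖ ≤ C * ‖x‖ := by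
      intro i
      let l : K →ₗ[ℚ_[p]] ℚ_[p] := b.coord i
      let L : K →L[ℚ_[p]] ℚ_[p] := LinearMap.toContinuousLinearMap l
      refine ⟨‖L‖ + 1, by positivity, fun x => ?_⟩
      calc ‖b.repr x i‖ = ‖L x‖ := rfl
        _ ≤ ‖L‖ * ‖x‖ := L.le_opNorm x
        _ ≤ (‖L‖ + 1) * ‖x‖ := mul_le_mul_of_nonneg_right (by linarith) (norm_nonneg _)
    choose C hC0 hC using h1
    refine ⟨∑ i, C i + 1, ?_, ?_⟩
    · have : 0 ≤ ∑ i, C i := Finset.sum_nonneg (fun i _ => (hC0 i).le)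
      linarith
    · intro x i
      have h2 : C i ≤ ∑ i, C i :=
        Finset.single_le_sum (f := C) (fun i _ => (hC0 i).le) (Finset.mem_univ i)
      exact (hC i x).trans (mul_le_mul_of_nonneg_right (by linarith) (norm_nonneg _))
  -- the lattice
  let g : (Fin d → ℤ_[p]) →+ K :=
    { toFun := fun x => ∑ i, algebraMap ℚ_[p] K (x i : ℚ_[p]) * (((p : K) ^ N) * b i)
      map_zero' := by simp
      map_add' := by
        intro x y
        rw [← Finset.sum_add_distrib]
        refine Finset.sum_congr rfl (fun i _ => ?_)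
        simp only [Pi.add_apply, PadicInt.coe_add, map_add]
        ring }
  have hgrepr : ∀ x : Fin d → ℤ_[p], g x =
      (p : K) ^ N * ∑ i, (x i : ℚ_[p]) • b i := by
    intro x
    change ∑ i, algebraMap ℚ_[p] K (x i : ℚ_[p]) * (((p : K) ^ N) * b i) = _
    rw [Finset.mul_sum]
    refine Finset.sum_congr rfl (fun i _ => ?_)
    rw [Algebra.smul_def]; ring
  have hginj : Function.Injective g := by
    rw [injective_iff_map_eq_zero]
    intro x hx
    rw [hgrepr] at hx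
    have h1 : ∑ i, (x i : ℚ_[p]) • b i = 0 := by
      rcases mul_eq_zero.mp hx with h | h
      · exact absurd h hpN0
      · exact h
    have h2 := Fintype.linearIndependent_iff.mp b.linearIndependent _ h1
    funext i
    have h3 : ((x i : ℤ_[p]) : ℚ_[p]) = ((0 : ℤ_[p]) : ℚ_[p]) := by
      rw [h2 i, PadicInt.coe_zero]
    exact PadicInt.ext h3
  have hgle : (⊤ : AddSubgroup (Fin d → ℤ_[p])).map g ≤ OO K := by
    rintro _ ⟨x, _, rfl⟩
    change ‖∑ i, algebraMap ℚ_[p] K (x i : ℚ_[p]) * (((p : K) ^ N) * b i)‖ ≤ 1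
    refine IsUltrametricDist.norm_sum_le_of_forall_le_of_nonneg zero_le_one ?_
    intro i _
    rw [norm_mul, norm_algebraMap']
    exact mul_le_one₀ (PadicInt.norm_le_one (x i)) (norm_nonneg _) (hN i)
  have hfin : ((⊤ : AddSubgroup (Fin d → ℤ_[p])).map g).relIndex (OO K) ≠ 0 := by
    obtain ⟨m, hm⟩ := pow_unbounded_of_one_lt C hp1
    have hc0 : ((p : K) ^ (N + m)) ≠ 0 := pow_ne_zero _ hpK0
    have hle : Bc ((p : K) ^ (N + m)) ≤ (⊤ : AddSubgroup (Fin d → ℤ_[p])).map g := by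
      intro x hx
      have hx' : ‖x‖ ≤ ‖(p : K) ^ (N + m)‖ := hx
      set y := x / (p : K) ^ N with hy
      have hyn : ‖y‖ ≤ ((p : ℝ)⁻¹) ^ m := by
        rw [hy, norm_div, norm_pow, hnp, div_le_iff₀ (by positivity), ← pow_add, add_comm m N]
        rw [norm_pow, hnp] at hx'
        exact hx'
      have hco : ∀ i, ‖b.repr y i‖ ≤ 1 := by
        intro i
        refine (hC y i).trans ?_
        calc C * ‖y‖ ≤ C * ((p : ℝ)⁻¹) ^ m := mul_le_mul_of_nonneg_left hyn hC0.le
          _ = C / (p : ℝ) ^ m := by rw [inv_pow]; rfl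
          _ ≤ 1 := by rw [div_le_one (by positivity)]; exact hm.le
      refine ⟨fun i => ⟨b.repr y i, hco i⟩, trivial, ?_⟩
      rw [hgrepr]
      change (p : K) ^ N * ∑ i, (b.repr y i) • b i = x
      rw [b.sum_repr, hy]
      field_simp
    intro h0
    exact relIndex_Bc_ne_zero hc0 (AddSubgroup.relIndex_eq_zero_of_le_left hle h0)
  have hst : ∀ B : AddSubgroup K, B.map (pmul K p) ≤ B := by
    rintro B _ ⟨b, hb, rfl⟩
    exact B.nsmul_mem hb p
  have hkc : ∀ B : AddSubgroup K, kc (pmul K p) B = 1 := by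
    intro B
    unfold kc
    have : (pmul K p).ker = ⊥ := by
      rw [eq_bot_iff]
      intro x hx
      exact hcz x hx
    rw [this, bot_inf_eq]
    simp
  have h1 := herbrand_finite_index (pmul K p) ((⊤ : AddSubgroup (Fin d → ℤ_[p])).map g) (OO K)
    hgle (hst _) (hst _) hfin
  rw [hkc, hkc, mul_one, mul_one] at h1
  unfold dlt
  rw [h1]
  unfold cc
  have h2 : ((⊤ : AddSubgroup (Fin d → ℤ_[p])).map g).map (pmul K p) =
      (AddSubgroup.pi Set.univ (fun _ : Fin d =>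
        ((⊤ : AddSubgroup ℤ_[p]).map (pmul ℤ_[p] p)))).map g := by
    ext x
    constructor
    · rintro ⟨_, ⟨y, _, rfl⟩, rfl⟩
      refine ⟨p • y, ?_, by rw [map_nsmul]; rfl⟩
      rw [SetLike.mem_coe, AddSubgroup.mem_pi]
      intro i _
      exact ⟨y i, trivial, rfl⟩
    · rintro ⟨z, hz, rfl⟩
      rw [SetLike.mem_coe, AddSubgroup.mem_pi] at hz
      choose y _ hy using fun i => hz i trivial
      refine ⟨g y, ⟨y, trivial, rfl⟩, ?_⟩
      rw [pmul_apply, ← map_nsmul]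
      congr 1
      funext i
      exact hy i
  rw [h2, AddSubgroup.relIndex_map_map_of_injective _ _ hginj, AddSubgroup.relIndex_top_right,
    AddSubgroup.index_pi]
  simp only [index_padicInt, Finset.prod_const, Finset.card_univ, Fintype.card_fin]

end same

end Fermat.Agent.PTLocal
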