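import Fermat.Agent.PTLocal.Herbrand

/-!
# The group `Kˣ / Kˣ^p` for a local field `K` of characteristic zero
-/

set_option autoImplicit false

namespace Fermat.Agent.PTLocal

open AddSubgroup Metric

variable (K : Type*) [NontriviallyNormedField K] [IsUltrametricDist K] [ProperSpace K]

/-- the additive group of integers -/
def OO : AddSubgroup K where
  carrier := {x | ‖x‖ ≤ 1}
  add_mem' := fun {a b} ha hb => (IsUltrametricDist.norm_add_le_max a b).trans (max_le ha hb)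
  zero_mem' := by simp
  neg_mem' := fun {a} ha => by simpa using ha

variable {K}

omit [ProperSpace K] in
lemma mem_OO {x : K} : x ∈ OO K ↔ ‖x‖ ≤ 1 := Iff.rfl

/-- The closed ball of radius `‖c‖` as an additive group. -/
def Bc (c : K) : AddSubgroup K where
  carrier := {x | ‖x‖ ≤ ‖c‖}
  add_mem' := fun {a b} ha hb => (IsUltrametricDist.norm_add_le_max a b).trans (max_le ha hb)
  zero_mem' := by simp
  neg_mem' := fun {a} ha => by simpa using ha

omit [ProperSpace K] in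
lemma mem_Bc {c x : K} : x ∈ Bc c ↔ ‖x‖ ≤ ‖c‖ := Iff.rfl

variable (K) in
/-- there is an element of largest norm `< 1`. -/
lemma exists_uniformizer : ∃ ϖ : K, 0 < ‖ϖ‖ ∧ ‖ϖ‖ < 1 ∧ ∀ x : K, ‖x‖ < 1 → ‖x‖ ≤ ‖ϖ‖ := by
  have hcomp : IsCompact (ball (0 : K) 1) := by
    have h1 : IsClosed (ball (0 : K) 1) := IsUltrametricDist.isClosed_ball 0 1
    exact (isCompact_closedBall (0 : K) 1).of_isClosed_subset h1 ball_subset_closedBall
  obtain ⟨ϖ, hϖ, hmax⟩ := hcomp.exists_isMaxOn ⟨0, by simp⟩ (continuous_norm.continuousOn)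
  obtain ⟨y, hy0, hy1⟩ := NormedField.exists_norm_lt_one K
  refine ⟨ϖ, ?_, by simpa using hϖ, fun x hx => hmax (by simpa using hx)⟩
  exact lt_of_lt_of_le hy0 (hmax (by simpa using hy1))

omit [IsUltrametricDist K] [ProperSpace K] in
/-- value group is generated by the norm of a uniformizer. -/
lemma exists_zpow_norm {ϖ : K} (h0 : 0 < ‖ϖ‖) (h1 : ‖ϖ‖ < 1) (hmax : ∀ x : K, ‖x‖ < 1 → ‖x‖ ≤ ‖ϖ‖)
    {x : K} (hx : x ≠ 0) : ∃ n : ℤ, ‖x‖ = ‖ϖ‖ ^ n := by
  have hx' : 0 < ‖x‖ := norm_pos_iff.mpr hx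
  have hinv : 1 < ‖ϖ‖⁻¹ := (one_lt_inv₀ h0).mpr h1
  obtain ⟨n, hn1, hn2⟩ := exists_mem_Ico_zpow hx' hinv
  refine ⟨-n, ?_⟩
  have hn1' : ‖ϖ‖ ^ (-n) ≤ ‖x‖ := by
    rw [zpow_neg, ← inv_zpow]; exact hn1
  have hn2' : ‖x‖ < ‖ϖ‖ ^ (-n) * ‖ϖ‖⁻¹ := by
    rw [zpow_neg, ← inv_zpow, ← zpow_add_one₀ (by positivity)]; exact hn2
  have hpos : 0 < ‖ϖ‖ ^ (-n) := zpow_pos h0 _
  -- `y = ϖ ^ (-n) * ϖ... `
  by_contra hne
  have hlt : ‖ϖ‖ ^ (-n) < ‖x‖ := lt_of_le_of_ne hn1' (Ne.symm hne)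
  have h2 : ‖ϖ ^ (-n) / x‖ < 1 := by
    rw [norm_div, norm_zpow, div_lt_one hx']; exact hlt
  have h3 := hmax _ h2
  rw [norm_div, norm_zpow, div_le_iff₀ hx'] at h3
  have h4 : ‖ϖ‖ * ‖x‖ < ‖ϖ‖ * (‖ϖ‖ ^ (-n) * ‖ϖ‖⁻¹) := by
    exact mul_lt_mul_of_pos_left hn2' h0
  have h5 : ‖ϖ‖ * (‖ϖ‖ ^ (-n) * ‖ϖ‖⁻¹) = ‖ϖ‖ ^ (-n) := by
    field_simp
  rw [h5] at h4
  exact absurd h3 (not_le.mpr h4)

/-- the unit group of the ring of integers, as a subgroup of `Kˣ` (additive notation). -/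
def O1 (K : Type*) [NormedField K] : AddSubgroup (Additive Kˣ) where
  carrier := {u | ‖((Additive.toMul u : Kˣ) : K)‖ = 1}
  add_mem' := fun {a b} ha hb => by
    simp only [Set.mem_ofPred_eq, toMul_add, Units.val_mul, norm_mul] at *
    rw [ha, hb, one_mul]
  zero_mem' := by simp
  neg_mem' := fun {a} ha => by
    simp only [Set.mem_ofPred_eq, toMul_neg, Units.val_inv_eq_inv_val, norm_inv] at *
    rw [ha, inv_one]

lemma mem_O1 {K : Type*} [NormedField K] {u : Additive Kˣ} :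
    u ∈ O1 K ↔ ‖((Additive.toMul u : Kˣ) : K)‖ = 1 := Iff.rfl

omit [ProperSpace K] in
lemma norm_eq_one_of_sub {a : K} {r : ℝ} (hr : r < 1) (h : ‖a - 1‖ ≤ r) : ‖a‖ = 1 := by
  have h1 : ‖a - 1‖ < ‖(1 : K)‖ := by rw [norm_one]; exact h.trans_lt hr
  have h2 : ‖(a - 1) + 1‖ = max ‖a - 1‖ ‖(1 : K)‖ :=
    IsUltrametricDist.norm_add_eq_max_of_norm_ne_norm (ne_of_lt h1)
  rw [sub_add_cancel] at h2
  rw [h2, max_eq_right h1.le, norm_one]

/-- principal units `1 + c O`. -/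
def Uc (c : K) (hc : ‖c‖ < 1) : AddSubgroup (Additive Kˣ) where
  carrier := {u | ‖((Additive.toMul u : Kˣ) : K) - 1‖ ≤ ‖c‖}
  add_mem' := fun {a b} ha hb => by
    simp only [Set.mem_ofPred_eq, toMul_add, Units.val_mul] at *
    have h1 : ((Additive.toMul a : Kˣ) : K) * ((Additive.toMul b : Kˣ) : K) - 1 =
      ((Additive.toMul a : Kˣ) : K) * (((Additive.toMul b : Kˣ) : K) - 1) +
        (((Additive.toMul a : Kˣ) : K) - 1) := by ring
    rw [h1]
    refine (IsUltrametricDist.norm_add_le_max _ _).trans (max_le ?_ ha)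
    rw [norm_mul, norm_eq_one_of_sub hc ha, one_mul]
    exact hb
  zero_mem' := by simp
  neg_mem' := fun {a} ha => by
    simp only [Set.mem_ofPred_eq, toMul_neg] at *
    have h0 : ‖((Additive.toMul a : Kˣ) : K)‖ = 1 := norm_eq_one_of_sub hc ha
    have h1 : (((Additive.toMul a)⁻¹ : Kˣ) : K) - 1 =
        - ((((Additive.toMul a)⁻¹ : Kˣ) : K) * (((Additive.toMul a : Kˣ) : K) - 1)) := by
      rw [mul_sub, Units.inv_mul]; ring
    rw [h1, norm_neg, norm_mul, Units.val_inv_eq_inv_val, norm_inv, h0, inv_one, one_mul]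
    exact ha

omit [ProperSpace K] in
lemma mem_Uc {c : K} {hc : ‖c‖ < 1} {u : Additive Kˣ} :
    u ∈ Uc c hc ↔ ‖((Additive.toMul u : Kˣ) : K) - 1‖ ≤ ‖c‖ := Iff.rfl

omit [ProperSpace K] in
/-- the main estimate -/
lemma norm_pow_sub_pow {c : K} (hc : ‖c‖ < 1) (p : ℕ) {a b : K} (ha : ‖a - 1‖ ≤ ‖c‖)
    (hb : ‖b - 1‖ ≤ ‖c‖) : ‖(a ^ p - b ^ p) - p * (a - b)‖ ≤ ‖c‖ * ‖a - b‖ := by
  have hmem : ∀ n : ℕ, ∀ x : K, ‖x - 1‖ ≤ ‖c‖ → ‖x ^ n - 1‖ ≤ ‖c‖ := by
    intro n x hx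
    induction n with
    | zero => simp
    | succ n ih =>
      have h1 : x ^ (n + 1) - 1 = x ^ n * (x - 1) + (x ^ n - 1) := by ring
      rw [h1]
      refine (IsUltrametricDist.norm_add_le_max _ _).trans (max_le ?_ ih)
      rw [norm_mul, norm_eq_one_of_sub hc ih, one_mul]
      exact hx
  have h1 : (a ^ p - b ^ p) - p * (a - b) =
      (∑ i ∈ Finset.range p, (a ^ i * b ^ (p - 1 - i) - 1)) * (a - b) := by
    rw [← Commute.geom_sum₂_mul (Commute.all a b) p, Finset.sum_sub_distrib, Finset.sum_const,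
      Finset.card_range]
    simp only [nsmul_eq_mul, mul_one]
    ring
  rw [h1, norm_mul]
  refine mul_le_mul_of_nonneg_right ?_ (norm_nonneg _)
  refine IsUltrametricDist.norm_sum_le_of_forall_le_of_nonneg (norm_nonneg _) ?_
  intro i _
  have h2 : a ^ i * b ^ (p - 1 - i) - 1 = a ^ i * (b ^ (p - 1 - i) - 1) + (a ^ i - 1) := by ring
  rw [h2]
  refine (IsUltrametricDist.norm_add_le_max _ _).trans (max_le ?_ (hmem _ _ ha))
  rw [norm_mul, norm_eq_one_of_sub hc (hmem _ _ ha), one_mul]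
  exact hmem _ _ hb

omit [ProperSpace K] in
lemma norm_pow_sub_pow_eq {c : K} {p : ℕ} (hc : ‖c‖ < ‖(p : K)‖) (hp1 : ‖(p : K)‖ ≤ 1) {a b : K}
    (ha : ‖a - 1‖ ≤ ‖c‖) (hb : ‖b - 1‖ ≤ ‖c‖) : ‖a ^ p - b ^ p‖ = ‖(p : K)‖ * ‖a - b‖ := by
  rcases eq_or_ne a b with rfl | hab
  · simp
  have hab' : 0 < ‖a - b‖ := norm_pos_iff.mpr (sub_ne_zero.mpr hab)
  have h1 := norm_pow_sub_pow (hc.trans_le hp1) p ha hb
  have h2 : ‖(a ^ p - b ^ p) - p * (a - b)‖ < ‖(p : K) * (a - b)‖ := by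
    rw [norm_mul]
    exact h1.trans_lt (mul_lt_mul_of_pos_right hc hab')
  have h3 := IsUltrametricDist.norm_add_eq_max_of_norm_ne_norm (ne_of_lt h2)
  rw [sub_add_cancel, max_eq_right h2.le, norm_mul] at h3
  exact h3

/-- surjectivity of the `p`-th power map from `1 + c O` to `1 + p c O`. -/
lemma exists_pow_eq {c : K} {p : ℕ} (hc : ‖c‖ < ‖(p : K)‖) (hp1 : ‖(p : K)‖ ≤ 1) {w : K}
    (hw : ‖w - 1‖ ≤ ‖(p : K)‖ * ‖c‖) : ∃ a : K, ‖a - 1‖ ≤ ‖c‖ ∧ a ^ p = w := by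
  have hp0 : 0 < ‖(p : K)‖ := (norm_nonneg c).trans_lt hc
  have hp0' : (p : K) ≠ 0 := norm_pos_iff.mp hp0
  have hc1 : ‖c‖ < 1 := hc.trans_le hp1
  let T : K → K := fun a => a - (a ^ p - w) / p
  have hT : ∀ a b : K, ‖a - 1‖ ≤ ‖c‖ → ‖b - 1‖ ≤ ‖c‖ → ‖T a - T b‖ ≤ (‖c‖ / ‖(p : K)‖) * ‖a - b‖ := by
    intro a b ha hb
    have h1 : T a - T b = - (((a ^ p - b ^ p) - p * (a - b)) / p) := by
      simp only [T]; field_simp; ring
    rw [h1, norm_neg, norm_div, div_mul_eq_mul_div]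
    exact div_le_div_of_nonneg_right (norm_pow_sub_pow hc1 p ha hb) hp0.le
  have hT1 : ‖T 1 - 1‖ ≤ ‖c‖ := by
    have h1 : T 1 - 1 = (w - 1) / p := by simp only [T]; field_simp; ring
    rw [h1, norm_div, div_le_iff₀ hp0, mul_comm]
    exact hw
  let s : Set K := closedBall (1 : K) ‖c‖
  have hs : ∀ a, a ∈ s ↔ ‖a - 1‖ ≤ ‖c‖ := fun a => by simp [s, dist_eq_norm]
  have hmaps : Set.MapsTo T s s := by
    intro a ha
    rw [hs] at ha ⊢
    have h1 : T a - 1 = (T a - T 1) + (T 1 - 1) := by ring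
    rw [h1]
    refine (IsUltrametricDist.norm_add_le_max _ _).trans (max_le ?_ hT1)
    refine (hT a 1 ha (by simp)).trans ?_
    have h2 : ‖c‖ / ‖(p : K)‖ ≤ 1 := (div_le_one hp0).mpr hc.le
    calc ‖c‖ / ‖(p : K)‖ * ‖a - 1‖ ≤ 1 * ‖a - 1‖ := mul_le_mul_of_nonneg_right h2 (norm_nonneg _)
      _ ≤ ‖c‖ := by rw [one_mul]; exact ha
  have hcompl : IsComplete s := isClosed_closedBall.isComplete
  let k : NNReal := ⟨‖c‖ / ‖(p : K)‖, by positivity⟩
  have hcontr : ContractingWith k (hmaps.restrict T s s) := by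
    refine ⟨?_, ?_⟩
    · rw [← NNReal.coe_lt_coe]
      change ‖c‖ / ‖(p : K)‖ < 1
      rwa [div_lt_one hp0]
    · refine LipschitzWith.of_dist_le_mul ?_
      rintro ⟨a, ha⟩ ⟨b, hb⟩
      change dist (T a) (T b) ≤ (‖c‖ / ‖(p : K)‖) * dist a b
      rw [dist_eq_norm, dist_eq_norm]
      exact hT a b ((hs a).mp ha) ((hs b).mp hb)
  obtain ⟨a, ha, hfix, -⟩ := hcontr.exists_fixedPoint' hcompl hmaps
    (x := 1) (by rw [hs]; simp) (edist_ne_top _ _)
  refine ⟨a, (hs a).mp ha, ?_⟩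
  have h1 : a - (a ^ p - w) / p = a := hfix
  have h2 : (a ^ p - w) / p = 0 := by
    have := sub_eq_self.mp h1
    exact this
  have h3 : a ^ p - w = 0 := by
    rcases div_eq_zero_iff.mp h2 with h | h
    · exact h
    · exact absurd h hp0'
  exact sub_eq_zero.mp h3

omit [IsUltrametricDist K] [ProperSpace K] in
lemma norm_mul_lt_one {c : K} {p : ℕ} (hc : ‖c‖ < 1) (hp1 : ‖(p : K)‖ ≤ 1) :
    ‖(p : K) * c‖ < 1 := by
  rw [norm_mul]
  calc ‖(p : K)‖ * ‖c‖ ≤ 1 * ‖c‖ := mul_le_mul_of_nonneg_right hp1 (norm_nonneg _)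
    _ < 1 := by rwa [one_mul]

lemma map_Uc {c : K} {p : ℕ} (hc : ‖c‖ < ‖(p : K)‖) (hp1 : ‖(p : K)‖ ≤ 1) :
    (Uc c (hc.trans_le hp1)).map (pmul (Additive Kˣ) p) =
      Uc ((p : K) * c) (norm_mul_lt_one (hc.trans_le hp1) hp1) := by
  ext u
  constructor
  · rintro ⟨v, hv, rfl⟩
    have hv' : ‖((Additive.toMul v : Kˣ) : K) - 1‖ ≤ ‖c‖ := hv
    rw [mem_Uc]
    have h1 : ((Additive.toMul (pmul (Additive Kˣ) p v) : Kˣ) : K) =
        ((Additive.toMul v : Kˣ) : K) ^ p := by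
      simp
    have h2 := norm_pow_sub_pow_eq hc hp1 hv' (b := 1) (by simp)
    rw [one_pow] at h2
    rw [h1, h2, norm_mul]
    exact mul_le_mul_of_nonneg_left hv' (norm_nonneg _)
  · intro hu
    rw [mem_Uc, norm_mul] at hu
    obtain ⟨a, ha, hap⟩ := exists_pow_eq hc hp1 hu
    have ha0 : a ≠ 0 := by
      intro h0
      have := norm_eq_one_of_sub (hc.trans_le hp1) ha
      rw [h0, norm_zero] at this
      exact zero_ne_one this
    refine ⟨Additive.ofMul (Units.mk0 a ha0), by simpa [mem_Uc] using ha, ?_⟩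
    apply Additive.toMul.injective
    ext
    simpa using hap

omit [ProperSpace K] in
lemma ker_Uc {c : K} {p : ℕ} (hc : ‖c‖ < ‖(p : K)‖) (hp1 : ‖(p : K)‖ ≤ 1) :
    (pmul (Additive Kˣ) p).ker ⊓ (Uc c (hc.trans_le hp1)) = ⊥ := by
  rw [eq_bot_iff]
  rintro u ⟨h1, h2⟩
  have hv' : ‖((Additive.toMul u : Kˣ) : K) - 1‖ ≤ ‖c‖ := h2
  have h3 : ((Additive.toMul u : Kˣ) : K) ^ p = 1 := by
    have h4 : p • u = 0 := h1
    have h5 := congrArg (fun x : Additive Kˣ => ((Additive.toMul x : Kˣ) : K)) h4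
    simpa using h5
  have h6 := norm_pow_sub_pow_eq hc hp1 hv' (b := 1) (by simp)
  rw [one_pow, h3, sub_self, norm_zero] at h6
  have hp0 : 0 < ‖(p : K)‖ := (norm_nonneg c).trans_lt hc
  have h7 : ((Additive.toMul u : Kˣ) : K) - 1 = 0 := by
    rw [← norm_eq_zero]
    rcases mul_eq_zero.mp h6.symm with h | h
    · exact absurd h hp0.ne'
    · exact h
  rw [AddSubgroup.mem_bot]
  apply Additive.toMul.injective
  ext
  simpa [sub_eq_zero] using h7

variable (K) in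
/-- the "additive" index `[O : pO]`. -/
noncomputable def dlt (p : ℕ) : ℕ := cc (pmul K p) (OO K)

omit [ProperSpace K] in
lemma relIndex_Uc {c : K} {p : ℕ} (hc0 : c ≠ 0) (hc : ‖c‖ < ‖(p : K)‖) (hp1 : ‖(p : K)‖ ≤ 1) :
    (Uc ((p : K) * c) (norm_mul_lt_one (hc.trans_le hp1) hp1)).relIndex
      (Uc c (hc.trans_le hp1)) = dlt K p := by
  have hc1 : ‖c‖ < 1 := hc.trans_le hp1
  have hc0' : 0 < ‖c‖ := norm_pos_iff.mpr hc0
  have hp0 : 0 < ‖(p : K)‖ := (norm_nonneg c).trans_lt hc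
  have hp0' : (p : K) ≠ 0 := norm_pos_iff.mp hp0
  set pO : AddSubgroup K := (OO K).map (pmul K p) with hpO
  have hmem : ∀ x : K, x ∈ pO ↔ ‖x‖ ≤ ‖(p : K)‖ := by
    intro x
    constructor
    · rintro ⟨y, hy, rfl⟩
      have hy' : ‖y‖ ≤ 1 := hy
      rw [pmul_apply, nsmul_eq_mul, norm_mul]
      calc ‖(p : K)‖ * ‖y‖ ≤ ‖(p : K)‖ * 1 := mul_le_mul_of_nonneg_left hy' (norm_nonneg _)
        _ = _ := mul_one _
    · intro hx
      refine ⟨x / p, ?_, ?_⟩
      · change ‖x / p‖ ≤ 1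
        rw [norm_div, div_le_one hp0]; exact hx
      · rw [pmul_apply, nsmul_eq_mul]; field_simp
  let φ : ↥(Uc c hc1) →+ K ⧸ pO :=
    { toFun := fun u => QuotientAddGroup.mk ((((Additive.toMul (u : Additive Kˣ) : Kˣ) : K) - 1) / c)
      map_zero' := by simp
      map_add' := by
        intro u v
        have hu : ‖((Additive.toMul (u : Additive Kˣ) : Kˣ) : K) - 1‖ ≤ ‖c‖ := u.2
        have hv : ‖((Additive.toMul (v : Additive Kˣ) : Kˣ) : K) - 1‖ ≤ ‖c‖ := v.2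
        rw [← QuotientAddGroup.mk_add, QuotientAddGroup.eq, hmem]
        have h1 : -((((Additive.toMul ((u + v : ↥(Uc c hc1)) : Additive Kˣ) : Kˣ) : K) - 1) / c) +
            ((((Additive.toMul (u : Additive Kˣ) : Kˣ) : K) - 1) / c +
              (((Additive.toMul (v : Additive Kˣ) : Kˣ) : K) - 1) / c) =
            - ((((Additive.toMul (u : Additive Kˣ) : Kˣ) : K) - 1) *
              (((Additive.toMul (v : Additive Kˣ) : Kˣ) : K) - 1) / c) := by
          simp only [AddSubgroup.coe_add, toMul_add, Units.val_mul]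
          field_simp
          ring
        rw [h1, norm_neg, norm_div, norm_mul, div_le_iff₀ hc0']
        exact mul_le_mul (hu.trans hc.le) hv (norm_nonneg _) (norm_nonneg _) }
  have hker : φ.ker = (Uc ((p : K) * c) (norm_mul_lt_one hc1 hp1)).addSubgroupOf (Uc c hc1) := by
    ext u
    rw [AddMonoidHom.mem_ker, AddSubgroup.mem_addSubgroupOf, mem_Uc]
    change (QuotientAddGroup.mk _ : K ⧸ pO) = 0 ↔ _
    rw [QuotientAddGroup.eq_zero_iff, hmem, norm_div, div_le_iff₀ hc0', norm_mul]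
  have hrange : φ.range = (OO K).map (QuotientAddGroup.mk' pO) := by
    ext x
    constructor
    · rintro ⟨u, rfl⟩
      have hu : ‖((Additive.toMul (u : Additive Kˣ) : Kˣ) : K) - 1‖ ≤ ‖c‖ := u.2
      refine ⟨(((Additive.toMul (u : Additive Kˣ) : Kˣ) : K) - 1) / c, ?_, rfl⟩
      change ‖_‖ ≤ 1
      rw [norm_div, div_le_one hc0']; exact hu
    · rintro ⟨y, hy, rfl⟩
      have hy' : ‖y‖ ≤ 1 := hy
      have hcy : ‖c * y‖ ≤ ‖c‖ := by
        rw [norm_mul]
        calc ‖c‖ * ‖y‖ ≤ ‖c‖ * 1 := mul_le_mul_of_nonneg_left hy' (norm_nonneg _)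
          _ = _ := mul_one _
      have h1 : ‖(1 + c * y) - 1‖ ≤ ‖c‖ := by rw [add_sub_cancel_left]; exact hcy
      have h2 : (1 + c * y) ≠ 0 := by
        intro h0
        have := norm_eq_one_of_sub hc1 h1
        rw [h0, norm_zero] at this
        exact zero_ne_one this
      refine ⟨⟨Additive.ofMul (Units.mk0 _ h2), h1⟩, ?_⟩
      change (QuotientAddGroup.mk (((1 + c * y) - 1) / c) : K ⧸ pO) = QuotientAddGroup.mk y
      rw [add_sub_cancel_left, mul_div_cancel_left₀ _ hc0]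
  unfold AddSubgroup.relIndex
  rw [← hker, AddSubgroup.index_ker, hrange, ← AddSubgroup.relIndex_ker, QuotientAddGroup.ker_mk']
  rfl

variable (K) in
lemma isCompact_OO : IsCompact ((OO K : AddSubgroup K) : Set K) := by
  have : ((OO K : AddSubgroup K) : Set K) = closedBall 0 1 := by
    ext x; simp [OO, closedBall]
  rw [this]
  exact isCompact_closedBall 0 1

/-- `[O : cO]` is finite -/
lemma relIndex_Bc_ne_zero {c : K} (hc0 : c ≠ 0) : (Bc c).relIndex (OO K) ≠ 0 := by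
  have : CompactSpace (OO K) := isCompact_iff_compactSpace.mp (isCompact_OO K)
  have hopen : IsOpen (((Bc c).addSubgroupOf (OO K) : AddSubgroup (OO K)) : Set (OO K)) := by
    have h1 : IsOpen ((Bc c : AddSubgroup K) : Set K) := by
      have : ((Bc c : AddSubgroup K) : Set K) = closedBall 0 ‖c‖ := by
        ext x; simp [Bc, closedBall]
      rw [this]
      exact IsUltrametricDist.isOpen_closedBall 0 (norm_ne_zero_iff.mpr hc0)
    exact h1.preimage continuous_subtype_val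
  have : Finite (OO K ⧸ (Bc c).addSubgroupOf (OO K)) :=
    AddSubgroup.quotient_finite_of_isOpen _ hopen
  exact AddSubgroup.index_ne_zero_of_finite

lemma relIndex_Uc_O1_ne_zero {c : K} (hc0 : c ≠ 0) (hc : ‖c‖ < 1) :
    (Uc c hc).relIndex (O1 K) ≠ 0 := by
  have hfin : Finite ((OO K) ⧸ (Bc c).addSubgroupOf (OO K)) := by
    have := relIndex_Bc_ne_zero hc0
    exact AddSubgroup.index_ne_zero_iff_finite.mp this
  have hfin2 : Finite ((O1 K) ⧸ (Uc c hc).addSubgroupOf (O1 K)) := by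
    let f : (O1 K) ⧸ (Uc c hc).addSubgroupOf (O1 K) → (OO K) ⧸ (Bc c).addSubgroupOf (OO K) :=
      Quotient.lift (fun u : O1 K => (QuotientAddGroup.mk
        (⟨((Additive.toMul (u : Additive Kˣ) : Kˣ) : K), le_of_eq u.2⟩ : OO K) :
          (OO K) ⧸ (Bc c).addSubgroupOf (OO K))) (by
        intro u v huv
        have h1 := QuotientAddGroup.leftRel_apply.mp huv
        rw [AddSubgroup.mem_addSubgroupOf, mem_Uc] at h1
        rw [QuotientAddGroup.eq, AddSubgroup.mem_addSubgroupOf, mem_Bc]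
        have hu : ‖((Additive.toMul (u : Additive Kˣ) : Kˣ) : K)‖ = 1 := u.2
        have h2 : (-((Additive.toMul (u : Additive Kˣ) : Kˣ) : K) +
            ((Additive.toMul (v : Additive Kˣ) : Kˣ) : K)) =
            ((Additive.toMul (u : Additive Kˣ) : Kˣ) : K) *
            (((Additive.toMul ((-u + v : O1 K) : Additive Kˣ) : Kˣ) : K) - 1) := by
          have h0 : ((Additive.toMul (u : Additive Kˣ) : Kˣ) : K) ≠ 0 := Units.ne_zero _
          simp only [AddSubgroup.coe_add, AddSubgroup.coe_neg, toMul_add, toMul_neg, Units.val_mul,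
            Units.val_inv_eq_inv_val]
          field_simp
          ring
        change ‖(-((Additive.toMul (u : Additive Kˣ) : Kˣ) : K) +
            ((Additive.toMul (v : Additive Kˣ) : Kˣ) : K))‖ ≤ ‖c‖
        rw [h2, norm_mul, hu, one_mul]
        exact h1)
    refine Finite.of_injective f ?_
    intro x y
    refine Quotient.inductionOn₂ x y ?_
    intro u v huv
    apply Quotient.sound
    apply QuotientAddGroup.leftRel_apply.mpr
    have h1 : (QuotientAddGroup.mk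
        (⟨((Additive.toMul (u : Additive Kˣ) : Kˣ) : K), le_of_eq u.2⟩ : OO K) :
          (OO K) ⧸ (Bc c).addSubgroupOf (OO K)) = QuotientAddGroup.mk
        (⟨((Additive.toMul (v : Additive Kˣ) : Kˣ) : K), le_of_eq v.2⟩ : OO K) := huv
    rw [QuotientAddGroup.eq, AddSubgroup.mem_addSubgroupOf, mem_Bc] at h1
    rw [AddSubgroup.mem_addSubgroupOf, mem_Uc]
    have hu : ‖((Additive.toMul (u : Additive Kˣ) : Kˣ) : K)‖ = 1 := u.2
    have h2 : (-((Additive.toMul (u : Additive Kˣ) : Kˣ) : K) +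
        ((Additive.toMul (v : Additive Kˣ) : Kˣ) : K)) =
        ((Additive.toMul (u : Additive Kˣ) : Kˣ) : K) *
        (((Additive.toMul ((-u + v : O1 K) : Additive Kˣ) : Kˣ) : K) - 1) := by
      have h0 : ((Additive.toMul (u : Additive Kˣ) : Kˣ) : K) ≠ 0 := Units.ne_zero _
      simp only [AddSubgroup.coe_add, AddSubgroup.coe_neg, toMul_add, toMul_neg, Units.val_mul,
        Units.val_inv_eq_inv_val]
      field_simp
      ring
    change ‖(-((Additive.toMul (u : Additive Kˣ) : Kˣ) : K) +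
        ((Additive.toMul (v : Additive Kˣ) : Kˣ) : K))‖ ≤ ‖c‖ at h1
    rw [h2, norm_mul, hu, one_mul] at h1
    exact h1
  exact AddSubgroup.index_ne_zero_of_finite

/-- logarithm of the norm -/
noncomputable def logn (K : Type*) [NormedField K] : Additive Kˣ →+ ℝ where
  toFun u := Real.log ‖((Additive.toMul u : Kˣ) : K)‖
  map_zero' := by simp
  map_add' := by
    intro u v
    simp only [toMul_add, Units.val_mul, norm_mul]
    rw [Real.log_mul (norm_ne_zero_iff.mpr (Units.ne_zero _))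
      (norm_ne_zero_iff.mpr (Units.ne_zero _))]

lemma ker_logn (K : Type*) [NormedField K] : (logn K).ker = O1 K := by
  ext u
  change Real.log ‖((Additive.toMul u : Kˣ) : K)‖ = 0 ↔ ‖((Additive.toMul u : Kˣ) : K)‖ = 1
  have h0 : 0 < ‖((Additive.toMul u : Kˣ) : K)‖ := norm_pos_iff.mpr (Units.ne_zero _)
  constructor
  · intro h
    rcases Real.log_eq_zero.mp h with h | h | h
    · exact absurd h h0.ne'
    · exact h
    · linarith
  · intro h; rw [h, Real.log_one]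

variable (K) in
lemma range_logn : ∃ r : ℝ, r ≠ 0 ∧ (⊤ : AddSubgroup (Additive Kˣ)).map (logn K) =
    AddSubgroup.zmultiples r := by
  obtain ⟨ϖ, h0, h1, hmax⟩ := exists_uniformizer K
  have hϖ : ϖ ≠ 0 := norm_pos_iff.mp h0
  refine ⟨Real.log ‖ϖ‖, (Real.log_neg h0 h1).ne, ?_⟩
  ext x
  constructor
  · rintro ⟨u, _, rfl⟩
    obtain ⟨n, hn⟩ := exists_zpow_norm h0 h1 hmax (Units.ne_zero (Additive.toMul u))
    refine ⟨n, ?_⟩
    change n • Real.log ‖ϖ‖ = Real.log ‖((Additive.toMul u : Kˣ) : K)‖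
    rw [hn, Real.log_zpow, zsmul_eq_mul]
  · rintro ⟨n, rfl⟩
    refine ⟨n • Additive.ofMul (Units.mk0 ϖ hϖ), trivial, ?_⟩
    rw [map_zsmul]
    rfl

lemma cc_zmultiples {r : ℝ} (hr : r ≠ 0) (p : ℕ) :
    cc (pmul ℝ p) (AddSubgroup.zmultiples r) = p := by
  let g : ℤ →+ ℝ := (zmultiplesHom ℝ) r
  have hg : Function.Injective g := by
    intro a b hab
    have h1 : a • r = b • r := hab
    exact smul_left_injective ℤ hr h1
  have h1 : AddSubgroup.zmultiples r = (⊤ : AddSubgroup ℤ).map g := by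
    ext x
    constructor
    · rintro ⟨n, rfl⟩; exact ⟨n, trivial, rfl⟩
    · rintro ⟨n, _, rfl⟩; exact ⟨n, rfl⟩
  have h2 : (AddSubgroup.zmultiples r).map (pmul ℝ p) =
      (AddSubgroup.zmultiples (p : ℤ)).map g := by
    ext x
    constructor
    · rintro ⟨_, ⟨n, rfl⟩, rfl⟩
      refine ⟨(p : ℤ) * n, ⟨n, by simp [mul_comm]⟩, ?_⟩
      change ((p : ℤ) * n) • r = p • (n • r)
      rw [mul_smul, natCast_zsmul]
    · rintro ⟨_, ⟨n, rfl⟩, rfl⟩
      refine ⟨n • r, ⟨n, rfl⟩, ?_⟩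
      change p • (n • r) = (n • (p : ℤ)) • r
      rw [smul_eq_mul, mul_comm, mul_smul, natCast_zsmul]
  unfold cc
  rw [h2, h1, AddSubgroup.relIndex_map_map_of_injective _ _ hg, AddSubgroup.relIndex_top_right,
    Int.index_zmultiples]
  simp

lemma kc_real {p : ℕ} (hp : p ≠ 0) (B : AddSubgroup ℝ) : kc (pmul ℝ p) B = 1 := by
  unfold kc
  have : (pmul ℝ p).ker = ⊥ := by
    rw [eq_bot_iff]
    intro x hx
    have h1 : p • x = 0 := hx
    rw [nsmul_eq_mul] at h1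
    rcases mul_eq_zero.mp h1 with h | h
    · exact absurd (Nat.cast_eq_zero.mp h) hp
    · exact h
  rw [this, bot_inf_eq]
  simp

/-- torsion units -/
lemma kc_O1 (K : Type*) [NormedField K] {p : ℕ} (hp : p ≠ 0) :
    kc (pmul (Additive Kˣ) p) (O1 K) = kc (pmul (Additive Kˣ) p) ⊤ := by
  unfold kc
  rw [inf_top_eq]
  suffices h : (pmul (Additive Kˣ) p).ker ⊓ O1 K = (pmul (Additive Kˣ) p).ker by rw [h]
  rw [inf_eq_left]
  intro u hu
  have h4 : p • u = 0 := hu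
  have h5 := congrArg (fun x : Additive Kˣ => ‖((Additive.toMul x : Kˣ) : K)‖) h4
  simp only [toMul_nsmul, Units.val_pow_eq_pow_val, norm_pow, toMul_zero, Units.val_one,
    norm_one] at h5
  exact (pow_eq_one_iff_of_nonneg (norm_nonneg _) hp).mp h5

lemma kc_top_ne_zero (K : Type*) [Field K] {p : ℕ} (hp : p ≠ 0) :
    kc (pmul (Additive Kˣ) p) ⊤ ≠ 0 := by
  unfold kc
  rw [inf_top_eq]
  have : NeZero p := ⟨hp⟩
  have : Finite ↥(pmul (Additive Kˣ) p).ker := by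
    have hfin : Finite (rootsOfUnity p K) := inferInstance
    refine Finite.of_injective (β := rootsOfUnity p K)
      (fun u => ⟨Additive.toMul (u : Additive Kˣ), ?_⟩) ?_
    · rw [mem_rootsOfUnity]
      have h4 : p • (u : Additive Kˣ) = 0 := u.2
      exact h4
    · intro u v huv
      apply Subtype.ext
      apply Additive.toMul.injective
      exact congrArg Subtype.val huv
  exact Nat.card_pos.ne'

/-- the number of `p`-th roots of unity -/
lemma kc_top_eq (K : Type*) [Field K] (p : ℕ) :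
    kc (pmul (Additive Kˣ) p) ⊤ = Nat.card (rootsOfUnity p K) := by
  unfold kc
  rw [inf_top_eq]
  rfl

section main

variable (K)

/-- index of `p`-th powers in units of the ring of integers. -/
theorem cc_O1 {p : ℕ} (hpK : (p : K) ≠ 0) :
    cc (pmul (Additive Kˣ) p) (O1 K) = dlt K p * kc (pmul (Additive Kˣ) p) ⊤ := by
  have hp : p ≠ 0 := by rintro rfl; simp at hpK
  have hp0 : 0 < ‖(p : K)‖ := norm_pos_iff.mpr hpK
  have hp1 : ‖(p : K)‖ ≤ 1 := IsUltrametricDist.norm_natCast_le_one K p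
  obtain ⟨c, hc0', hc⟩ := NormedField.exists_norm_lt K hp0
  have hc0 : c ≠ 0 := norm_pos_iff.mp hc0'
  have hc1 := hc.trans_le hp1
  have hle : Uc c hc1 ≤ O1 K := fun u hu => norm_eq_one_of_sub hc1 hu
  have hst : ∀ B : AddSubgroup (Additive Kˣ), B.map (pmul (Additive Kˣ) p) ≤ B := by
    rintro B _ ⟨b, hb, rfl⟩
    exact B.nsmul_mem hb p
  have h1 := herbrand_finite_index (pmul (Additive Kˣ) p) (Uc c hc1) (O1 K) hle (hst _) (hst _)
    (relIndex_Uc_O1_ne_zero hc0 hc1)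
  have h2 : kc (pmul (Additive Kˣ) p) (Uc c hc1) = 1 := by
    unfold kc
    rw [ker_Uc hc hp1]
    simp
  have h3 : cc (pmul (Additive Kˣ) p) (Uc c hc1) = dlt K p := by
    unfold cc
    rw [map_Uc hc hp1, relIndex_Uc hc0 hc hp1]
  rw [h2, h3, mul_one, kc_O1 K hp] at h1
  exact h1

/-- **Index of `p`-th powers**: `[Kˣ : Kˣ^p] = p [O : pO] #μ_p(K)`. -/
theorem cc_top {p : ℕ} (hpK : (p : K) ≠ 0) :
    cc (pmul (Additive Kˣ) p) ⊤ = p * dlt K p * kc (pmul (Additive Kˣ) p) ⊤ := by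
  have hp : p ≠ 0 := by rintro rfl; simp at hpK
  have hst : ∀ B : AddSubgroup (Additive Kˣ), B.map (pmul (Additive Kˣ) p) ≤ B := by
    rintro B _ ⟨b, hb, rfl⟩
    exact B.nsmul_mem hb p
  have h1 := herbrand_exact (pmul (Additive Kˣ) p) (pmul ℝ p) (logn K) (fun a => by simp) ⊤ (hst _)
  obtain ⟨r, hr, hr2⟩ := range_logn K
  rw [top_inf_eq, ker_logn, hr2, kc_real hp, cc_zmultiples hr, cc_O1 K hpK, kc_O1 K hp,
    mul_one] at h1
  have h2 := kc_top_ne_zero K hp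
  apply mul_right_cancel₀ h2
  rw [h1]
  ring

end main

end Fermat.Agent.PTLocal
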