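import Fermat.Agent.PTLocal.Roots

/-!
# `|H²(Γ, μ_p)| = p` for local Galois groups
-/

set_option autoImplicit false

namespace Fermat.Agent.PTLocal

open Fermat.Agent.PT IntermediateField

/-- prime-to-`p` descent, general coefficients -/
lemma eq_zero_of_res' {G : Type*} [Group G] {A : Type*} [AddCommGroup A] {L : Levels G}
    {ρ : Act G A} (hρ : Smooth L ρ) {p : ℕ} [hp : Fact p.Prime] (hpA : ∀ a : A, p • a = 0)
    {V : Subgroup G} (hVo : IsOpenSub L V) (hV : ¬ p ∣ V.index) (x : H2 L ρ)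
    (hx : (resPair L ρ V).h2 x = 0) : x = 0 := by
  have hfi := hVo.finiteIndex
  have : Fintype (G ⧸ V) := Fintype.ofFinite _
  have hl := levelTrivial_cosetAct hVo
  have ht := isTrans_cosetAct V
  have hb := sh_h2_bijective hl hρ ht
  have h1 : (constHom (cosetAct V) ρ).h2 L x = 0 := by
    apply hb.1
    rw [map_zero, EHom.h2, ← PairHom.h2_comp]
    have h2 : (resPair L ρ (stab (cosetAct V) ((1 : G) : G ⧸ V))).h2 x = 0 := by
      rw [← stab_cosetAct V] at hx
      exact hx
    rw [← h2]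
    exact PairHom.h2_congr (fun _ => rfl) (fun _ => rfl) x
  have h2 := sum_const_h2 (cosetAct V) ρ x
  rw [h1, map_zero] at h2
  have h3 := mem_of_nsmul_mem (⊥ : AddSubgroup (H2 L ρ)) (n := Fintype.card (G ⧸ V)) (p := p)
    (x := x) (by rw [← Nat.card_eq_fintype_card]; exact hV) h2.symm
    (by rw [h2_torsion hpA]; exact AddSubgroup.zero_mem _)
  exact h3

section mu

variable {q : ℕ} [hq : Fact q.Prime] {p : ℕ} [hp : Fact p.Prime]

lemma zeta_of_inj {Ω : Type*} [Field Ω] (i : ZMod p →+ Additive Ωˣ)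
    (hi : Function.Injective i) :
    IsPrimitiveRoot ((Additive.toMul (i 1) : Ωˣ) : Ω) p ∧
      ∀ k : ZMod p, ((Additive.toMul (i k) : Ωˣ) : Ω) =
        ((Additive.toMul (i 1) : Ωˣ) : Ω) ^ k.val := by
  have h1 : ∀ k : ZMod p, ((Additive.toMul (i k) : Ωˣ) : Ω) =
      ((Additive.toMul (i 1) : Ωˣ) : Ω) ^ k.val := by
    intro k
    have h2 : i k = k.val • i 1 := by
      rw [← map_nsmul, nsmul_eq_mul, mul_one, ZMod.natCast_val, ZMod.cast_id', id]
    rw [h2, toMul_nsmul, Units.val_pow_eq_pow_val]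
  refine ⟨?_, h1⟩
  rw [IsPrimitiveRoot.iff_orderOf]
  apply orderOf_eq_prime
  · have h3 : p • i 1 = 0 := by
      rw [← map_nsmul, nsmul_eq_mul, mul_one, CharP.cast_eq_zero, map_zero]
    have h4 := congrArg (fun a => ((Additive.toMul a : Ωˣ) : Ω)) h3
    rw [toMul_nsmul, Units.val_pow_eq_pow_val] at h4
    exact h4
  · intro h5
    have h6 : i 1 = i 0 := by
      rw [map_zero]
      apply Additive.toMul.injective
      apply Units.ext
      exact h5
    exact one_ne_zero (hi h6)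

variable {G : Type*} [Group G] {L : Levels G} (hG : LGal ℚ_[q] (PadicAlgCl q) L)
  {τ : Act G (ZMod p)} {i : ZMod p →+ Additive (PadicAlgCl q)ˣ} (hi : Function.Injective i)
  (hc : ∀ g a, i (τ g a) = hG.act g (i a))

/-- the Kummer sequence for `μ_p` -/
noncomputable def kumMu : SES τ hG.act hG.act where
  i := ⟨i, hc⟩
  p := ⟨nsmulAddMonoidHom p, fun g a => by
    rw [nsmulAddMonoidHom_apply, nsmulAddMonoidHom_apply, map_nsmul]⟩
  inj := hi
  surj a := by
    obtain ⟨z, hz⟩ := IsAlgClosed.exists_pow_nat_eq ((Additive.toMul a : (PadicAlgCl q)ˣ) :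
      PadicAlgCl q) hp.out.pos
    have hz0 : z ≠ 0 := by
      rintro rfl
      rw [zero_pow hp.out.ne_zero] at hz
      exact (Additive.toMul a : (PadicAlgCl q)ˣ).ne_zero hz.symm
    refine ⟨Additive.ofMul (Units.mk0 z hz0), ?_⟩
    apply Additive.toMul.injective
    apply Units.ext
    show ((Additive.toMul (p • Additive.ofMul (Units.mk0 z hz0)) : (PadicAlgCl q)ˣ) :
      PadicAlgCl q) = _
    rw [toMul_nsmul, toMul_ofMul, Units.val_pow_eq_pow_val, Units.val_mk0, hz]
  exact b := by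
    obtain ⟨hζ, hk⟩ := zeta_of_inj i hi
    constructor
    · intro h
      have h1 : ((Additive.toMul b : (PadicAlgCl q)ˣ) : PadicAlgCl q) ^ p = 1 := by
        have h2 : p • b = 0 := h
        have h3 := congrArg (fun a => ((Additive.toMul a : (PadicAlgCl q)ˣ) : PadicAlgCl q)) h2
        simpa [toMul_nsmul] using h3
      obtain ⟨j, hj, hj2⟩ := hζ.eq_pow_of_pow_eq_one h1
      refine ⟨(j : ZMod p), ?_⟩
      apply Additive.toMul.injective
      apply Units.ext
      show ((Additive.toMul (i (j : ZMod p)) : (PadicAlgCl q)ˣ) : PadicAlgCl q) = _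
      rw [hk, ZMod.val_natCast_of_lt hj, hj2]
    · rintro ⟨a, rfl⟩
      show p • i a = 0
      rw [← map_nsmul, nsmul_eq_mul, CharP.cast_eq_zero, zero_mul, map_zero]

include hi hc in
/-- there is a nonzero class in `H²(G, μ_p)` -/
theorem exists_H2_mu_ne_zero : ∃ y : H2 L τ, y ≠ 0 := by
  obtain ⟨χ, hχ⟩ := exists_chi_ne_zero (p := p) hG
  have hidx := hG.norm_index hχ
  obtain ⟨b, hb⟩ : ∃ b, b ∉ ((sumHom (xi χ) hG.act).h0).range := by
    by_contra hcon
    push Not at hcon
    exact ne_top_of_index hidx (eq_top_iff.2 fun x _ => hcon x)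
  have hx0 : cycδ hG.smooth χ b ≠ 0 := by
    intro h0
    exact hb ((cycδ_eq_zero hG.smooth χ (hG.h90' hχ) b).1 h0)
  have hpx : p • cycδ hG.smooth χ b = 0 := by
    rw [← map_nsmul]
    refine (cycδ_eq_zero hG.smooth χ (hG.h90' hχ) _).2 ⟨(constHom (xi χ) hG.act).h0 b, ?_⟩
    apply Subtype.ext
    show ∑ _x : ZMod p, (b : Additive (PadicAlgCl q)ˣ) = p • (b : Additive (PadicAlgCl q)ˣ)
    rw [Finset.sum_const, Finset.card_univ, ZMod.card]
  have h1 : (kumMu hG hi hc).p.h2 L (cycδ hG.smooth χ b) = 0 := by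
    rw [← hpx]
    exact EHom.h2_nsmul L (fun a => rfl) _
  obtain ⟨y, hy⟩ := ((kumMu hG hi hc).exact_H2_mid hG.smooth _).1 h1
  refine ⟨y, ?_⟩
  rintro rfl
  exact hx0 (by rw [← hy, map_zero])

end mu

section card

variable {q : ℕ} [hq : Fact q.Prime] {p : ℕ} [hp : Fact p.Prime]
variable {G : Type} [Group G] {L : Levels G} (hG : LGal ℚ_[q] (PadicAlgCl q) L)
  {τ : Act G (ZMod p)} {i : ZMod p →+ Additive (PadicAlgCl q)ˣ} (hi : Function.Injective i)
  (hc : ∀ g a, i (τ g a) = hG.act g (i a))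

include hG hi hc in
/-- **`|H²(G, μ_p)| = p`** -/
theorem LGal.card_H2_mu : Nat.card (H2 L τ) = p := by
  obtain ⟨hζ, hk⟩ := zeta_of_inj i hi
  set ζ := ((Additive.toMul (i 1) : (PadicAlgCl q)ˣ) : PadicAlgCl q) with hζdef
  set V := fixSub hG ζ with hV
  have hVo : IsOpenSub L V := isOpenSub_fixSub hG ζ
  have hτV : ∀ g ∈ V, ∀ a, τ g a = a := by
    intro g hg a
    apply hi
    rw [hc]
    apply Additive.toMul.injective
    apply Units.ext
    show hG.j g ((Additive.toMul (i a) : (PadicAlgCl q)ˣ) : PadicAlgCl q) =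
      ((Additive.toMul (i a) : (PadicAlgCl q)ˣ) : PadicAlgCl q)
    rw [hk, map_pow, show hG.j g ζ = ζ from hg]
  have hres : resAct τ V = trivAct V (ZMod p) := by
    ext u : 1
    apply AddMonoidHom.ext
    intro a
    exact hτV u u.2 a
  have hτs : Smooth L τ := by
    intro a
    obtain ⟨N, hN, hle⟩ := hVo
    exact ⟨N, hN, fun s hs => hτV s (hle hs) a⟩
  have : NeZero p := ⟨hp.out.ne_zero⟩
  let ω : G →* (ZMod p)ˣ := (hζ.autToPow ℚ_[q]).comp hG.j
  have hω : ∀ g, ζ ^ ((ω g : (ZMod p)ˣ) : ZMod p).val = hG.j g ζ :=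
    fun g => hζ.autToPow_spec ℚ_[q] (hG.j g)
  have hker : ω.ker = V := by
    ext g
    rw [MonoidHom.mem_ker, mem_fixSub]
    constructor
    · intro h
      rw [← hω, h, Units.val_one, ZMod.val_one, pow_one]
    · intro h
      have h1 := hω g
      rw [h] at h1
      have h2 : ζ ^ ((ω g : (ZMod p)ˣ) : ZMod p).val = ζ ^ 1 := by rw [h1, pow_one]
      have h3 := hζ.pow_inj (ZMod.val_lt _) hp.out.one_lt h2
      apply Units.ext
      rw [Units.val_one, ← ZMod.natCast_zmod_val ((ω g : (ZMod p)ˣ) : ZMod p), h3, Nat.cast_one]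
  have hidx : ¬ p ∣ V.index := by
    rw [← hker, Subgroup.index_ker]
    intro hdvd
    have h1 := (Subgroup.card_subgroup_dvd_card ω.range)
    have h2 : Nat.card (ZMod p)ˣ = p - 1 := by
      rw [Nat.card_eq_fintype_card, ZMod.card_units_eq_totient, Nat.totient_prime hp.out]
    rw [h2] at h1
    have h3 := Nat.le_of_dvd (by have := hp.out.one_lt; omega) (hdvd.trans h1)
    have := hp.out.one_lt
    omega
  have hcV : Nat.card (H2 (L.sub V) (resAct τ V)) = p := by
    rw [hres]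
    exact (hG.sub V hVo).card_H2 hζ (fun g => g.2)
  have hinj : Function.Injective (resPair L τ V).h2 := by
    rw [injective_iff_map_eq_zero]
    exact fun x hx => eq_zero_of_res' hτs (fun a => by
      rw [nsmul_eq_mul, CharP.cast_eq_zero, zero_mul]) hVo hidx x hx
  have hfin : Finite (H2 (L.sub V) (resAct τ V)) :=
    Nat.finite_of_card_ne_zero (by rw [hcV]; exact hp.out.ne_zero)
  have hdvd : Nat.card (H2 L τ) ∣ p := by
    rw [Nat.card_congr (AddMonoidHom.ofInjective hinj).toEquiv]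
    exact (AddSubgroup.card_addSubgroup_dvd_card _).trans (dvd_of_eq hcV)
  rcases (Nat.dvd_prime hp.out).1 hdvd with h1 | h1
  · exfalso
    obtain ⟨y, hy⟩ := exists_H2_mu_ne_zero hG hi hc
    have h2 : Subsingleton (H2 L τ) := (Nat.card_eq_one_iff_unique.1 h1).1
    exact hy (Subsingleton.elim _ _)
  · exact h1

end card

end Fermat.Agent.PTLocal
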