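import Fermat.Agent.PTLocal.LocalIndex

/-!
# The norm index of a cyclic extension of prime degree, from the indices of `p`-th powers
-/

set_option autoImplicit false

namespace Fermat.Agent.PTLocal

open AddSubgroup Polynomial

lemma cc_map_inj {A B : Type*} [AddCommGroup A] [AddCommGroup B] (j : A →+ B)
    (hj : Function.Injective j) (p : ℕ) (X : AddSubgroup A) :
    cc (pmul B p) (X.map j) = cc (pmul A p) X := by
  unfold cc
  have h : (X.map j).map (pmul B p) = (X.map (pmul A p)).map j := by
    rw [AddSubgroup.map_map, AddSubgroup.map_map]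
    congr 1
    ext a
    simp
  rw [h, AddSubgroup.relIndex_map_map_of_injective _ _ hj]

lemma kc_map_inj {A B : Type*} [AddCommGroup A] [AddCommGroup B] (j : A →+ B)
    (hj : Function.Injective j) (p : ℕ) (X : AddSubgroup A) :
    kc (pmul B p) (X.map j) = kc (pmul A p) X := by
  unfold kc
  have h : (pmul B p).ker ⊓ (X.map j) = ((pmul A p).ker ⊓ X).map j := by
    ext b
    constructor
    · rintro ⟨h1, a, ha, rfl⟩
      refine ⟨a, ⟨?_, ha⟩, rfl⟩
      have h2 : p • j a = 0 := h1
      rw [← map_nsmul] at h2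
      have h3 : p • a = 0 := hj (by rw [h2, map_zero])
      exact h3
    · rintro ⟨a, ⟨h1, h2⟩, rfl⟩
      refine ⟨?_, a, h2, rfl⟩
      have h3 : p • a = 0 := h1
      change p • j a = 0
      rw [← map_nsmul, h3, map_zero]
  rw [h]
  exact Nat.card_congr (((pmul A p).ker ⊓ X).equivMapOfInjective j hj).symm.toEquiv

/-- the norm on unit groups -/
noncomputable def normU (K L : Type*) [Field K] [Field L] [Algebra K L] : Lˣ →* Kˣ :=
  Units.map (Algebra.norm K : L →* K)

@[simp] lemma normU_coe (K L : Type*) [Field K] [Field L] [Algebra K L] (u : Lˣ) :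
    ((normU K L u : Kˣ) : K) = Algebra.norm K (u : L) := rfl

section

variable (K L : Type) [Field K] [Field L] [Algebra K L] [FiniteDimensional K L] [IsGalois K L]
  (p : ℕ) [hp : Fact p.Prime]

/-- **Norm index formula** for a cyclic extension of prime degree. -/
theorem norm_index (hdeg : Module.finrank K L = p)
    (hcc : cc (pmul (Additive Kˣ) p) ⊤ ≠ 0) :
    cc (pmul (Additive Lˣ) p) ⊤ * kc (pmul (Additive Kˣ) p) ⊤ ^ p *
        (normU K L).range.index ^ (p - 1) =
      kc (pmul (Additive Lˣ) p) ⊤ * cc (pmul (Additive Kˣ) p) ⊤ ^ p := by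
  classical
  have hcard : Nat.card (L ≃ₐ[K] L) = p := by rw [IsGalois.card_aut_eq_finrank, hdeg]
  have hcyc : IsCyclic (L ≃ₐ[K] L) := isCyclic_of_prime_card hcard
  obtain ⟨σ, hσ⟩ := hcyc.exists_generator
  have hord : orderOf σ = p := by
    rw [orderOf_eq_card_of_forall_mem_zpowers hσ, hcard]
  let s : AddMonoid.End (Additive Lˣ) :=
    { toFun := fun u => Additive.ofMul (Units.map (σ : L →* L) (Additive.toMul u))
      map_zero' := by simp
      map_add' := fun u v => by simp }
  have hs1 : ∀ u : Additive Lˣ, ((Additive.toMul (s u) : Lˣ) : L) =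
      σ ((Additive.toMul u : Lˣ) : L) := fun u => rfl
  have hspow : ∀ (i : ℕ) (u : Additive Lˣ), ((Additive.toMul ((s ^ i) u) : Lˣ) : L) =
      (σ ^ i) ((Additive.toMul u : Lˣ) : L) := by
    intro i
    induction i with
    | zero => intro u; rfl
    | succ n ih =>
      intro u
      rw [pow_succ, pow_succ]
      change ((Additive.toMul ((s ^ n) (s u)) : Lˣ) : L) = (σ ^ n) (σ ((Additive.toMul u : Lˣ) : L))
      rw [ih, hs1]
  have hext : ∀ u v : Additive Lˣ, ((Additive.toMul u : Lˣ) : L) = ((Additive.toMul v : Lˣ) : L) →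
      u = v := fun u v h => Additive.toMul.injective (Units.ext h)
  have hs : s ^ p = 1 := by
    refine AddMonoidHom.ext fun u => ?_
    refine hext _ _ ?_
    have h0 := hspow p u
    have h1 : σ ^ p = 1 := by rw [← hord, pow_orderOf_eq_one]
    rw [h1] at h0
    exact h0
  let j : Additive Kˣ →+ Additive Lˣ := (Units.map (algebraMap K L : K →* L)).toAdditive
  have hj1 : ∀ u : Additive Kˣ, ((Additive.toMul (j u) : Lˣ) : L) =
      algebraMap K L ((Additive.toMul u : Kˣ) : K) := fun u => rfl
  have hj : Function.Injective j := by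
    intro u v huv
    apply Additive.toMul.injective
    ext
    apply (algebraMap K L).injective
    rw [← hj1, ← hj1, huv]
  -- the invariants
  have hAG : AddMonoidHom.ker (ev s (1 - X) : Additive Lˣ →+ Additive Lˣ) =
      (⊤ : AddSubgroup (Additive Kˣ)).map j := by
    ext u
    have h3 : ev s (1 - X) = 1 - s := by simp [ev]
    have h4 : u ∈ AddMonoidHom.ker (ev s (1 - X) : Additive Lˣ →+ Additive Lˣ) ↔ s u = u := by
      rw [h3]
      constructor
      · intro h
        have h5 : u - s u = 0 := h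
        exact (sub_eq_zero.mp h5).symm
      · intro h
        change u - s u = 0
        rw [h, sub_self]
    rw [h4]
    constructor
    · intro h
      have h5 : σ ((Additive.toMul u : Lˣ) : L) = ((Additive.toMul u : Lˣ) : L) := by
        rw [← hs1, h]
      have h6 : ((Additive.toMul u : Lˣ) : L) ∈ (⊥ : IntermediateField K L) := by
        rw [← IsGalois.fixedField_top]
        rintro ⟨τ, _⟩
        change τ _ = _
        obtain ⟨n, rfl⟩ := Subgroup.mem_zpowers_iff.mp (hσ τ)
        have h7 : σ ∈ MulAction.stabilizer (L ≃ₐ[K] L) ((Additive.toMul u : Lˣ) : L) := h5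
        exact Subgroup.zpow_mem _ h7 n
      obtain ⟨x, hx⟩ := IntermediateField.mem_bot.mp h6
      have hx0 : x ≠ 0 := by
        rintro rfl
        rw [map_zero] at hx
        exact Units.ne_zero _ hx.symm
      exact ⟨Additive.ofMul (Units.mk0 x hx0), trivial, hext _ _ hx⟩
    · rintro ⟨v, _, rfl⟩
      apply hext
      rw [hs1, hj1, AlgEquiv.commutes]
  -- the norm
  have hN : ∀ u : Additive Lˣ, nrm p s u = j (Additive.ofMul (normU K L (Additive.toMul u))) := by
    intro u
    apply hext
    rw [hj1]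
    change _ = algebraMap K L (Algebra.norm K ((Additive.toMul u : Lˣ) : L))
    rw [Algebra.norm_eq_prod_automorphisms]
    have h1 : nrm p s u = ∑ i ∈ Finset.range p, (s ^ i) u :=
      map_sum (AddMonoidHom.eval u : (Additive Lˣ →+ Additive Lˣ) →+ Additive Lˣ)
        (fun i => (s ^ i : AddMonoid.End (Additive Lˣ))) _
    rw [h1, toMul_sum]
    rw [Units.coe_prod]
    simp only [hspow]
    refine Finset.prod_bij (fun i _ => σ ^ i) (fun _ _ => Finset.mem_univ _) ?_ ?_ ?_
    · intro a ha b hb hab
      rw [Finset.mem_range, ← hord] at ha hb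
      exact pow_injOn_Iio_orderOf ha hb hab
    · intro τ _
      have h2 := hσ τ
      rw [← mem_powers_iff_mem_zpowers, Submonoid.mem_powers_iff] at h2
      obtain ⟨n, rfl⟩ := h2
      refine ⟨n % p, Finset.mem_range.mpr (Nat.mod_lt _ hp.out.pos), ?_⟩
      rw [← hord, pow_mod_orderOf]
    · intro a _; rfl
  have hNR : AddMonoidHom.range (nrm p s : Additive Lˣ →+ Additive Lˣ) =
      (Subgroup.toAddSubgroup (normU K L).range).map j := by
    ext u
    constructor
    · rintro ⟨v, rfl⟩
      refine ⟨Additive.ofMul (normU K L (Additive.toMul v)), ⟨Additive.toMul v, rfl⟩, (hN v).symm⟩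
    · rintro ⟨w, ⟨v, hv⟩, rfl⟩
      refine ⟨Additive.ofMul v, (hN _).trans ?_⟩
      exact congrArg (fun x => j (Additive.ofMul x)) hv
  have hH1 : (AddMonoidHom.range (ev s (1 - X) : Additive Lˣ →+ Additive Lˣ)).relIndex
      (AddMonoidHom.ker (nrm p s : Additive Lˣ →+ Additive Lˣ)) = 1 := by
    rw [AddSubgroup.relIndex_eq_one]
    intro u hu
    have h1 : nrm p s u = 0 := hu
    rw [hN] at h1
    have h2 : normU K L (Additive.toMul u) = 1 := by
      have h3 := hj (h1.trans (map_zero j).symm)
      exact congrArg Additive.toMul h3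
    have h3 : Algebra.norm K ((Additive.toMul u : Lˣ) : L) = 1 := by
      rw [← normU_coe, h2]; rfl
    obtain ⟨y, hy⟩ := groupCohomology.exists_div_of_norm_eq_one hσ h3
    refine ⟨Additive.ofMul y, ?_⟩
    have h4 : ev s (1 - X) = 1 - s := by simp [ev]
    rw [h4]
    change Additive.ofMul y - s (Additive.ofMul y) = u
    apply hext
    rw [toMul_sub, Units.val_div_eq_div_val]
    exact hy
  have hcAG : cc (pmul (Additive Lˣ) p) (AddMonoidHom.ker (ev s (1 - X) : Additive Lˣ →+ Additive Lˣ))
      = cc (pmul (Additive Kˣ) p) ⊤ := by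
    rw [hAG, cc_map_inj j hj]
  have hkAG : kc (pmul (Additive Lˣ) p) (AddMonoidHom.ker (ev s (1 - X) : Additive Lˣ →+ Additive Lˣ))
      = kc (pmul (Additive Kˣ) p) ⊤ := by
    rw [hAG, kc_map_inj j hj]
  have main := tate_phi p s hs (kc_top_ne_zero L hp.out.ne_zero) (by rw [hcAG]; exact hcc)
  rw [hcAG, hkAG, hH1, one_pow, mul_one, hNR, hAG,
    AddSubgroup.relIndex_map_map_of_injective _ _ hj, AddSubgroup.relIndex_top_right,
    Subgroup.index_toAddSubgroup] at main
  exact main

end

section localfield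

variable (q : ℕ) [hq : Fact q.Prime]
variable (K : Type) [NontriviallyNormedField K] [IsUltrametricDist K]
  [NormedAlgebra ℚ_[q] K] [FiniteDimensional ℚ_[q] K]

omit [IsUltrametricDist K] in
include q in
lemma properSpace_of_finite : ProperSpace K := FiniteDimensional.proper ℚ_[q] K

/-- the exponent `[K : ℚ_q]` if `p = q` and `0` otherwise -/
noncomputable def dexp (p : ℕ) : ℕ := if p = q then Module.finrank ℚ_[q] K else 0

/-- `[O : pO]` for a finite extension of `ℚ_q`. -/
theorem dlt_eq (p : ℕ) [hp : Fact p.Prime] : dlt K p = p ^ dexp q K p := by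
  have := properSpace_of_finite q K
  unfold dexp
  split_ifs with h
  · subst h
    exact dlt_eq_pow p K
  · rw [pow_zero]
    apply dlt_eq_one
    have h1 : (p : K) = algebraMap ℚ_[q] K (p : ℚ_[q]) := by simp
    rw [h1, norm_algebraMap', Padic.norm_natCast_eq_one_iff]
    exact (Nat.coprime_primes hq.out hp.out).mpr (Ne.symm h)

omit [IsUltrametricDist K] [FiniteDimensional ℚ_[q] K] in
include q in
lemma charZero_of_padic : CharZero K := charZero_of_injective_algebraMap (algebraMap ℚ_[q] K).injective

/-- `[Kˣ : Kˣ^p] = p · p^[K:ℚ_p] · #μ_p(K)`. -/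
theorem cc_top_eq (p : ℕ) [hp : Fact p.Prime] :
    cc (pmul (Additive Kˣ) p) ⊤ = p * p ^ dexp q K p * kc (pmul (Additive Kˣ) p) ⊤ := by
  have := properSpace_of_finite q K
  have := charZero_of_padic q K
  rw [cc_top K (p := p) (by exact_mod_cast hp.out.ne_zero), dlt_eq q K p]

variable (L : Type) [NontriviallyNormedField L] [IsUltrametricDist L]
  [NormedAlgebra ℚ_[q] L] [FiniteDimensional ℚ_[q] L] [Algebra K L] [IsScalarTower ℚ_[q] K L]
  [FiniteDimensional K L] [IsGalois K L]

include q in
/-- **Local norm index**: `[Kˣ : N Lˣ] = p` for a cyclic extension `L/K` of prime degree `p` of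
local fields. -/
theorem local_norm_index (p : ℕ) [hp : Fact p.Prime] (hdeg : Module.finrank K L = p) :
    (normU K L).range.index = p := by
  have hK := cc_top_eq q K p
  have hL := cc_top_eq q L p
  have hkK := kc_top_ne_zero K hp.out.ne_zero
  have hkL := kc_top_ne_zero L hp.out.ne_zero
  have hp0 := hp.out.ne_zero
  have hcc : cc (pmul (Additive Kˣ) p) ⊤ ≠ 0 := by
    rw [hK]
    exact mul_ne_zero (mul_ne_zero hp0 (pow_ne_zero _ hp0)) hkK
  have main := norm_index K L p hdeg hcc
  have hdexp : dexp q L p = p * dexp q K p := by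
    unfold dexp
    split_ifs with h
    · rw [← hdeg, mul_comm, Module.finrank_mul_finrank]
    · rw [mul_zero]
  rw [hK, hL, hdexp] at main
  set k := kc (pmul (Additive Kˣ) p) ⊤
  set l := kc (pmul (Additive Lˣ) p) ⊤
  set I := (normU K L).range.index
  set d := dexp q K p
  have h1 : (l * k ^ p * p ^ (p * d) * p) * I ^ (p - 1) =
      (l * k ^ p * p ^ (p * d) * p) * p ^ (p - 1) := by
    have h2 : (p : ℕ) ^ p = p * p ^ (p - 1) := by
      rw [← pow_succ', Nat.sub_add_cancel hp.out.pos]
    have h3 : (p * p ^ d * k) ^ p = p ^ p * p ^ (p * d) * k ^ p := by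
      rw [mul_pow, mul_pow, ← pow_mul, mul_comm d p]
    rw [h3, h2] at main
    calc (l * k ^ p * p ^ (p * d) * p) * I ^ (p - 1)
        = p * p ^ (p * d) * l * k ^ p * I ^ (p - 1) := by ring
      _ = l * (p * p ^ (p - 1) * p ^ (p * d) * k ^ p) := main
      _ = _ := by ring
  have h4 : (l * k ^ p * p ^ (p * d) * p) ≠ 0 :=
    mul_ne_zero (mul_ne_zero (mul_ne_zero hkL (pow_ne_zero _ hkK)) (pow_ne_zero _ hp0)) hp0
  have h5 := mul_left_cancel₀ h4 h1
  exact Nat.pow_left_injective (n := p - 1) (Nat.sub_ne_zero_of_lt hp.out.one_lt) h5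

end localfield

end Fermat.Agent.PTLocal
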