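import Fermat.Agent.PTLocal.LF

/-!
# Roots of unity in local fields, existence of characters
-/

set_option autoImplicit false

namespace Fermat.Agent.PTLocal

open Fermat.Agent.PT IntermediateField

section bound

variable (q : ℕ) [hq : Fact q.Prime]
variable (K : Type) [Field K] [Algebra ℚ_[q] K] [FiniteDimensional ℚ_[q] K]

lemma torsion_aux (K : Type) [NontriviallyNormedField K] [IsUltrametricDist K]
    [NormedAlgebra ℚ_[q] K] [FiniteDimensional ℚ_[q] K] (p : ℕ) [hp : Fact p.Prime] :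
    ∃ n, ∀ ζ : K, ¬ IsPrimitiveRoot ζ (p ^ n) := by
  have hproper : ProperSpace K := properSpace_of_finite q K
  have hchar : CharZero K := charZero_of_padic q K
  have hpK : (p : K) ≠ 0 := Nat.cast_ne_zero.2 hp.out.ne_zero
  have hp0 : 0 < ‖(p : K)‖ := norm_pos_iff.mpr hpK
  have hp1 : ‖(p : K)‖ ≤ 1 := IsUltrametricDist.norm_natCast_le_one K p
  obtain ⟨c, hc0, hc⟩ := NormedField.exists_norm_lt K hp0
  have hc0' : c ≠ 0 := norm_pos_iff.mp hc0
  set m := (Uc c (hc.trans_le hp1)).relIndex (O1 K) with hm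
  have hm0 : m ≠ 0 := relIndex_Uc_O1_ne_zero hc0' _
  obtain ⟨n, hn⟩ : ∃ n, m < p ^ n := ⟨m, Nat.lt_pow_self hp.out.one_lt⟩
  refine ⟨n, fun ζ hζ => ?_⟩
  have hζ0 : ζ ≠ 0 := hζ.ne_zero (pow_ne_zero n hp.out.ne_zero)
  set u : Additive Kˣ := Additive.ofMul (Units.mk0 ζ hζ0) with hu
  have huO : u ∈ O1 K := by
    rw [mem_O1]
    show ‖ζ‖ = 1
    have h1 : ‖ζ‖ ^ (p ^ n) = 1 := by rw [← norm_pow, hζ.pow_eq_one, norm_one]
    exact (pow_eq_one_iff_of_nonneg (norm_nonneg _) (pow_ne_zero n hp.out.ne_zero)).1 h1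
  have hmu : m • u ∈ Uc c (hc.trans_le hp1) :=
    AddSubgroup.nsmul_relIndex_mem _ huO
  have hkill : p ^ n • (m • u) = 0 := by
    rw [smul_comm]
    have : p ^ n • u = 0 := by
      apply Additive.toMul.injective
      apply Units.ext
      show ((Units.mk0 ζ hζ0) ^ (p ^ n) : Kˣ).val = 1
      rw [Units.val_pow_eq_pow_val, Units.val_mk0, hζ.pow_eq_one]
    rw [this, smul_zero]
  have htf : ∀ (j : ℕ) (v : Additive Kˣ), v ∈ Uc c (hc.trans_le hp1) → p ^ j • v = 0 → v = 0 := by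
    intro j
    induction j with
    | zero => intro v _ hv; simpa using hv
    | succ j ih =>
      intro v hv hv0
      apply ih v hv
      have h1 : p ^ j • v ∈ (pmul (Additive Kˣ) p).ker ⊓ (Uc c (hc.trans_le hp1)) := by
        refine ⟨?_, AddSubgroup.nsmul_mem _ hv _⟩
        show p • (p ^ j • v) = 0
        rw [smul_smul, ← pow_succ', hv0]
      rw [ker_Uc hc hp1] at h1
      exact h1
  have hmu0 := htf n _ hmu hkill
  have h2 : ζ ^ m = 1 := by
    have h3 := congrArg (fun a => ((Additive.toMul a : Kˣ) : K)) hmu0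
    simpa [hu, toMul_nsmul] using h3
  rw [hζ.pow_eq_one_iff_dvd] at h2
  exact absurd (Nat.le_of_dvd (Nat.pos_of_ne_zero hm0) h2) (not_le.2 hn)

include q in
/-- only finitely many roots of unity of `p`-power order -/
theorem exists_bound_roots (p : ℕ) [hp : Fact p.Prime] :
    ∃ n, ∀ ζ : K, ¬ IsPrimitiveRoot ζ (p ^ n) := by
  let := spectralNorm.nontriviallyNormedField ℚ_[q] K
  let := spectralNorm.normedAlgebra ℚ_[q] K
  have : IsUltrametricDist K := IsUltrametricDist.of_normedAlgebra ℚ_[q]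
  exact torsion_aux q K p

end bound

section abelian

variable {p : ℕ} [hp : Fact p.Prime] {G : Type*} [Group G] {L : Levels G}

/-- a level-constant homomorphism to a finite commutative group whose image contains an
element of order `p` yields a nonzero character. -/
lemma exists_chi_of_abelian {A : Type} [CommGroup A] [Finite A] (φ : G →* A) (hφ : IsLC₁ L φ)
    (g0 : G) (h1 : φ g0 ≠ 1) (h2 : φ g0 ^ p = 1) : ∃ χ : Chi p L, χ ≠ 0 := by
  let T := Additive φ.range
  let P : AddSubgroup T := (nsmulAddMonoidHom p : T →+ T).range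
  have hfin : Finite T := inferInstanceAs (Finite φ.range)
  have hPW : ∀ w : T ⧸ P, p • w = 0 := by
    intro w
    obtain ⟨t, rfl⟩ := QuotientAddGroup.mk_surjective w
    rw [← QuotientAddGroup.mk_nsmul, QuotientAddGroup.eq_zero_iff]
    exact ⟨t, rfl⟩
  obtain ⟨d, ⟨F⟩, hd⟩ := exists_freeAb p (T ⧸ P) hPW
  have hne : P ≠ ⊤ := by
    intro htop
    have hs : Function.Surjective (nsmulAddMonoidHom p : T →+ T) :=
      AddMonoidHom.range_eq_top.1 htop
    have hi : Function.Injective (nsmulAddMonoidHom p : T →+ T) :=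
      Finite.injective_iff_surjective.2 hs
    have h3 : (nsmulAddMonoidHom p : T →+ T) (Additive.ofMul ⟨φ g0, g0, rfl⟩) = 0 := by
      show p • (Additive.ofMul (⟨φ g0, g0, rfl⟩ : φ.range)) = 0
      rw [← ofMul_pow]
      have : (⟨φ g0, g0, rfl⟩ : φ.range) ^ p = 1 := Subtype.ext h2
      rw [this]; rfl
    have h4 := hi (h3.trans (map_zero _).symm)
    exact h1 (congrArg Subtype.val (Additive.ofMul.injective h4))
  have hd0 : 0 < d := by
    rcases Nat.eq_zero_or_pos d with h0 | h0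
    · exfalso
      rw [h0, pow_zero] at hd
      apply hne
      rw [← AddSubgroup.index_eq_one]
      exact hd
    · exact h0
  let j0 : Fin d := ⟨0, hd0⟩
  let π : G →* Multiplicative (T ⧸ P) :=
    (AddMonoidHom.toMultiplicative (QuotientAddGroup.mk' P)).comp
      ((MulEquiv.multiplicativeAdditive φ.range).symm.toMonoidHom.comp φ.rangeRestrict)
  have hπ : ∀ g, π g = Multiplicative.ofAdd
    ((Additive.ofMul (φ.rangeRestrict g) : T) : T ⧸ P) := fun _ => rfl
  refine ⟨⟨fun g => F.b j0 (Multiplicative.toAdd (π g)), ?_⟩, ?_⟩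
  · rw [mem_Z1']
    constructor
    · obtain ⟨N, hN, hc⟩ := hφ
      refine ⟨N, hN, fun g s hs => ?_⟩
      have h5 : φ.rangeRestrict (g * s) = φ.rangeRestrict g := Subtype.ext (hc g s hs)
      simp only [hπ, h5]
    · intro g h
      show F.b j0 (Multiplicative.toAdd (π (g * h))) = F.b j0 (Multiplicative.toAdd (π g)) +
        F.b j0 (Multiplicative.toAdd (π h))
      rw [map_mul, toAdd_mul, map_add]
  · intro h0
    obtain ⟨t, ht⟩ := QuotientAddGroup.mk_surjective (F.a j0 1)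
    obtain ⟨g, hg⟩ := φ.rangeRestrict_surjective (Additive.toMul t)
    have h6 := congrFun (congrArg Subtype.val h0) g
    have h7 : F.b j0 (Multiplicative.toAdd (π g)) = 0 := h6
    rw [hπ, toAdd_ofAdd, hg, ofMul_toMul, ht, F.ba, if_pos rfl] at h7
    exact one_ne_zero h7

end abelian

section charexist

variable {q : ℕ} [hq : Fact q.Prime] {p : ℕ} [hp : Fact p.Prime] {G : Type*} [Group G]
  {L : Levels G} (hG : LGal ℚ_[q] (PadicAlgCl q) L)

/-- elements fixing a given element -/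
def fixSub (x : PadicAlgCl q) : Subgroup G where
  carrier := {g | hG.j g x = x}
  one_mem' := by simp
  mul_mem' {a b} ha hb := by
    show hG.j (a * b) x = x
    rw [map_mul]
    show hG.j a (hG.j b x) = x
    rw [show hG.j b x = x from hb, show hG.j a x = x from ha]
  inv_mem' {a} ha := by
    show hG.j a⁻¹ x = x
    rw [map_inv]
    show (hG.j a).symm x = x
    rw [AlgEquiv.symm_apply_eq]
    exact (show hG.j a x = x from ha).symm

lemma mem_fixSub {x : PadicAlgCl q} {g : G} : g ∈ fixSub hG x ↔ hG.j g x = x := Iff.rfl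

lemma isOpenSub_fixSub (x : PadicAlgCl q) : IsOpenSub L (fixSub hG x) := by
  have hfin : FiniteDimensional ℚ_[q] ℚ_[q]⟮x⟯ :=
    adjoin.finiteDimensional (Algebra.IsAlgebraic.isAlgebraic _).isIntegral
  obtain ⟨N, hN, h⟩ := hG.cof _ hfin
  exact ⟨N, hN, fun s hs => h s hs ⟨_, mem_adjoin_simple_self _ x⟩⟩

include hG in
/-- **Existence of characters** of order `p` of a local Galois group. -/
theorem exists_chi_ne_zero : ∃ χ : Chi p L, χ ≠ 0 := by
  classical
  have hpn : ∀ n : ℕ, NeZero (p ^ n) := fun n => ⟨pow_ne_zero n hp.out.ne_zero⟩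
  have hprim : ∀ n : ℕ, ∃ η : PadicAlgCl q, IsPrimitiveRoot η (p ^ n) := by
    intro n
    have : NeZero ((p ^ n : ℕ) : PadicAlgCl q) :=
      ⟨Nat.cast_ne_zero.2 (pow_ne_zero n hp.out.ne_zero)⟩
    exact HasEnoughRootsOfUnity.exists_primitiveRoot (PadicAlgCl q) (p ^ n)
  obtain ⟨ζ, hζ⟩ := hprim 1
  rw [pow_one] at hζ
  set V := fixSub hG ζ with hV
  have hVo := isOpenSub_fixSub hG ζ
  have hEfd := (hG.sub V hVo).finiteDimensional_E
  have hex : ∃ n, ∀ η : PadicAlgCl q, IsPrimitiveRoot η (p ^ n) → ∃ g ∈ V, hG.j g η ≠ η := by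
    obtain ⟨n, hn⟩ := exists_bound_roots q (hG.sub V hVo).E p
    refine ⟨n, fun η hη => ?_⟩
    by_contra hcon
    push Not at hcon
    have hηE : η ∈ (hG.sub V hVo).E := (hG.sub V hVo).mem_E.2 (fun g => hcon g g.2)
    exact hn ⟨η, hηE⟩ (IsPrimitiveRoot.of_map_of_injective
      (f := algebraMap (hG.sub V hVo).E (PadicAlgCl q)) hη
      (algebraMap (hG.sub V hVo).E (PadicAlgCl q)).injective)
  obtain ⟨N, hspec, hmin⟩ : ∃ N, (∀ η : PadicAlgCl q, IsPrimitiveRoot η (p ^ N) →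
      ∃ g ∈ V, hG.j g η ≠ η) ∧ ∀ m < N, ¬ (∀ η : PadicAlgCl q, IsPrimitiveRoot η (p ^ m) →
      ∃ g ∈ V, hG.j g η ≠ η) :=
    ⟨Nat.find hex, Nat.find_spec hex, fun m hm => Nat.find_min hex hm⟩
  have hN2 : 2 ≤ N := by
    by_contra hlt
    push Not at hlt
    obtain rfl | rfl : N = 0 ∨ N = 1 := by omega
    · obtain ⟨g, hg, hne⟩ := hspec 1 (by rw [pow_zero]; exact IsPrimitiveRoot.one)
      exact hne (map_one _)
    · obtain ⟨g, hg, hne⟩ := hspec ζ (by rw [pow_one]; exact hζ)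
      exact hne hg
  obtain ⟨N', hN'⟩ : ∃ N', N = N' + 2 := ⟨N - 2, by omega⟩
  have hm1 := hmin (N' + 1) (by omega)
  push Not at hm1
  obtain ⟨η', hη', hfix'⟩ := hm1
  obtain ⟨η, hη⟩ := IsAlgClosed.exists_pow_nat_eq η' hp.out.pos
  have hηprim : IsPrimitiveRoot η (p ^ N) := by
    have h1 : η ^ (p ^ N) = 1 := by
      rw [hN', pow_succ', pow_mul, hη, hη'.pow_eq_one]
    obtain ⟨m, hm, hord⟩ := (Nat.dvd_prime_pow hp.out).1 (orderOf_dvd_of_pow_eq_one h1)
    have h2 : m = N := by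
      by_contra hne
      have hlt : m ≤ N' + 1 := by omega
      have h3 : η ^ (p ^ (N' + 1)) = 1 := by
        rw [← orderOf_dvd_iff_pow_eq_one, hord]
        exact pow_dvd_pow p hlt
      rw [pow_succ', pow_mul, hη] at h3
      rw [hη'.pow_eq_one_iff_dvd] at h3
      have h4 := (Nat.pow_dvd_pow_iff_le_right hp.out.one_lt).1 h3
      omega
    rw [← h2, ← hord]
    exact IsPrimitiveRoot.orderOf η
  obtain ⟨g0, hg0V, hg0⟩ := hspec η hηprim
  have : NeZero (p ^ N) := hpn N
  let φ : G →* (ZMod (p ^ N))ˣ := (hηprim.autToPow ℚ_[q]).comp hG.j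
  have hφ : ∀ g, η ^ ((φ g : (ZMod (p ^ N))ˣ) : ZMod (p ^ N)).val = hG.j g η :=
    fun g => hηprim.autToPow_spec ℚ_[q] (hG.j g)
  have hφ1 : ∀ g, hG.j g η = η → φ g = 1 := by
    intro g hg
    have h1 := hφ g
    rw [hg] at h1
    have h2 : η ^ ((φ g : (ZMod (p ^ N))ˣ) : ZMod (p ^ N)).val = η ^ 1 := by rw [h1, pow_one]
    have h3 := hηprim.pow_inj (ZMod.val_lt _) (Nat.one_lt_pow (by omega) hp.out.one_lt) h2
    apply Units.ext
    rw [Units.val_one, ← ZMod.natCast_zmod_val ((φ g : (ZMod (p ^ N))ˣ) : ZMod (p ^ N)), h3,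
      Nat.cast_one]
  refine exists_chi_of_abelian φ ?_ g0 ?_ ?_
  · obtain ⟨M, hM, hle⟩ := isOpenSub_fixSub hG η
    exact ⟨M, hM, fun g s hs => by rw [map_mul, hφ1 s (hle hs), mul_one]⟩
  · intro h1
    apply hg0
    rw [← hφ, h1, Units.val_one]
    have hp1 : Fact (1 < p ^ N) := ⟨Nat.one_lt_pow (by omega) hp.out.one_lt⟩
    rw [ZMod.val_one, pow_one]
  · rw [← map_pow]
    apply hφ1
    have hη0 : η ≠ 0 := hηprim.ne_zero (pow_ne_zero N hp.out.ne_zero)
    obtain ⟨i, -, hi⟩ := hζ.eq_pow_of_pow_eq_one (ξ := hG.j g0 η / η) (by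
      rw [div_pow, ← map_pow, hη, hfix' g0 hg0V, div_self]
      exact hη'.ne_zero (pow_ne_zero _ hp.out.ne_zero))
    have h5 : hG.j g0 η = ζ ^ i * η := by
      rw [hi]; field_simp
    have h6 : ∀ n : ℕ, hG.j (g0 ^ n) η = (ζ ^ i) ^ n * η := by
      intro n
      induction n with
      | zero => simp
      | succ n ih =>
        rw [pow_succ', map_mul]
        show hG.j g0 (hG.j (g0 ^ n) η) = _
        rw [ih, map_mul, map_pow, map_pow, show hG.j g0 ζ = ζ from hg0V, h5, pow_succ]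
        ring
    rw [h6, ← pow_mul, mul_comm i p, pow_mul, hζ.pow_eq_one, one_pow, one_mul]

end charexist

end Fermat.Agent.PTLocal
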