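import Fermat.Agent.PTLocal.LL

/-!
# The tower step
-/

set_option autoImplicit false

namespace Fermat.Agent.PTLocal

open Fermat.Agent.PT

variable {p : ℕ} [hp : Fact p.Prime] {G : Type*} [Group G] {L : Levels G} {A : Type*}
  [AddCommGroup A] {ρ : Act G A} {K : SES (trivAct G (ZMod p)) ρ ρ}

/-- the Kummer sequence restricted to a subgroup -/
def resK (K : SES (trivAct G (ZMod p)) ρ ρ) (U : Subgroup G) :
    SES (trivAct U (ZMod p)) (resAct ρ U) (resAct ρ U) := K.res U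

/-- the pairing `Map(X, 𝔽_p) × 𝔽_p → Map(X, 𝔽_p)` -/
def mulPX (p : ℕ) {X : Type*} (ξ : G →* Equiv.Perm X) :
    Pairing (mapAct ξ (trivAct G (ZMod p))) (trivAct G (ZMod p))
      (mapAct ξ (trivAct G (ZMod p))) where
  m :=
    { toFun := fun f =>
        { toFun := fun b x => f x * b
          map_zero' := by ext x; simp
          map_add' := fun b b' => by ext x; simp [mul_add] }
      map_zero' := by ext b x; simp
      map_add' := fun f f' => by ext b x; simp [add_mul] }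
  comm _ _ _ := rfl

lemma shT_cup {X : Type*} (ξ : G →* Equiv.Perm X) (x₀ : X)
    (x : H1 L (mapAct ξ (trivAct G (ZMod p)))) (y : H1 L (trivAct G (ZMod p))) :
    (shT p L ξ x₀).h2 ((mulPX p ξ).cup (smooth_trivAct L) x y) =
      cupT p (L.sub (stab ξ x₀)) ((shT p L ξ x₀).h1 x) ((resT p L (stab ξ x₀)).h1 y) :=
  Pairing.cup_nat _ (mulP p _) _ (smooth_trivAct _) (shT p L ξ x₀) (resT p L (stab ξ x₀))
    (shT p L ξ x₀) (fun _ => rfl) (fun _ => rfl) (fun _ _ => rfl) x y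

lemma sum_cup {X : Type*} [Fintype X] (ξ : G →* Equiv.Perm X)
    (x : H1 L (mapAct ξ (trivAct G (ZMod p)))) (y : H1 L (trivAct G (ZMod p))) :
    (sumHom ξ (trivAct G (ZMod p))).h2 L ((mulPX p ξ).cup (smooth_trivAct L) x y) =
      cupT p L ((sumHom ξ (trivAct G (ZMod p))).h1 L x) y := by
  have h := Pairing.cup_nat (mulPX p ξ) (mulP p G) (smooth_trivAct L) (smooth_trivAct L)
    ((sumHom ξ (trivAct G (ZMod p))).pair L) (PairHom.id L (trivAct G (ZMod p)))
    ((sumHom ξ (trivAct G (ZMod p))).pair L) (fun _ => rfl) (fun _ => rfl)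
    (fun a b => by
      show ∑ i, a i * b = (∑ i, a i) * b
      rw [Finset.sum_mul]) x y
  rw [PairHom.h1_id] at h
  exact h

lemma chi_res_eq_zero {χ₁ χ₂ : Chi p L} (h1 : χ₁ ≠ 0)
    (h : (resT p L (stab (xi χ₁) 0)).h1 (H1.mk L _ χ₂) = 0) :
    H1.mk L _ χ₂ ∈ AddSubgroup.zmultiples (H1.mk L (trivAct G (ZMod p)) χ₁) := by
  rw [PairHom.h1_mk] at h
  have h2 := chi_mk_eq_zero.1 h
  have h3 : ∀ g, (χ₁ : G → ZMod p) g = 0 → (χ₂ : G → ZMod p) g = 0 := by
    intro g hg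
    exact congrFun (congrArg Subtype.val h2) (⟨g, (mem_stab_xi χ₁).2 hg⟩ : stab (xi χ₁) 0)
  obtain ⟨g0, hg0⟩ := chi_surjective h1 1
  have hpow : ∀ (χ : Chi p L) (n : ℕ) (g : G), (χ : G → ZMod p) (g ^ n) =
      n * (χ : G → ZMod p) g := by
    intro χ n g
    induction n with
    | zero => simp [chi_one]
    | succ n ih => rw [pow_succ, chi_mul, ih]; push_cast; ring
  refine AddSubgroup.mem_zmultiples_iff.2 ⟨((χ₂ : G → ZMod p) g0).val, ?_⟩
  rw [← map_zsmul]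
  congr 1
  apply Subtype.ext
  ext g
  show (((χ₂ : G → ZMod p) g0).val : ℤ) • (χ₁ : G → ZMod p) g = (χ₂ : G → ZMod p) g
  rw [zsmul_eq_mul, Int.cast_natCast, ZMod.natCast_val, ZMod.cast_id', id]
  have h4 := h3 (g * (g0 ^ ((χ₁ : G → ZMod p) g).val)⁻¹) (by
    rw [chi_mul, chi_inv, hpow, hg0, ZMod.natCast_val, ZMod.cast_id', id, mul_one,
      add_neg_cancel])
  rw [chi_mul, chi_inv, hpow, ZMod.natCast_val, ZMod.cast_id', id, add_neg_eq_zero] at h4
  rw [h4, mul_comm]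

/-- **Tower step.** -/
theorem LL.tower (h : LL p L ρ K) {χ₁ : Chi p L} (hχ₁ : χ₁ ≠ 0)
    (hV : LL p (L.sub (stab (xi χ₁) 0)) (resAct ρ (stab (xi χ₁) 0)) (resK K (stab (xi χ₁) 0)))
    (x : H2 L (trivAct G (ZMod p)))
    (hx : IsCup p (L.sub (stab (xi χ₁) 0)) ((resT p L (stab (xi χ₁) 0)).h2 x)) :
    IsCup p L x := by
  set V := stab (xi χ₁) 0 with hVdef
  have hξ := levelTrivial_xi χ₁
  have ht := isTrans_xi hχ₁
  have hb1 := sh_h1_bijective (L := L) (ρ := trivAct G (ZMod p)) hξ (smooth_trivAct L) ht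
  have hb2 := sh_h2_bijective (L := L) (ρ := trivAct G (ZMod p)) hξ (smooth_trivAct L) ht
  have hy1 : H1.mk L (trivAct G (ZMod p)) χ₁ ≠ 0 := fun h0 => hχ₁ (chi_mk_eq_zero.1 h0)
  obtain ⟨y2, hy2⟩ := h.exists_notMem_zmultiples (H1.mk L (trivAct G (ZMod p)) χ₁)
  have hy20 : y2 ≠ 0 := by
    rintro rfl
    exact hy2 (AddSubgroup.zero_mem _)
  have hr2 : (resT p L V).h1 y2 ≠ 0 := by
    obtain ⟨χ₂, rfl⟩ := H1.mk_surjective _ _ y2
    intro h0
    exact hy2 (chi_res_eq_zero hχ₁ h0)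
  obtain ⟨β, hβ⟩ := (hV.isCup_iff hr2 _).1 hx
  -- the corestriction
  have key : ∀ β' : H1 L (mapAct (xi χ₁) (trivAct G (ZMod p))),
      cupT p L ((sumHom (xi χ₁) (trivAct G (ZMod p))).h1 L β') y2 = 0 →
      cupT p (L.sub V) ((shT p L (xi χ₁) 0).h1 β') ((resT p L V).h1 y2) = 0 := by
    let S : AddSubgroup (H1 L (mapAct (xi χ₁) (trivAct G (ZMod p)))) :=
      ((Rm p (L.sub V) ((resT p L V).h1 y2)).ker).comap (shT p L (xi χ₁) 0).h1
    let T : AddSubgroup (H1 L (mapAct (xi χ₁) (trivAct G (ZMod p)))) :=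
      ((Rm p L y2).ker).comap ((sumHom (xi χ₁) (trivAct G (ZMod p))).h1 L)
    have hSi : S.index = p := by
      refine Eq.trans ?_ (hV.index_ker hr2)
      exact AddSubgroup.index_comap_of_surjective _ hb1.2
    have hST : S ≤ T := by
      intro β' hβ'
      have h1 : cupT p (L.sub V) ((shT p L (xi χ₁) 0).h1 β') ((resT p L V).h1 y2) = 0 := hβ'
      rw [← shT_cup] at h1
      have h2 : (mulPX p (xi χ₁)).cup (smooth_trivAct L) β' y2 = 0 :=
        hb2.1 (h1.trans (map_zero _).symm)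
      show cupT p L ((sumHom (xi χ₁) (trivAct G (ZMod p))).h1 L β') y2 = 0
      rw [← sum_cup, h2, map_zero]
    have hT : T ≠ ⊤ := by
      intro hT
      apply hy2
      refine h.mem_zmultiples hy1 hy20 ?_
      intro κ hκ
      obtain ⟨b, rfl⟩ := h.kappa_surj κ
      obtain ⟨f, hf⟩ := (h.cup_eq_zero hχ₁ b).1 hκ
      have h1 : ((sumHom (xi χ₁) (trivAct G (ZMod p))).h1 L)
          ((K.mapX (xi χ₁)).δ0 (h.smooth.mapAct hξ) f) = K.δ0 h.smooth b := by
        rw [← hf]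
        exact SES.δ0_nat (K.mapX (xi χ₁)) K (h.smooth.mapAct hξ) h.smooth
          ((sumHom (xi χ₁) (trivAct G (ZMod p))).pair L) ((sumHom (xi χ₁) ρ).pair L)
          ((sumHom (xi χ₁) ρ).pair L) (fun _ => rfl) (fun a => by
            show ∑ i, K.i.f (a i) = K.i.f (∑ i, a i)
            rw [map_sum]) (fun a => by
            show ∑ i, K.p.f (a i) = K.p.f (∑ i, a i)
            rw [map_sum]) f
      have h2 : ((K.mapX (xi χ₁)).δ0 (h.smooth.mapAct hξ) f) ∈ T := by rw [hT]; trivial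
      rw [← h1]
      exact h2
    have heq := eq_of_index_prime hSi hST hT
    intro β' hβ'
    have h3 : β' ∈ T := hβ'
    rw [← heq] at h3
    exact h3
  obtain ⟨β', rfl⟩ := hb1.2 β
  have hβ1 : cupT p (L.sub V) ((shT p L (xi χ₁) 0).h1 β') ((resT p L V).h1 y2) =
    (resT p L V).h2 x := hβ
  have h1 : (mulPX p (xi χ₁)).cup (smooth_trivAct L) β' y2 =
      (constHom (xi χ₁) (trivAct G (ZMod p))).h2 L x := by
    apply hb2.1
    refine (shT_cup (L := L) (xi χ₁) 0 β' y2).trans (hβ1.trans ?_)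
    exact (shT_const L (xi χ₁) 0 x).symm
  have h2 : cupT p L ((sumHom (xi χ₁) (trivAct G (ZMod p))).h1 L β') y2 = 0 := by
    rw [← sum_cup, h1, ← EHom.h2_comp]
    refine EHom.h2_zero L (fun a => ?_) x
    show ∑ _x : ZMod p, a = 0
    rw [Finset.sum_const, Finset.card_univ, ZMod.card, nsmul_eq_mul, CharP.cast_eq_zero,
      zero_mul]
  have h3 := key β' h2
  rw [hβ1] at h3
  have h4 : (constHom (xi χ₁) (trivAct G (ZMod p))).h2 L x = 0 := by
    apply hb2.1
    refine (shT_const L (xi χ₁) 0 x).trans (h3.trans ?_)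
    exact (map_zero _).symm
  obtain ⟨κ, hκ⟩ := h.exists_cup hχ₁ x h4
  exact ⟨κ, _, hκ⟩

end Fermat.Agent.PTLocal
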